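/-
N4-FULL, row P1 (a), generic part (helper19): THE `p`-ADIC TATE MODULE OF AN ABELIAN GROUP.

For an abelian group `J` and a prime `p`, `Tate p J` is the group of sequences `(x_k)` in `J` with
`p ^ k • x_k = 0` and `p • x_{k+1} = x_k`  (`= lim_k J[p^k]`, transition maps multiplication by `p`),
with its natural `ℤ_[p]`-module structure.

* `Tate.proj k : Tate p J →+ J`, `x ↦ x_k`;  `ker (proj k) = p ^ k • Tate`;
* `Tate p J` is torsion-free and `p`-adically separated;
* if `J[p]` is finite then `Tate p J` is a FINITE FREE `ℤ_[p]`-module;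
* functoriality `Tate.map f` for additive endomorphisms (and homomorphisms) of `J`.

Mathlib only.
-/
import Mathlib

set_option autoImplicit false
set_option linter.unusedSectionVars false
set_option linter.style.haveILetI false

open PadicInt

namespace Fermat.Agent.N4F.Adic.TateModule

variable (p : ℕ) [hp : Fact p.Prime] (J : Type*) [AddCommGroup J]

/-- The subgroup of compatible sequences of `p`-power torsion points. -/
def tateSub : AddSubgroup (ℕ → J) where
  carrier := {x | (∀ k, p ^ k • x k = 0) ∧ ∀ k, p • x (k + 1) = x k}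
  zero_mem' := ⟨fun k => by simp, fun k => by simp⟩
  add_mem' := by
    rintro x y ⟨hx1, hx2⟩ ⟨hy1, hy2⟩
    refine ⟨fun k => ?_, fun k => ?_⟩
    · rw [Pi.add_apply, smul_add, hx1, hy1, add_zero]
    · rw [Pi.add_apply, smul_add, hx2, hy2, Pi.add_apply]
  neg_mem' := by
    rintro x ⟨hx1, hx2⟩
    refine ⟨fun k => ?_, fun k => ?_⟩
    · rw [Pi.neg_apply, smul_neg, hx1, neg_zero]
    · rw [Pi.neg_apply, smul_neg, hx2, Pi.neg_apply]

/-- **The `p`-adic Tate module** of the abelian group `J`. -/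
abbrev Tate : Type _ := ↥(tateSub p J)

variable {p J}

namespace Tate

theorem pow_smul_apply (x : Tate p J) (k : ℕ) : p ^ k • (x : ℕ → J) k = 0 := x.2.1 k

theorem smul_apply_succ (x : Tate p J) (k : ℕ) : p • (x : ℕ → J) (k + 1) = (x : ℕ → J) k :=
  x.2.2 k

theorem apply_zero (x : Tate p J) : (x : ℕ → J) 0 = 0 := by
  have := pow_smul_apply x 0
  rwa [pow_zero, one_smul] at this

theorem pow_smul_apply_add (x : Tate p J) (k m : ℕ) :
    p ^ m • (x : ℕ → J) (k + m) = (x : ℕ → J) k := by
  induction m with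
  | zero => rw [pow_zero, one_smul, add_zero]
  | succ m ih => rw [pow_succ, mul_smul, ← add_assoc, smul_apply_succ, ih]

@[ext]
theorem ext {x y : Tate p J} (h : ∀ k, (x : ℕ → J) k = (y : ℕ → J) k) : x = y :=
  Subtype.ext (funext h)

/-- Congruent natural numbers act in the same way on `p ^ k`-torsion. -/
theorem nsmul_eq_of_modEq {y : J} {k : ℕ} (hy : p ^ k • y = 0) {m m' : ℕ}
    (h : m ≡ m' [MOD p ^ k]) : m • y = m' • y := by
  wlog hle : m' ≤ m generalizing m m'
  · exact (this h.symm (le_of_not_ge hle)).symm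
  obtain ⟨c, hc⟩ := (Nat.modEq_iff_dvd' hle).1 h.symm
  have : m = m' + p ^ k * c := by omega
  rw [this, add_smul, mul_comm, mul_smul, hy, smul_zero, add_zero]

theorem appr_modEq_add (a b : ℤ_[p]) (k : ℕ) :
    (a + b).appr k ≡ a.appr k + b.appr k [MOD p ^ k] := by
  rw [← ZMod.natCast_eq_natCast_iff]
  have h := map_add (toZModPow (p := p) k) a b
  change (((a + b).appr k : ℕ) : ZMod (p ^ k)) = ((a.appr k : ℕ) : ZMod (p ^ k)) +
    ((b.appr k : ℕ) : ZMod (p ^ k)) at h
  rw [h, Nat.cast_add]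

theorem appr_modEq_mul (a b : ℤ_[p]) (k : ℕ) :
    (a * b).appr k ≡ a.appr k * b.appr k [MOD p ^ k] := by
  rw [← ZMod.natCast_eq_natCast_iff]
  have h := map_mul (toZModPow (p := p) k) a b
  change (((a * b).appr k : ℕ) : ZMod (p ^ k)) = ((a.appr k : ℕ) : ZMod (p ^ k)) *
    ((b.appr k : ℕ) : ZMod (p ^ k)) at h
  rw [h, Nat.cast_mul]

theorem appr_modEq_one (k : ℕ) : (1 : ℤ_[p]).appr k ≡ 1 [MOD p ^ k] := by
  rw [← ZMod.natCast_eq_natCast_iff]
  have h := map_one (toZModPow (p := p) k)
  change (((1 : ℤ_[p]).appr k : ℕ) : ZMod (p ^ k)) = 1 at h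
  rw [h, Nat.cast_one]

theorem appr_zero (k : ℕ) : (0 : ℤ_[p]).appr k = 0 := by
  have h := map_zero (toZModPow (p := p) k)
  change (((0 : ℤ_[p]).appr k : ℕ) : ZMod (p ^ k)) = 0 at h
  rw [ZMod.natCast_eq_zero_iff] at h
  exact Nat.eq_zero_of_dvd_of_lt h (appr_lt _ _)

theorem appr_modEq_natCast (n k : ℕ) : ((n : ℕ) : ℤ_[p]).appr k ≡ n [MOD p ^ k] := by
  rw [← ZMod.natCast_eq_natCast_iff]
  have h := map_natCast (toZModPow (p := p) k) n
  exact h

theorem appr_succ_modEq (a : ℤ_[p]) (k : ℕ) : a.appr (k + 1) ≡ a.appr k [MOD p ^ k] := by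
  have h := dvd_appr_sub_appr a k (k + 1) (Nat.le_succ k)
  exact ((Nat.modEq_iff_dvd' (appr_mono a (Nat.le_succ k))).2 h).symm

/-- The `ℤ_[p]`-action on sequences. -/
noncomputable def smulFun (a : ℤ_[p]) (x : Tate p J) : Tate p J :=
  ⟨fun k => a.appr k • (x : ℕ → J) k, by
    refine ⟨fun k => ?_, fun k => ?_⟩
    · rw [smul_comm, pow_smul_apply, smul_zero]
    · rw [smul_comm, smul_apply_succ]
      exact nsmul_eq_of_modEq (pow_smul_apply x k) (appr_succ_modEq a k)⟩

theorem smulFun_apply (a : ℤ_[p]) (x : Tate p J) (k : ℕ) :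
    (smulFun a x : ℕ → J) k = a.appr k • (x : ℕ → J) k := rfl

noncomputable instance instModule : Module ℤ_[p] (Tate p J) where
  smul := smulFun
  one_smul x := by
    ext k
    change (1 : ℤ_[p]).appr k • (x : ℕ → J) k = _
    rw [nsmul_eq_of_modEq (pow_smul_apply x k) (appr_modEq_one k), one_smul]
  mul_smul a b x := by
    ext k
    change (a * b).appr k • (x : ℕ → J) k = a.appr k • (b.appr k • (x : ℕ → J) k)
    rw [nsmul_eq_of_modEq (pow_smul_apply x k) (appr_modEq_mul a b k), mul_smul]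
  smul_zero a := by
    ext k
    change a.appr k • (0 : J) = 0
    rw [smul_zero]
  smul_add a x y := by
    ext k
    change a.appr k • ((x : ℕ → J) k + (y : ℕ → J) k) = _
    rw [smul_add]
    rfl
  add_smul a b x := by
    ext k
    change (a + b).appr k • (x : ℕ → J) k = a.appr k • (x : ℕ → J) k + b.appr k • (x : ℕ → J) k
    rw [nsmul_eq_of_modEq (pow_smul_apply x k) (appr_modEq_add a b k), add_smul]
  zero_smul x := by
    ext k
    change (0 : ℤ_[p]).appr k • (x : ℕ → J) k = 0
    rw [appr_zero, zero_smul]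

theorem smul_apply (a : ℤ_[p]) (x : Tate p J) (k : ℕ) :
    ((a • x : Tate p J) : ℕ → J) k = a.appr k • (x : ℕ → J) k := rfl

theorem natCast_smul_apply (n : ℕ) (x : Tate p J) (k : ℕ) :
    (((n : ℤ_[p]) • x : Tate p J) : ℕ → J) k = n • (x : ℕ → J) k := by
  rw [smul_apply]
  exact nsmul_eq_of_modEq (pow_smul_apply x k) (appr_modEq_natCast n k)

theorem natCast_smul_eq_nsmul (n : ℕ) (x : Tate p J) : (n : ℤ_[p]) • x = n • x := by
  ext k
  rw [natCast_smul_apply]
  rfl

/-- The `k`-th projection `Tate p J → J[p^k] ⊆ J`. -/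
def proj (k : ℕ) : Tate p J →+ J where
  toFun x := (x : ℕ → J) k
  map_zero' := rfl
  map_add' _ _ := rfl

@[simp] theorem proj_apply (k : ℕ) (x : Tate p J) : proj k x = (x : ℕ → J) k := rfl

theorem pow_smul_proj (k : ℕ) (x : Tate p J) : p ^ k • proj k x = 0 := pow_smul_apply x k

theorem proj_smul (k : ℕ) (a : ℤ_[p]) (x : Tate p J) : proj k (a • x) = a.appr k • proj k x := rfl

/-- The shift `(x_k) ↦ (x_{k+m})` on sequences with `x_m = 0`. -/
def shift (m : ℕ) (x : Tate p J) (hx : (x : ℕ → J) m = 0) : Tate p J :=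
  ⟨fun k => (x : ℕ → J) (k + m), by
    refine ⟨fun k => ?_, fun k => ?_⟩
    · have h1 := pow_smul_apply x (k + m)
      have h2 : p ^ k • (x : ℕ → J) (k + m) = (x : ℕ → J) m := by
        rw [add_comm]; exact pow_smul_apply_add x m k
      rw [h2, hx]
    · have := smul_apply_succ x (k + m)
      rwa [show k + m + 1 = k + 1 + m by omega] at this⟩

theorem pow_smul_shift (m : ℕ) (x : Tate p J) (hx : (x : ℕ → J) m = 0) :
    (p : ℤ_[p]) ^ m • shift m x hx = x := by
  rw [← Nat.cast_pow, natCast_smul_eq_nsmul]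
  ext k
  change p ^ m • (x : ℕ → J) (k + m) = _
  exact pow_smul_apply_add x k m

/-- **The kernel of the `k`-th projection is `p ^ k • Tate`.** -/
theorem proj_eq_zero_iff (k : ℕ) (x : Tate p J) :
    proj k x = 0 ↔ ∃ y : Tate p J, (p : ℤ_[p]) ^ k • y = x := by
  constructor
  · intro h
    exact ⟨shift k x h, pow_smul_shift k x h⟩
  · rintro ⟨y, rfl⟩
    rw [← Nat.cast_pow, natCast_smul_eq_nsmul]
    change p ^ k • (y : ℕ → J) k = 0
    exact pow_smul_apply y k

/-- `p`-adic separatedness. -/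
theorem eq_zero_of_forall_pow_dvd (x : Tate p J)
    (h : ∀ k : ℕ, ∃ y : Tate p J, (p : ℤ_[p]) ^ k • y = x) : x = 0 := by
  ext k
  exact (proj_eq_zero_iff k x).2 (h k)

theorem p_smul_eq_zero {x : Tate p J} (h : (p : ℤ_[p]) • x = 0) : x = 0 := by
  ext k
  have h1 : (((p : ℤ_[p]) • x : Tate p J) : ℕ → J) (k + 1) = 0 := by rw [h]; rfl
  rw [natCast_smul_apply, smul_apply_succ] at h1
  exact h1

theorem pow_smul_eq_zero {n : ℕ} {x : Tate p J} (h : (p : ℤ_[p]) ^ n • x = 0) : x = 0 := by
  induction n with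
  | zero => simpa using h
  | succ n ih =>
    apply ih
    apply p_smul_eq_zero
    rw [smul_smul, ← pow_succ']
    exact h

/-- The Tate module is torsion-free. -/
theorem smul_eq_zero_imp {a : ℤ_[p]} {x : Tate p J} (ha : a ≠ 0) (h : a • x = 0) : x = 0 := by
  obtain ⟨n, u, rfl⟩ : ∃ (n : ℕ) (u : ℤ_[p]ˣ), a = (u : ℤ_[p]) * (p : ℤ_[p]) ^ n :=
    ⟨a.valuation, unitCoeff ha, unitCoeff_spec ha⟩
  rw [mul_smul] at h
  have h1 : (p : ℤ_[p]) ^ n • x = 0 := by
    have := congrArg (fun y => ((u⁻¹ : ℤ_[p]ˣ) : ℤ_[p]) • y) h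
    simp only [smul_zero] at this
    rwa [smul_smul, Units.inv_mul, one_smul] at this
  exact pow_smul_eq_zero h1

instance : NoZeroSMulDivisors ℤ_[p] (Tate p J) :=
  ⟨fun {a x} h => by
    by_cases ha : a = 0
    · exact Or.inl ha
    · exact Or.inr (smul_eq_zero_imp ha h)⟩

/-! ### Functoriality -/

section Map

variable {J' : Type*} [AddCommGroup J'] {J'' : Type*} [AddCommGroup J'']

/-- Functoriality of the Tate module. -/
noncomputable def map (f : J →+ J') : Tate p J →ₗ[ℤ_[p]] Tate p J' where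
  toFun x := ⟨fun k => f ((x : ℕ → J) k), by
    refine ⟨fun k => ?_, fun k => ?_⟩
    · rw [← map_nsmul, pow_smul_apply, map_zero]
    · rw [← map_nsmul, smul_apply_succ]⟩
  map_add' x y := by
    ext k
    change f ((x : ℕ → J) k + (y : ℕ → J) k) = _
    rw [map_add]
    rfl
  map_smul' a x := by
    ext k
    change f (a.appr k • (x : ℕ → J) k) = a.appr k • f ((x : ℕ → J) k)
    rw [map_nsmul]

@[simp] theorem map_apply (f : J →+ J') (x : Tate p J) (k : ℕ) :
    ((map f x : Tate p J') : ℕ → J') k = f ((x : ℕ → J) k) := rfl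

theorem proj_map (f : J →+ J') (x : Tate p J) (k : ℕ) : proj k (map f x) = f (proj k x) := rfl

theorem map_id : map (AddMonoidHom.id J) = (LinearMap.id : Tate p J →ₗ[ℤ_[p]] Tate p J) := by
  ext x k; rfl

theorem map_comp (g : J' →+ J'') (f : J →+ J') :
    (map (g.comp f) : Tate p J →ₗ[ℤ_[p]] Tate p J'') = (map g).comp (map f) := by
  ext x k; rfl

theorem map_add (f g : J →+ J') :
    (map (f + g) : Tate p J →ₗ[ℤ_[p]] Tate p J') = map f + map g := by
  ext x k; rfl

theorem map_zero : (map (0 : J →+ J') : Tate p J →ₗ[ℤ_[p]] Tate p J') = 0 := by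
  ext x k; rfl

theorem map_neg (f : J →+ J') :
    (map (-f) : Tate p J →ₗ[ℤ_[p]] Tate p J') = -map f := by
  ext x k; rfl

theorem map_sub (f g : J →+ J') :
    (map (f - g) : Tate p J →ₗ[ℤ_[p]] Tate p J') = map f - map g := by
  ext x k; rfl

theorem map_nsmul (n : ℕ) (f : J →+ J') :
    (map (n • f) : Tate p J →ₗ[ℤ_[p]] Tate p J') = (n : ℤ_[p]) • map f := by
  ext x k
  change n • f ((x : ℕ → J) k) = (((n : ℤ_[p]) • map f x : Tate p J') : ℕ → J') k
  rw [natCast_smul_apply]
  rfl

/-- An endomorphism of `J` which is the identity on `J[p^k]` is the identity modulo `p^k`. -/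
theorem map_sub_self_eq_pow_smul (f : J →+ J) (k : ℕ)
    (hf : ∀ y : J, p ^ k • y = 0 → f y = y) (x : Tate p J) :
    ∃ y : Tate p J, (p : ℤ_[p]) ^ k • y = map f x - x := by
  rw [← proj_eq_zero_iff]
  change f ((x : ℕ → J) k) - (x : ℕ → J) k = 0
  rw [hf _ (pow_smul_apply x k), sub_self]

/-- An identity between additive endomorphisms which holds on all `p`-power torsion holds on the
Tate module. -/
theorem map_eq_of_forall_torsion (f g : J →+ J')
    (h : ∀ (k : ℕ) (y : J), p ^ k • y = 0 → f y = g y) :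
    (map f : Tate p J →ₗ[ℤ_[p]] Tate p J') = map g := by
  ext x k
  exact h k _ (pow_smul_apply x k)

end Map

instance instIsTorsionFree : Module.IsTorsionFree ℤ_[p] (Tate p J) where
  isSMulRegular r hr x y hxy := by
    have hr0 : r ≠ 0 := hr.ne_zero
    have h : r • (x - y) = 0 := by
      rw [smul_sub]
      exact sub_eq_zero.2 hxy
    exact sub_eq_zero.1 (smul_eq_zero_imp hr0 h)

/-! ### Finiteness -/

section Finite

variable (hfin : (Set.range (proj 1 : Tate p J → J)).Finite)

/-- The index set: the (finite) image of the first projection. -/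
abbrev Idx (p : ℕ) [Fact p.Prime] (J : Type*) [AddCommGroup J] : Type _ :=
  ↥(Set.range (proj 1 : Tate p J → J))

/-- A section of the first projection. -/
noncomputable def sec (i : Idx p J) : Tate p J := i.2.choose

theorem proj_sec (i : Idx p J) : proj 1 (sec i) = (i : J) := i.2.choose_spec

/-- The class of `x` modulo `p`. -/
def cls (x : Tate p J) : Idx p J := ⟨proj 1 x, x, rfl⟩

theorem sub_sec_apply_one (x : Tate p J) : ((x - sec (cls x) : Tate p J) : ℕ → J) 1 = 0 := by
  change (x : ℕ → J) 1 - (sec (cls x) : ℕ → J) 1 = 0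
  have := proj_sec (cls x)
  rw [proj_apply] at this
  rw [this]
  exact sub_self _

/-- One step of the `p`-adic expansion: `x = sec (cls x) + p • next x`. -/
noncomputable def next (x : Tate p J) : Tate p J :=
  shift 1 (x - sec (cls x)) (sub_sec_apply_one x)

theorem eq_sec_add_smul_next (x : Tate p J) :
    x = sec (cls x) + (p : ℤ_[p]) • next x := by
  have h := pow_smul_shift 1 (x - sec (cls x)) (sub_sec_apply_one x)
  rw [pow_one] at h
  change (p : ℤ_[p]) • next x = _ at h
  rw [h]
  abel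

/-- The iterated remainders. -/
noncomputable def rem (x : Tate p J) : ℕ → Tate p J
  | 0 => x
  | n + 1 => next (rem x n)

theorem eq_sum_add_smul_rem (x : Tate p J) (m : ℕ) :
    x = ∑ n ∈ Finset.range m, (p : ℤ_[p]) ^ n • sec (cls (rem x n)) +
      (p : ℤ_[p]) ^ m • rem x m := by
  induction m with
  | zero => simp [rem]
  | succ m ih =>
    rw [Finset.sum_range_succ]
    have h := eq_sec_add_smul_next (rem x m)
    have h2 : (p : ℤ_[p]) ^ m • rem x m = (p : ℤ_[p]) ^ m • sec (cls (rem x m)) +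
        (p : ℤ_[p]) ^ (m + 1) • rem x (m + 1) := by
      conv_lhs => rw [h]
      rw [smul_add, smul_smul, ← pow_succ]
      rfl
    rw [add_assoc, ← h2]
    exact ih

open Classical in
/-- The integer approximations of the coefficients. -/
noncomputable def coeffN (x : Tate p J) (i : Idx p J) (m : ℕ) : ℕ :=
  ∑ n ∈ Finset.range m, if cls (rem x n) = i then p ^ n else 0

theorem coeffN_succ_sub (x : Tate p J) (i : Idx p J) (m : ℕ) :
    (p : ℤ) ^ m ∣ ((coeffN x i (m + 1) : ℕ) : ℤ) - ((coeffN x i m : ℕ) : ℤ) := by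
  classical
  unfold coeffN
  rw [Finset.sum_range_succ]
  push_cast
  rw [add_sub_cancel_left]
  split_ifs
  · exact dvd_rfl
  · exact dvd_zero _

/-- The `p`-adic coefficients of `x` with respect to the family `sec`. -/
noncomputable def coeff (x : Tate p J) (i : Idx p J) : ℤ_[p] :=
  PadicInt.ofIntSeq (fun m => ((coeffN x i m : ℕ) : ℤ))
    (isCauSeq_padicNorm_of_pow_dvd_sub _ p (coeffN_succ_sub x i))

theorem appr_coeff_modEq (x : Tate p J) (i : Idx p J) (k : ℕ) :
    (coeff x i).appr k ≡ coeffN x i k [MOD p ^ k] := by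
  rw [← ZMod.natCast_eq_natCast_iff]
  have h := toZModPow_ofIntSeq_of_pow_dvd_sub (fun m => ((coeffN x i m : ℕ) : ℤ)) p
    (coeffN_succ_sub x i) k
  change (((coeff x i).appr k : ℕ) : ZMod (p ^ k)) = _ at h
  rw [h]
  push_cast
  rfl

/-- **`p`-adic expansion**: every element of the Tate module is a `ℤ_[p]`-linear combination of
the finitely many chosen lifts `sec i`. -/
theorem eq_sum_coeff_smul_sec [Fintype (Idx p J)] (x : Tate p J) :
    x = ∑ i : Idx p J, coeff x i • sec i := by
  classical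
  ext k
  have h1 := eq_sum_add_smul_rem x k
  have h2 : (x : ℕ → J) k =
      ∑ n ∈ Finset.range k, p ^ n • (sec (cls (rem x n)) : ℕ → J) k := by
    conv_lhs => rw [h1]
    change ((∑ n ∈ Finset.range k, (p : ℤ_[p]) ^ n • sec (cls (rem x n)) : Tate p J) : ℕ → J) k +
      (((p : ℤ_[p]) ^ k • rem x k : Tate p J) : ℕ → J) k = _
    have h3 : (((p : ℤ_[p]) ^ k • rem x k : Tate p J) : ℕ → J) k = 0 := by
      rw [← Nat.cast_pow, natCast_smul_apply]
      exact pow_smul_apply _ k
    rw [h3, add_zero]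
    have h4 : ∀ (s : Finset ℕ) (g : ℕ → Tate p J),
        ((∑ n ∈ s, g n : Tate p J) : ℕ → J) k = ∑ n ∈ s, (g n : ℕ → J) k := by
      intro s g
      exact map_sum (proj k) g s
    rw [h4]
    refine Finset.sum_congr rfl fun n _ => ?_
    rw [← Nat.cast_pow, natCast_smul_apply]
  have h5 : ((∑ i : Idx p J, coeff x i • sec i : Tate p J) : ℕ → J) k =
      ∑ i : Idx p J, coeffN x i k • (sec i : ℕ → J) k := by
    have h6 : ((∑ i : Idx p J, coeff x i • sec i : Tate p J) : ℕ → J) k =
        ∑ i : Idx p J, ((coeff x i • sec i : Tate p J) : ℕ → J) k :=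
      map_sum (proj k) _ _
    rw [h6]
    refine Finset.sum_congr rfl fun i _ => ?_
    rw [smul_apply]
    exact nsmul_eq_of_modEq (pow_smul_apply _ k) (appr_coeff_modEq x i k)
  rw [h2, h5]
  unfold coeffN
  simp_rw [Finset.sum_smul]
  rw [Finset.sum_comm]
  refine Finset.sum_congr rfl fun n _ => ?_
  simp_rw [ite_smul, zero_smul]
  rw [Finset.sum_ite_eq]
  simp

include hfin in
/-- **The Tate module of `J` is a finite `ℤ_[p]`-module** as soon as its image in `J[p]` is
finite. -/
theorem finite_of_finite_range : Module.Finite ℤ_[p] (Tate p J) := by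
  classical
  haveI : Fintype (Idx p J) := hfin.fintype
  refine Module.Finite.of_surjective (Fintype.linearCombination ℤ_[p] (sec (p := p) (J := J))) ?_
  intro x
  refine ⟨coeff x, ?_⟩
  rw [Fintype.linearCombination_apply]
  exact (eq_sum_coeff_smul_sec x).symm

end Finite

/-- **The Tate module is finite** if `J[p]` is finite. -/
theorem finite_of_finite_torsion (h : {y : J | p • y = 0}.Finite) :
    Module.Finite ℤ_[p] (Tate p J) :=
  finite_of_finite_range (h.subset (by
    rintro _ ⟨x, rfl⟩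
    have := pow_smul_apply x 1
    rwa [pow_one] at this))

/-- **The Tate module is free** (of finite rank) if `J[p]` is finite. -/
theorem free_of_finite_torsion (h : {y : J | p • y = 0}.Finite) :
    Module.Free ℤ_[p] (Tate p J) :=
  haveI := finite_of_finite_torsion h
  Module.free_of_finite_type_torsion_free'

/-- Functoriality as a ring homomorphism `End J → End (Tate p J)`. -/
noncomputable def endHom : AddMonoid.End J →+* Module.End ℤ_[p] (Tate p J) where
  toFun f := map f
  map_one' := map_id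
  map_mul' f g := map_comp f g
  map_zero' := map_zero
  map_add' f g := map_add f g

@[simp] theorem endHom_apply_coe (f : AddMonoid.End J) (x : Tate p J) (k : ℕ) :
    ((endHom f x : Tate p J) : ℕ → J) k = f ((x : ℕ → J) k) := rfl

theorem pow_smul_eq_zero_of_system {Λ : Type*} [AddCommGroup Λ] (g : ℕ → Λ →+ J) (h0 : g 0 = 0)
    (hg : ∀ k l, p • g (k + 1) l = g k l) (k : ℕ) (l : Λ) : p ^ k • g k l = 0 := by
  induction k with
  | zero => rw [pow_zero, one_smul, h0]; rfl
  | succ k ih => rw [pow_succ, mul_smul, hg, ih]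

/-- Lifting a compatible system of homomorphisms `Λ → J[p^k]` to the Tate module. -/
def ofSystem {Λ : Type*} [AddCommGroup Λ] (g : ℕ → Λ →+ J) (h0 : g 0 = 0)
    (hg : ∀ k l, p • g (k + 1) l = g k l) : Λ →+ Tate p J where
  toFun l := ⟨fun k => g k l, fun k => pow_smul_eq_zero_of_system g h0 hg k l, fun k => hg k l⟩
  map_zero' := by ext k; exact (g k).map_zero
  map_add' a b := by ext k; exact (g k).map_add a b

@[simp] theorem ofSystem_apply_coe {Λ : Type*} [AddCommGroup Λ] (g : ℕ → Λ →+ J) (h0 : g 0 = 0)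
    (hg : ∀ k l, p • g (k + 1) l = g k l) (l : Λ) (k : ℕ) :
    ((ofSystem g h0 hg l : Tate p J) : ℕ → J) k = g k l := rfl

/-- Construct an element of the Tate module from a compatible sequence. -/
def mk (x : ℕ → J) (h1 : ∀ k, p ^ k • x k = 0) (h2 : ∀ k, p • x (k + 1) = x k) : Tate p J :=
  ⟨x, h1, h2⟩

@[simp] theorem mk_apply (x : ℕ → J) (h1 : ∀ k, p ^ k • x k = 0) (h2 : ∀ k, p • x (k + 1) = x k)
    (k : ℕ) : ((mk x h1 h2 : Tate p J) : ℕ → J) k = x k := rfl

end Tate

end Fermat.Agent.N4F.Adic.TateModule
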