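/-
N4-FULL, row P1 (helper19): THE `p`-ADIC TATE MODULE OF `J_0(N)(ℚ̄)` with its Galois action and
Hecke operators: `TJ p N := Tate p (JZero N)`.

* `gal p N : Γ →* End_{ℤ_p} (TJ p N)`, `hecke p N ℓ : End_{ℤ_p} (TJ p N)` (`= 0` for `ℓ` not prime);
* (T2) `gal` commutes with `hecke` (block A2);
* (T3) adic continuity of `gal` (Cont + finiteness of the torsion);
* (T4) the Eichler–Shimura relation `σ² − T_ℓ σ + ℓ = 0` for Frobenius elements at `ℓ ∤ N p`;
* (T5) inertia at `q ∤ N p` acts trivially;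
* finite freeness over `ℤ_[p]` (finiteness of `J_0(N)[p]`).
-/
import Fermat.Agent.N4F.Adic.TateModule
import Fermat.Agent.N4F.Res.Interface
import Fermat.Agent.N4F.Continuity
import Fermat.Agent.N4F.A.GaloisHecke

set_option autoImplicit false
set_option linter.unusedSectionVars false

open ModularCurve AlgebraicCurve PadicInt

noncomputable section

namespace Fermat.Agent.N4F.Adic.TateJ

open Fermat.Agent.N4F.Adic.TateModule Fermat.Agent.N4F.Res Fermat.Agent.N4F.Core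

local notation "Qbar" => AlgebraicClosure ℚ
local notation "Γ" => (AlgebraicClosure ℚ ≃ₐ[ℚ] AlgebraicClosure ℚ)

variable (p : ℕ) [hp : Fact p.Prime] (N : ℕ) [NeZero N]

/-- The `p`-adic Tate module of `J_0(N)(ℚ̄)`. -/
abbrev TJ : Type := Tate p (JZero N)

/-- The Galois action on the Tate module. -/
def gal : Γ →* Module.End ℤ_[p] (TJ p N) :=
  (Tate.endHom (p := p) (J := JZero N)).toMonoidHom.comp
    (DistribMulAction.toAddMonoidEnd Γ (JZero N))

theorem gal_apply_coe (σ : Γ) (x : TJ p N) (k : ℕ) :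
    ((gal p N σ x : TJ p N) : ℕ → JZero N) k = σ • (x : ℕ → JZero N) k := rfl

theorem gal_eq_map (σ : Γ) :
    gal p N σ = Tate.map (DistribMulAction.toAddMonoidEnd Γ (JZero N) σ) := rfl

/-- The Hecke operators on the Tate module (`0` at non-primes). -/
def hecke (ℓ : ℕ) : Module.End ℤ_[p] (TJ p N) :=
  if h : ℓ.Prime then Tate.map (heckeOperatorBar N ⟨ℓ, h⟩).toAddMonoidHom else 0

theorem hecke_of_prime {ℓ : ℕ} (h : ℓ.Prime) :
    hecke p N ℓ = Tate.map (heckeOperatorBar N ⟨ℓ, h⟩).toAddMonoidHom := dif_pos h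

theorem hecke_apply_coe {ℓ : ℕ} (h : ℓ.Prime) (x : TJ p N) (k : ℕ) :
    ((hecke p N ℓ x : TJ p N) : ℕ → JZero N) k =
      heckeOperatorBar N ⟨ℓ, h⟩ ((x : ℕ → JZero N) k) := by
  rw [hecke_of_prime p N h]
  rfl

theorem hecke_of_not_prime {ℓ : ℕ} (h : ¬ ℓ.Prime) : hecke p N ℓ = 0 := dif_neg h

/-! ### (T2) Galois commutes with Hecke -/

theorem gal_hecke_commute (σ : Γ) (ℓ : ℕ) : Commute (gal p N σ) (hecke p N ℓ) := by
  by_cases h : ℓ.Prime
  · refine LinearMap.ext fun x => Tate.ext fun k => ?_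
    change σ • ((hecke p N ℓ x : TJ p N) : ℕ → JZero N) k =
      ((hecke p N ℓ (gal p N σ x) : TJ p N) : ℕ → JZero N) k
    rw [hecke_apply_coe p N h, hecke_apply_coe p N h, gal_apply_coe]
    exact (Fermat.Agent.N4F.A.GaloisHecke.galois_hecke_comm N ⟨ℓ, h⟩ σ _).symm
  · rw [hecke_of_not_prime p N h]
    exact Commute.zero_right _

/-! ### (T3) continuity -/

theorem gal_continuous (hfin : TorsionFinite N) (n : ℕ) :
    ∃ L : IntermediateField ℚ Qbar, FiniteDimensional ℚ L ∧ ∀ σ : Γ, (∀ x ∈ L, σ x = x) →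
      ∀ v : TJ p N, ∃ w : TJ p N, gal p N σ v - v = (p : ℤ_[p]) ^ n • w := by
  have hpos : 0 < p ^ n := pow_pos hp.out.pos n
  have := hfin (p ^ n) hpos
  have hs : (Jtors N (p ^ n) : Set (JZero N)).Finite := Set.toFinite _
  obtain ⟨L, hL, hfix⟩ := Fermat.Agent.N4F.Continuity.exists_fixing_of_finite N hs
  refine ⟨L, hL, fun σ hσ v => ?_⟩
  obtain ⟨w, hw⟩ := Tate.map_sub_self_eq_pow_smul
    (DistribMulAction.toAddMonoidEnd Γ (JZero N) σ) n
    (fun y hy => hfix σ hσ y ((mem_Jtors_iff N (p ^ n) y).2 hy)) v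
  exact ⟨w, hw.symm⟩

/-! ### (T4), (T5): Eichler–Shimura and unramifiedness -/

theorem not_dvd_pow {ℓ : ℕ} (hℓ : ℓ.Prime) (hℓp : ℓ ≠ p) (k : ℕ) : ¬ ℓ ∣ p ^ k := fun h =>
  hℓp ((Nat.prime_dvd_prime_iff_eq hℓ hp.out).1 (hℓ.dvd_of_dvd_pow h))

theorem eichler_shimura (hES : ESOnTorsionAll N) (ℓ : ℕ) (hℓ : ℓ.Prime) (hℓN : ¬ ℓ ∣ N)
    (hℓp : ℓ ≠ p) (A : ValuationSubring Qbar) (hA : A.LiesOverPrime ℓ) (σ : Γ)
    (hσ : A.IsFrobeniusAt σ ℓ) :
    gal p N σ * gal p N σ - hecke p N ℓ * gal p N σ + (ℓ : ℤ_[p]) • 1 = 0 := by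
  refine LinearMap.ext fun x => Tate.ext fun k => ?_
  have h := ((hES ℓ hℓ hℓN A hA) (p ^ k) (not_dvd_pow p hℓ hℓp k) ((x : ℕ → JZero N) k)
    (Tate.pow_smul_apply x k)).2 σ hσ
  rw [LinearMap.add_apply, LinearMap.sub_apply, LinearMap.smul_apply, Module.End.one_apply,
    Module.End.mul_apply, Module.End.mul_apply, LinearMap.zero_apply]
  change ((gal p N σ (gal p N σ x) : TJ p N) : ℕ → JZero N) k
    - ((hecke p N ℓ (gal p N σ x) : TJ p N) : ℕ → JZero N) k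
    + (((ℓ : ℤ_[p]) • x : TJ p N) : ℕ → JZero N) k = 0
  rw [Tate.natCast_smul_apply, hecke_apply_coe p N hℓ, gal_apply_coe, gal_apply_coe]
  exact h

theorem gal_inertia (hES : ESOnTorsionAll N) (q : ℕ) (hq : q.Prime) (hqN : ¬ q ∣ N)
    (hqp : q ≠ p) (A : ValuationSubring Qbar) (hA : A.LiesOverPrime q) (σ : Γ)
    (hσ : σ ∈ A.inertiaSubgroupIn ℚ) : gal p N σ = 1 := by
  refine LinearMap.ext fun x => Tate.ext fun k => ?_
  exact ((hES q hq hqN A hA) (p ^ k) (not_dvd_pow p hq hqp k) ((x : ℕ → JZero N) k)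
    (Tate.pow_smul_apply x k)).1 σ hσ

/-! ### Finiteness and freeness -/

theorem finite_torsion (hfin : TorsionFinite N) : {y : JZero N | p • y = 0}.Finite := by
  have := hfin p hp.out.pos
  exact (Set.toFinite (Jtors N p : Set (JZero N))).subset
    fun y hy => (mem_Jtors_iff N p y).2 hy

theorem moduleFinite (hfin : TorsionFinite N) : Module.Finite ℤ_[p] (TJ p N) :=
  Tate.finite_of_finite_torsion (finite_torsion p N hfin)

theorem moduleFree (hfin : TorsionFinite N) : Module.Free ℤ_[p] (TJ p N) :=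
  Tate.free_of_finite_torsion (finite_torsion p N hfin)

/-! ### Summary: everything from the three interface inputs -/

/-- (T2)–(T5) and finite freeness of the Tate module `TJ p N` from `TorsionFinite N` and
`ESOnTorsionAll N` (the two J-side fields of `Res.Inputs N`). -/
theorem tate_package (hfin : TorsionFinite N) (hES : ESOnTorsionAll N) :
    Module.Free ℤ_[p] (TJ p N) ∧ Module.Finite ℤ_[p] (TJ p N) ∧
    (∀ (σ : Γ) (ℓ : ℕ), Commute (gal p N σ) (hecke p N ℓ)) ∧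
    (∀ n : ℕ, ∃ L : IntermediateField ℚ Qbar, FiniteDimensional ℚ L ∧
      ∀ σ : Γ, (∀ x ∈ L, σ x = x) → ∀ v : TJ p N, ∃ w : TJ p N,
        gal p N σ v - v = (p : ℤ_[p]) ^ n • w) ∧
    (∀ ℓ : ℕ, ℓ.Prime → ¬ ℓ ∣ N → ℓ ≠ p → ∀ A : ValuationSubring Qbar, A.LiesOverPrime ℓ →
      ∀ σ : Γ, A.IsFrobeniusAt σ ℓ →
        gal p N σ * gal p N σ - hecke p N ℓ * gal p N σ + (ℓ : ℤ_[p]) • 1 = 0) ∧
    (∀ q : ℕ, q.Prime → ¬ q ∣ N → q ≠ p → ∀ A : ValuationSubring Qbar, A.LiesOverPrime q →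
      ∀ σ ∈ A.inertiaSubgroupIn ℚ, gal p N σ = 1) :=
  ⟨moduleFree p N hfin, moduleFinite p N hfin, gal_hecke_commute p N, gal_continuous p N hfin,
    eichler_shimura p N hES, gal_inertia p N hES⟩

end Fermat.Agent.N4F.Adic.TateJ
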