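/-
N4-FULL / S30, node (T6a) (helper4): THE `Λ`-SYSTEM.

From the prime-power Kummer package (block F: F1e + F2b + F3c + F5 + (K4)) we build the comparison
map `f : Λ → T_p J_0(N)` from the lattice `Λ = parHomAdd N ℤ` of integral parabolic homomorphisms
to the `p`-adic Tate module of `J_0(N)(ℚ̄)`, Hecke-equivariant and injective modulo `p`.
This is the `p`-adic copy of `Tors/Outputs.eigenformOccurs`.

* `KummerPackageAll N`  : the FULL list of what block F has to deliver (all `n > 0`);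
* `KummerPackagePow N p` : the part used here (only `n = p ^ k`);
* `KummerPackageAll N → KummerPackage N`, `KummerPackageAll N → KummerPackagePow N p`;
* `exists_lambda_system` : `KummerPackagePow N p → ∃ f : Λ →+ TJ p N`, equivariant, injective mod `p`;
* ℕ-indexed operators `tN N ℓ` on `Λ` and `heckeGood p N ℓ` on `TJ p N` (zero at bad `ℓ`), in the
  shape of the fields `t`, `t_comm`, `f`, `f_t`, `f_mod` of `Adic/TateData.lean`.
-/
import Mathlib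
import Fermat.Agent.N4F.Tors.OutputsFinal
import Fermat.Agent.N4F.Adic.TateJ

set_option autoImplicit false
set_option linter.unusedSectionVars false

open CongruenceSubgroup ModularCurve PadicInt
open scoped TensorProduct MatrixGroups

noncomputable section

namespace Fermat.Agent.N4F.Adic.LambdaSystem

open Fermat.Agent.N4F.Res Fermat.Agent.N4F.Tors.HeckeHom Fermat.Agent.N4F.Tors.Outputs
  Fermat.Agent.N4F.Adic.TateModule Fermat.Agent.N4F.Adic.TateJ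

variable (N : ℕ) [NeZero N]

/-! ### The Kummer packages -/

/-- **What block F has to deliver, for ALL `n > 0`** (F1e + F5: injective; F2b: onto the
parabolic-elliptic homomorphisms; F3c: Hecke-equivariant; (K4): compatible in `n`). -/
def KummerPackageAll : Prop :=
  ∃ κ : ∀ n : ℕ, Jtors N n →+ (Additive ↥(Gamma0 N) →+ ZMod n),
    (∀ n : ℕ, 0 < n → Function.Injective (κ n)) ∧
    (∀ n : ℕ, 0 < n → ∀ ψ : Additive ↥(Gamma0 N) →+ ZMod n, ψ ∈ parHomAdd N (ZMod n) →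
      ∃ x, κ n x = ψ) ∧
    (∀ n : ℕ, 0 < n → ∀ (ℓ : Nat.Primes) (hℓN : ¬ (ℓ : ℕ) ∣ N) (x : Jtors N n),
      κ n (heckeTorsAdd N n ℓ x) = heckeAddP N ℓ hℓN (κ n x)) ∧
    (∀ (n m : ℕ) (h : n ∣ m), 0 < m → ∀ (x : Jtors N m) (y : Jtors N n),
      (y : JZero N) = (m / n) • (x : JZero N) →
        κ n y = (ZMod.castHom h (ZMod n)).toAddMonoidHom.comp (κ m x))

/-- **The prime-power Kummer package** at `p` (what the `Λ`-system needs). -/
def KummerPackagePow (p : ℕ) : Prop :=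
  ∃ κ : ∀ n : ℕ, Jtors N n →+ (Additive ↥(Gamma0 N) →+ ZMod n),
    (∀ k : ℕ, Function.Injective (κ (p ^ k))) ∧
    (∀ (k : ℕ) (ψ : Additive ↥(Gamma0 N) →+ ℤ), ψ ∈ parHomAdd N ℤ →
      ∃ x, κ (p ^ k) x = (Int.castAddHom (ZMod (p ^ k))).comp ψ) ∧
    (∀ (k : ℕ) (ℓ : Nat.Primes) (hℓN : ¬ (ℓ : ℕ) ∣ N) (x : Jtors N (p ^ k)),
      κ (p ^ k) (heckeTorsAdd N (p ^ k) ℓ x) = heckeAddP N ℓ hℓN (κ (p ^ k) x)) ∧
    (∀ (k : ℕ) (x : Jtors N (p ^ (k + 1))) (y : Jtors N (p ^ k)),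
      (y : JZero N) = p • (x : JZero N) →
        κ (p ^ k) y = (ZMod.castHom (pow_dvd_pow p (Nat.le_succ k))
          (ZMod (p ^ k))).toAddMonoidHom.comp (κ (p ^ (k + 1)) x))

variable {N}

theorem KummerPackageAll.kummerPackage (h : KummerPackageAll N) : KummerPackage N := by
  obtain ⟨κ, h1, h2, h3, -⟩ := h
  exact ⟨κ, h1, fun p hp ψ hψ => h2 p hp.pos ψ hψ, fun p hp ℓ hℓN x => h3 p hp.pos ℓ hℓN x⟩

theorem KummerPackageAll.kummerPackagePow (h : KummerPackageAll N) (p : ℕ) [hp : Fact p.Prime] :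
    KummerPackagePow N p := by
  obtain ⟨κ, h1, h2, h3, h4⟩ := h
  have hpos : ∀ k : ℕ, 0 < p ^ k := fun k => pow_pos hp.out.pos k
  refine ⟨κ, fun k => h1 _ (hpos k), fun k ψ hψ => ?_, fun k ℓ hℓN x => h3 _ (hpos k) ℓ hℓN x,
    fun k x y hxy => ?_⟩
  · refine h2 _ (hpos k) _ fun g hg => ?_
    rw [AddMonoidHom.comp_apply, hψ g hg, map_zero]
  · refine h4 (p ^ k) (p ^ (k + 1)) (pow_dvd_pow p (Nat.le_succ k)) (hpos (k + 1)) x y ?_
    have e : p ^ (k + 1) / p ^ k = p := by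
      rw [pow_succ, Nat.mul_div_cancel_left _ (hpos k)]
    rw [hxy, e]

/-! ### The `Λ`-system -/

variable (N)

theorem smul_mem_Jtors (p k : ℕ) {x : JZero N} (hx : x ∈ Jtors N (p ^ (k + 1))) :
    p • x ∈ Jtors N (p ^ k) := by
  rw [mem_Jtors_iff] at hx ⊢
  rw [← mul_smul, ← pow_succ]
  exact hx

theorem eq_zero_of_mem_Jtors_pow_zero (p : ℕ) {x : JZero N} (hx : x ∈ Jtors N (p ^ 0)) :
    x = 0 := by
  rw [mem_Jtors_iff, pow_zero, one_smul] at hx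
  exact hx

variable (p : ℕ) [hp : Fact p.Prime]

/-- **(T6a)** the comparison map from the lattice of integral parabolic homomorphisms to the Tate
module: Hecke-equivariant and injective modulo `p`. -/
theorem exists_lambda_system (hK : KummerPackagePow N p) :
    ∃ f : parHomAdd N ℤ →+ TJ p N,
      (∀ (ℓ : Nat.Primes) (hℓN : ¬ (ℓ : ℕ) ∣ N) (ψ : parHomAdd N ℤ),
        f (heckeLattice N ℓ hℓN ψ) = hecke p N ℓ (f ψ)) ∧
      (∀ ψ : parHomAdd N ℤ, (∃ w : TJ p N, f ψ = (p : ℤ_[p]) • w) →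
        ∃ ψ' : parHomAdd N ℤ, ψ = (p : ℤ) • ψ') ∧
      (∀ (k : ℕ) (ψ : parHomAdd N ℤ), ∃ x : Jtors N (p ^ k),
        (x : JZero N) = Tate.proj k (f ψ)) := by
  obtain ⟨κ, hinj, hsurj, hequiv, hcompat⟩ := hK
  have hex : ∀ (k : ℕ) (ψ : parHomAdd N ℤ),
      ∃ x, κ (p ^ k) x = (Int.castAddHom (ZMod (p ^ k))).comp ψ.1 :=
    fun k ψ => hsurj k ψ.1 ψ.2
  choose gf hgf using hex
  let g' : ∀ k : ℕ, parHomAdd N ℤ →+ Jtors N (p ^ k) := fun k =>
    AddMonoidHom.mk' (gf k) (fun a b => by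
      apply hinj k
      rw [map_add, hgf, hgf, hgf]
      exact AddMonoidHom.comp_add _ a.1 b.1)
  have hg' : ∀ k ψ, κ (p ^ k) (g' k ψ) = (Int.castAddHom (ZMod (p ^ k))).comp ψ.1 := hgf
  let g : ℕ → parHomAdd N ℤ →+ JZero N := fun k => (Jtors N (p ^ k)).subtype.comp (g' k)
  have hgcoe : ∀ k ψ, g k ψ = ((g' k ψ : Jtors N (p ^ k)) : JZero N) := fun k ψ => rfl
  have h0 : g 0 = 0 := by
    refine AddMonoidHom.ext fun ψ => ?_
    rw [hgcoe, AddMonoidHom.zero_apply]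
    exact eq_zero_of_mem_Jtors_pow_zero N p (g' 0 ψ).2
  have hg : ∀ k ψ, p • g (k + 1) ψ = g k ψ := by
    intro k ψ
    rw [hgcoe, hgcoe]
    have hmem : p • ((g' (k + 1) ψ : Jtors N (p ^ (k + 1))) : JZero N) ∈ Jtors N (p ^ k) :=
      smul_mem_Jtors N p k (g' (k + 1) ψ).2
    have h1 : (⟨_, hmem⟩ : Jtors N (p ^ k)) = g' k ψ := by
      apply hinj k
      rw [hcompat k (g' (k + 1) ψ) ⟨_, hmem⟩ rfl, hg', hg']
      refine AddMonoidHom.ext fun x => ?_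
      simp only [AddMonoidHom.comp_apply, RingHom.toAddMonoidHom_eq_coe, AddMonoidHom.coe_coe,
        Int.coe_castAddHom, map_intCast]
    exact congrArg Subtype.val h1
  refine ⟨Tate.ofSystem g h0 hg, fun ℓ hℓN ψ => ?_, fun ψ hψ => ?_, fun k ψ => ⟨g' k ψ, rfl⟩⟩
  · refine Tate.ext fun k => ?_
    rw [hecke_apply_coe p N ℓ.2, Tate.ofSystem_apply_coe, Tate.ofSystem_apply_coe, hgcoe, hgcoe]
    have h1 : g' k (heckeLattice N ℓ hℓN ψ) = heckeTorsAdd N (p ^ k) ℓ (g' k ψ) := by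
      apply hinj k
      rw [hequiv k ℓ hℓN, hg', hg', coe_heckeLattice]
      exact (heckeAddP_comp N ℓ hℓN (Int.castAddHom (ZMod (p ^ k))) ψ.1).symm
    exact congrArg Subtype.val h1
  · obtain ⟨w, hw⟩ := hψ
    have h1 : g 1 ψ = 0 := by
      have h2 := congrArg (fun z : TJ p N => (z : ℕ → JZero N) 1) hw
      simp only [Tate.ofSystem_apply_coe] at h2
      rw [h2, Tate.natCast_smul_eq_nsmul]
      have h3 := Tate.pow_smul_apply w 1
      rw [pow_one] at h3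
      exact h3
    have h2 : g' 1 ψ = 0 := Subtype.ext h1
    have h3 : (Int.castAddHom (ZMod (p ^ 1))).comp ψ.1 = 0 := by
      rw [← hg', h2, map_zero]
    apply redPar_eq_zero N p hp.out ψ
    apply Subtype.ext
    refine AddMonoidHom.ext fun x => ?_
    have h4 := DFunLike.congr_fun h3 x
    simp only [AddMonoidHom.comp_apply, Int.coe_castAddHom, AddMonoidHom.zero_apply] at h4
    have : NeZero (p ^ 1) := ⟨(pow_pos hp.out.pos 1).ne'⟩
    have h5 := (ZMod.intCast_zmod_eq_zero_iff_dvd (ψ.1 x) (p ^ 1)).1 h4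
    rw [pow_one] at h5
    show (redPar N p ψ).1 x = 0
    simp only [redPar, coe_parHomAddMap, AddMonoidHom.comp_apply, Int.coe_castAddHom]
    exact (ZMod.intCast_zmod_eq_zero_iff_dvd _ p).2 h5

/-! ### ℕ-indexed operators (the shape of `Adic/TateData.lean`) -/

/-- `T_ℓ` on the lattice `Λ = parHomAdd N ℤ`, indexed by `ℕ` (zero unless `ℓ` is a prime not
dividing `N`). -/
def tN (ℓ : ℕ) : Module.End ℤ (parHomAdd N ℤ) :=
  if h : ℓ.Prime ∧ ¬ ℓ ∣ N then heckeLattice N ⟨ℓ, h.1⟩ h.2 else 0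

theorem tN_of_good {ℓ : ℕ} (h : ℓ.Prime) (hℓN : ¬ ℓ ∣ N) :
    tN N ℓ = heckeLattice N ⟨ℓ, h⟩ hℓN := dif_pos ⟨h, hℓN⟩

theorem tN_of_bad {ℓ : ℕ} (h : ¬ (ℓ.Prime ∧ ¬ ℓ ∣ N)) : tN N ℓ = 0 := dif_neg h

theorem tN_comm (ℓ ℓ' : ℕ) : Commute (tN N ℓ) (tN N ℓ') := by
  by_cases h : ℓ.Prime ∧ ¬ ℓ ∣ N
  · by_cases h' : ℓ'.Prime ∧ ¬ ℓ' ∣ N
    · rw [tN_of_good N h.1 h.2, tN_of_good N h'.1 h'.2]
      exact Fermat.Agent.N4F.Tors.OutputsFinal.heckeLattice_commute N _ _ h.2 h'.2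
    · rw [tN_of_bad N h']
      exact Commute.zero_right _
  · rw [tN_of_bad N h]
    exact Commute.zero_left _

/-- `T_ℓ` on the Tate module, zero unless `ℓ` is a prime not dividing `N`. -/
def heckeGood (ℓ : ℕ) : Module.End ℤ_[p] (TJ p N) :=
  if ℓ.Prime ∧ ¬ ℓ ∣ N then hecke p N ℓ else 0

theorem heckeGood_of_good {ℓ : ℕ} (h : ℓ.Prime) (hℓN : ¬ ℓ ∣ N) :
    heckeGood N p ℓ = hecke p N ℓ := if_pos ⟨h, hℓN⟩

theorem heckeGood_of_bad {ℓ : ℕ} (h : ¬ (ℓ.Prime ∧ ¬ ℓ ∣ N)) : heckeGood N p ℓ = 0 := if_neg h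

theorem gal_heckeGood_commute (σ : AlgebraicClosure ℚ ≃ₐ[ℚ] AlgebraicClosure ℚ) (ℓ : ℕ) :
    Commute (gal p N σ) (heckeGood N p ℓ) := by
  by_cases h : ℓ.Prime ∧ ¬ ℓ ∣ N
  · rw [heckeGood_of_good N p h.1 h.2]
    exact gal_hecke_commute p N σ ℓ
  · rw [heckeGood_of_bad N p h]
    exact Commute.zero_right _

/-- **(T6a), `TateData` shape**: fields `f`, `f_t`, `f_mod` for `t := tN N`,
`hecke := heckeGood N p`. -/
theorem exists_lambda_system_nat (hK : KummerPackagePow N p) :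
    ∃ f : parHomAdd N ℤ →+ TJ p N,
      (∀ (ℓ : ℕ) (ψ : parHomAdd N ℤ), f (tN N ℓ ψ) = heckeGood N p ℓ (f ψ)) ∧
      (∀ ψ : parHomAdd N ℤ, (∃ w : TJ p N, f ψ = (p : ℤ_[p]) • w) →
        ∃ ψ' : parHomAdd N ℤ, ψ = (p : ℤ) • ψ') := by
  obtain ⟨f, hf1, hf2, -⟩ := exists_lambda_system N p hK
  refine ⟨f, fun ℓ ψ => ?_, hf2⟩
  by_cases h : ℓ.Prime ∧ ¬ ℓ ∣ N
  · rw [tN_of_good N h.1 h.2, heckeGood_of_good N p h.1 h.2]
    exact hf1 ⟨ℓ, h.1⟩ h.2 ψ
  · rw [tN_of_bad N h, heckeGood_of_bad N p h, LinearMap.zero_apply, LinearMap.zero_apply,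
      map_zero]

end Fermat.Agent.N4F.Adic.LambdaSystem
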