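/-
N4-FULL: block F plugged into the `Λ`-system of S30.  `LambdaSystem.KummerPackageAll N` and
`LambdaSystem.KummerPackagePow N p` hold UNCONDITIONALLY (from `Tors/KummerPlug`), hence so does
the `Λ`-system `exists_lambda_system(_nat)`.
-/
import Mathlib
import Fermat.Agent.N4F.Tors.KummerPlug
import Fermat.Agent.N4F.Adic.LambdaSystem

set_option autoImplicit false
set_option linter.unusedSectionVars false

open CongruenceSubgroup ModularCurve
open scoped MatrixGroups

noncomputable section

namespace Fermat.Agent.N4F.Adic.KummerPlugPow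

open Fermat.Agent.N4F.Res Fermat.Agent.N4F.Tors.HeckeHom Fermat.Agent.N4F.Tors.Outputs
open Fermat.Agent.N4F.Adic.LambdaSystem

variable (N : ℕ) [NeZero N]

/-- Block F in helper4's shape (K4 with an explicit `y`). -/
theorem kummerPackageAll : LambdaSystem.KummerPackageAll N := by
  obtain ⟨κ, h1, h2, h3, h4⟩ := Fermat.Agent.N4F.Tors.KummerPlug.kummerPackageAll N
  refine ⟨κ, h1, h2, h3, fun n m h hm x y hy => ?_⟩
  have hmem : (m / n) • (x : JZero N) ∈ Jtors N n := hy ▸ y.2
  have hye : y = ⟨(m / n) • (x : JZero N), hmem⟩ := Subtype.ext hy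
  rw [hye]
  exact h4 n m h hm x hmem

/-- The prime-power Kummer package at every prime `p`. -/
theorem kummerPackagePow (p : ℕ) [Fact p.Prime] : LambdaSystem.KummerPackagePow N p :=
  (kummerPackageAll N).kummerPackagePow p

end Fermat.Agent.N4F.Adic.KummerPlugPow
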