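/-
N4-FULL, S30 packaging, node (T6b) of helper27's split: FAITHFULNESS of the lattice of integral
parabolic homomorphisms as a module over the Hecke algebra.

If an integral polynomial `P` in the `T_ℓ` (`ℓ ∤ N`, `ℓ ∉ S`) acts as zero on
`Λ = parHomAdd N ℤ`, then `P(T_ℓ) = 0` in the prelude's `CuspForm.heckeAlgebra N 2 S`:
`P(T)` is zero on `ℂ ⊗ Λ ↠ Hom_par(Γ₀(N), ℂ)` (helper4 `HomLattice.exists_J_eq`), the period map
`pml : S₂(Γ₀(N)) → Hom_par(Γ₀(N), ℂ)` is Hecke-equivariant (helper7 `PeriodHecke.pml_heckeTLin`)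
and injective (Eichler–Shimura, S21).  (helper25)
-/
import Fermat.Agent.N4F.Tors.Outputs
import Fermat.Agent.N4F.Tors.ESHecke
import Fermat.Agent.N4F.Tors.PeriodHecke
import Fermat.Agent.N4F.Tors.Occurrence

set_option autoImplicit false
set_option linter.unusedSectionVars false

open CongruenceSubgroup ModularCurve
open scoped TensorProduct MatrixGroups

noncomputable section

namespace Fermat.Agent.N4F.Adic.HeckeFaithful

open Fermat.Agent.N4F.Tors.HeckeHom Fermat.Agent.N4F.Tors.HomLattice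
  Fermat.Agent.N4F.Tors.Outputs Fermat.Agent.N4F.Tors.Occurrence Fermat.Agent.M2.ES

variable (N : ℕ)

/-- `Λ → Hom(Γ₀(N), ℂ)`. -/
def castPar : ↥(parHomAdd N ℤ) →ₗ[ℤ] (Additive ↥(Gamma0 N) →+ ℂ) :=
  (castHom ℂ).comp (parHomAdd N ℤ).subtype.toIntLinearMap

@[simp] theorem castPar_apply (ψ : parHomAdd N ℤ) : castPar N ψ = castHom ℂ ψ.1 := rfl

/-- The comparison map `ℂ ⊗ Λ → Hom(Γ₀(N), ℂ)`, `z ⊗ ψ ↦ z • ψ`. -/
def Jc : ℂ ⊗[ℤ] ↥(parHomAdd N ℤ) →ₗ[ℂ] (Additive ↥(Gamma0 N) →+ ℂ) :=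
  LinearMap.liftBaseChange ℂ (castPar N)

@[simp] theorem Jc_tmul (z : ℂ) (ψ : parHomAdd N ℤ) :
    Jc N (z ⊗ₜ[ℤ] ψ) = z • castHom ℂ ψ.1 := by
  simp [Jc]

/-- `Jc` intertwines `T_ℓ ⊗ 1` on `ℂ ⊗ Λ` with `T_ℓ` on `Hom(Γ₀(N), ℂ)`. -/
theorem Jc_baseChange (ℓ : Nat.Primes) (hℓN : ¬ (ℓ : ℕ) ∣ N) (y : ℂ ⊗[ℤ] ↥(parHomAdd N ℤ)) :
    Jc N ((heckeLattice N ℓ hℓN).baseChange ℂ y) = heckeAddP N ℓ hℓN (Jc N y) := by
  induction y using TensorProduct.induction_on with
  | zero => simp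
  | tmul z ψ =>
    rw [LinearMap.baseChange_tmul, Jc_tmul, Jc_tmul, coe_heckeLattice]
    have h1 : heckeAddP N ℓ hℓN (z • castHom ℂ ψ.1) = z • heckeAddP N ℓ hℓN (castHom ℂ ψ.1) :=
      (heckeC N ℓ hℓN).map_smul z (castHom ℂ ψ.1)
    rw [h1]
    congr 1
    exact (heckeAddP_comp N ℓ hℓN (Int.castAddHom ℂ) ψ.1).symm
  | add y y' hy hy' => rw [map_add, map_add, hy, hy', map_add, map_add]

variable [NeZero N]

/-- Every complex parabolic homomorphism is a `ℂ`-combination of integral ones. -/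
theorem exists_Jc_eq (w : Additive ↥(Gamma0 N) →+ ℂ) (hw : w ∈ parHomAdd N ℂ) :
    ∃ y, Jc N y = w := by
  obtain ⟨y', hy'⟩ := exists_J_eq (S := parSet N) ℂ w ((mem_parHomAdd_iff_killing N w).1 hw)
  refine ⟨(toKilling N).symm.toLinearMap.baseChange ℂ y', ?_⟩
  rw [← hy']
  clear hy'
  induction y' using TensorProduct.induction_on with
  | zero => simp
  | tmul z ψ =>
    rw [LinearMap.baseChange_tmul, Jc_tmul]
    refine AddMonoidHom.ext fun x => ?_
    rw [J_tmul_apply, AddMonoidHom.smul_apply, castHom_apply, smul_eq_mul]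
    rfl
  | add y z hy hz => rw [map_add, map_add, hy, hz, map_add]

/-- The period map takes values in the parabolic homomorphisms. -/
theorem pml_mem_parHomAdd (f : CuspForm (Gamma0 N) 2) : pml N f ∈ parHomAdd N ℂ :=
  (Fermat.Agent.N4F.Tors.ESHecke.mem_killing_iff N (R := ℂ)).1
    (Fermat.Agent.N4F.Tors.ESHecke.pml_mem_killing N f)

/-- **Eichler–Shimura (S21)**: the period map is injective. -/
theorem pml_injective : Function.Injective (pml N) := by
  rw [injective_iff_map_eq_zero]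
  intro f h0
  have h1 : ModularCurve.periodHomPair N (f, f) = 0 := by
    rw [periodHomPair_eq, LinearMap.coprod_apply]
    simp [h0]
  have h2 : ModularCurve.periodHomPair N (f, f) = ModularCurve.periodHomPair N 0 := by
    rw [h1, map_zero]
  have h3 := (Fermat.Agent.S21.result N).1 h2
  exact congrArg Prod.fst h3

/-- The period map intertwines `T_ℓ` with `heckeAddP`. -/
theorem pml_heckeTLin' (ℓ : Nat.Primes) (hℓN : ¬ (ℓ : ℕ) ∣ N) (f : CuspForm (Gamma0 N) 2) :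
    pml N (CuspForm.heckeTLin 2 ℓ.2 hℓN f) = heckeAddP N ℓ hℓN (pml N f) :=
  haveI : Fact (ℓ : ℕ).Prime := ⟨ℓ.2⟩
  Fermat.Agent.N4F.Tors.PeriodHecke.pml_heckeTLin N ℓ.2 hℓN f

/-- **The Hecke operators commute on the lattice `Λ = parHomAdd N ℤ`.** -/
theorem heckeLattice_commute (ℓ ℓ' : Nat.Primes) (hℓ : ¬ (ℓ : ℕ) ∣ N) (hℓ' : ¬ (ℓ' : ℕ) ∣ N) :
    Commute (heckeLattice N ℓ hℓ) (heckeLattice N ℓ' hℓ') := by
  have : Fact (ℓ : ℕ).Prime := ⟨ℓ.2⟩
  have : Fact (ℓ' : ℕ).Prime := ⟨ℓ'.2⟩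
  refine LinearMap.ext fun ψ => Subtype.ext ?_
  show heckeAddP N ℓ hℓ (heckeAddP N ℓ' hℓ' ψ.1) = heckeAddP N ℓ' hℓ' (heckeAddP N ℓ hℓ ψ.1)
  apply Fermat.Agent.N4F.Tors.ESHecke.castHom_injective_complex N
  show (Int.castAddHom ℂ).comp (heckeAddP N ℓ hℓ (heckeAddP N ℓ' hℓ' ψ.1)) =
    (Int.castAddHom ℂ).comp (heckeAddP N ℓ' hℓ' (heckeAddP N ℓ hℓ ψ.1))
  rw [← heckeAddP_comp, ← heckeAddP_comp, ← heckeAddP_comp, ← heckeAddP_comp]
  exact Fermat.Agent.N4F.Tors.PeriodHecke.heckeAdd_comm_of_mem_parabolicHoms N hℓ hℓ'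
    (Fermat.Agent.N4F.Tors.ESHecke.castHom_mem_parabolicHoms N
      ⟨ψ.1, (Fermat.Agent.N4F.Tors.ESHecke.mem_killing_iff N (R := ℤ)).2 ψ.2⟩)

variable (S : Set ℕ)

/-- The good primes outside `S`. -/
abbrev Idx : Type := {ℓ : Nat.Primes // ¬ (ℓ : ℕ) ∣ N ∧ (ℓ : ℕ) ∉ S}

/-- `T_ℓ` on the lattice, indexed by `Idx N S`. -/
abbrev tLat (i : Idx N S) : Module.End ℤ ↥(parHomAdd N ℤ) := heckeLattice N i.1 i.2.1

/-- `T_ℓ` in the Hecke algebra, indexed by `Idx N S`. -/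
abbrev tAlg (i : Idx N S) : CuspForm.heckeAlgebra N 2 S :=
  CuspForm.heckeAlgebra.T i.1.2 i.2.1 i.2.2

theorem tLat_commute (i j : Idx N S) : Commute (tLat N S i) (tLat N S j) :=
  heckeLattice_commute N i.1 j.1 i.2.1 j.2.1

/-- the evaluation `P ↦ P(T) ∈ End_ℂ S₂(Γ₀(N))`. -/
def evalS : MvPolynomial (Idx N S) ℤ →ₐ[ℤ] Module.End ℂ (CuspForm (Gamma0 N) 2) :=
  (CuspForm.heckeAlgebra N 2 S).val.comp (MvPolynomial.aeval (tAlg N S))

theorem evalS_X (i : Idx N S) :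
    evalS N S (MvPolynomial.X i) = CuspForm.heckeTLin 2 i.1.2 i.2.1 := by
  simp [evalS, tAlg]

/-- `A` on the lattice and `A'` on cusp forms are intertwined by `Jc` and the period map. -/
def Intertwines (A : Module.End ℤ ↥(parHomAdd N ℤ))
    (A' : Module.End ℂ (CuspForm (Gamma0 N) 2)) : Prop :=
  ∀ (f : CuspForm (Gamma0 N) 2) (y : ℂ ⊗[ℤ] ↥(parHomAdd N ℤ)), Jc N y = pml N f →
    Jc N (A.baseChange ℂ y) = pml N (A' f)

variable {N}

theorem Intertwines.add {A B : Module.End ℤ ↥(parHomAdd N ℤ)}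
    {A' B' : Module.End ℂ (CuspForm (Gamma0 N) 2)} (hA : Intertwines N A A')
    (hB : Intertwines N B B') : Intertwines N (A + B) (A' + B') := by
  intro f y hy
  rw [LinearMap.baseChange_add, LinearMap.add_apply, LinearMap.add_apply, map_add, map_add,
    hA f y hy, hB f y hy]

theorem Intertwines.mul {A B : Module.End ℤ ↥(parHomAdd N ℤ)}
    {A' B' : Module.End ℂ (CuspForm (Gamma0 N) 2)} (hA : Intertwines N A A')
    (hB : Intertwines N B B') : Intertwines N (A * B) (A' * B') := by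
  intro f y hy
  rw [LinearMap.baseChange_mul, Module.End.mul_apply, Module.End.mul_apply]
  exact hA _ _ (hB f y hy)

theorem intertwines_int (a : ℤ) :
    Intertwines N (a • (1 : Module.End ℤ ↥(parHomAdd N ℤ)))
      (a • (1 : Module.End ℂ (CuspForm (Gamma0 N) 2))) := by
  intro f y hy
  rw [LinearMap.baseChange_smul, LinearMap.baseChange_one, LinearMap.smul_apply,
    LinearMap.smul_apply, Module.End.one_apply, Module.End.one_apply, map_zsmul, map_zsmul, hy]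

theorem intertwines_hecke (ℓ : Nat.Primes) (hℓN : ¬ (ℓ : ℕ) ∣ N) :
    Intertwines N (heckeLattice N ℓ hℓN) (CuspForm.heckeTLin 2 ℓ.2 hℓN) := by
  intro f y hy
  rw [Jc_baseChange, hy, pml_heckeTLin']

variable (N)

/-- **The key intertwining**: along `Jc y = pml f`, the action of `P(t)` on `ℂ ⊗ Λ` matches the
action of `P(T)` on cusp forms. -/
theorem intertwines_polyAct (hcomm : ∀ i j : Idx N S, Commute (tLat N S i) (tLat N S j))
    (Q : MvPolynomial (Idx N S) ℤ) :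
    Intertwines N (polyAct (R := ℤ) (tLat N S) hcomm Q) (evalS N S Q) := by
  induction Q using MvPolynomial.induction_on with
  | C a =>
    have h1 : polyAct (R := ℤ) (tLat N S) hcomm (MvPolynomial.C a) =
        a • (1 : Module.End ℤ ↥(parHomAdd N ℤ)) := by
      rw [← MvPolynomial.algebraMap_eq, AlgHom.commutes, Algebra.algebraMap_eq_smul_one]
    have h2 : evalS N S (MvPolynomial.C a) = a • (1 : Module.End ℂ (CuspForm (Gamma0 N) 2)) := by
      rw [← MvPolynomial.algebraMap_eq, AlgHom.commutes, Algebra.algebraMap_eq_smul_one]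
    rw [h1, h2]
    exact intertwines_int a
  | add p q hp hq =>
    have h1 : polyAct (R := ℤ) (tLat N S) hcomm (p + q) =
        polyAct (R := ℤ) (tLat N S) hcomm p + polyAct (R := ℤ) (tLat N S) hcomm q :=
      map_add _ p q
    have h2 : evalS N S (p + q) = evalS N S p + evalS N S q := map_add _ p q
    rw [h1, h2]
    exact hp.add hq
  | mul_X p i hp =>
    have h1 : polyAct (R := ℤ) (tLat N S) hcomm (p * MvPolynomial.X i) =
        polyAct (R := ℤ) (tLat N S) hcomm p * heckeLattice N i.1 i.2.1 := by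
      rw [map_mul, polyAct_X]
    have h2 : evalS N S (p * MvPolynomial.X i) =
        evalS N S p * CuspForm.heckeTLin 2 i.1.2 i.2.1 := by
      rw [map_mul, evalS_X]
    rw [h1, h2]
    exact hp.mul (intertwines_hecke i.1 i.2.1)

/-- **(T6b) FAITHFULNESS**: an integral polynomial in the `T_ℓ` (`ℓ ∤ N`, `ℓ ∉ S`) which kills the
lattice `Λ = parHomAdd N ℤ` is zero in the Hecke algebra `heckeAlgebra N 2 S`. -/
theorem hecke_faithful (hcomm : ∀ i j : Idx N S, Commute (tLat N S i) (tLat N S j))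
    (P : MvPolynomial (Idx N S) ℤ)
    (hP : polyAct (R := ℤ) (tLat N S) hcomm P = 0) :
    MvPolynomial.aeval (tAlg N S) P = 0 := by
  apply Subtype.ext
  show evalS N S P = 0
  apply LinearMap.ext
  intro f
  obtain ⟨y, hy⟩ := exists_Jc_eq N (pml N f) (pml_mem_parHomAdd N f)
  have h := intertwines_polyAct N S hcomm P f y hy
  rw [hP, LinearMap.baseChange_zero, LinearMap.zero_apply, map_zero] at h
  rw [LinearMap.zero_apply]
  exact (pml_injective N (h.symm.trans (map_zero _).symm))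

/-- The same, with the commutation supplied (`heckeLattice_commute`), in unfolded form. -/
theorem hecke_faithful' (P : MvPolynomial {ℓ : Nat.Primes // ¬ (ℓ : ℕ) ∣ N ∧ (ℓ : ℕ) ∉ S} ℤ)
    (hP : polyAct (R := ℤ)
      (fun i : {ℓ : Nat.Primes // ¬ (ℓ : ℕ) ∣ N ∧ (ℓ : ℕ) ∉ S} => heckeLattice N i.1 i.2.1)
      (fun i j => heckeLattice_commute N i.1 j.1 i.2.1 j.2.1) P = 0) :
    MvPolynomial.aeval (fun i : {ℓ : Nat.Primes // ¬ (ℓ : ℕ) ∣ N ∧ (ℓ : ℕ) ∉ S} =>
      (CuspForm.heckeAlgebra.T i.1.2 i.2.1 i.2.2 : CuspForm.heckeAlgebra N 2 S)) P = 0 :=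
  hecke_faithful N S (tLat_commute N S) P hP

end Fermat.Agent.N4F.Adic.HeckeFaithful
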