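/-
N4-FULL / S30 p-adic packaging (helper27), part 2: **an irreducible representation satisfying the
operator identity has dimension at most 2 if the group contains an "odd involution"**
(`c² = 1`, `χ(c) = -1`, characteristic `≠ 2`) — no finiteness of the image, no algebraically closed
field (complex conjugation excludes the quaternion case).
-/
import Fermat.Agent.N4F.G.ResidualRep

set_option autoImplicit false

open Module

namespace Fermat.Agent.N4F.Adic.Involution

open Fermat.Agent.N4F.G.ResidualRep

variable {k : Type*} [Field k] {G : Type*} [Group G] {M : Type*} [AddCommGroup M] [Module k M]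
  [FiniteDimensional k M] {ρ : Representation k G M} {χ : G →* kˣ} {s : G → k}

omit [FiniteDimensional k M] in
/-- If `ρ(c)` is a scalar `ε` with `ε² ≠ χ(c)`, then the operator identity forces every `ρ(h)` to be
a scalar. -/
lemma forall_isScal_of_isScal (h : OpIdentity ρ χ s) (c : G) (ε : k)
    (hε : ρ c = ε • (1 : End k M)) (hne : ε * ε ≠ (χ c : k)) (g : G) : IsScal (ρ g) := by
  by_cases hε0 : ε = 0
  · subst hε0
    have h1 := rho_mul_rho_inv (ρ := ρ) c
    rw [hε, zero_smul, zero_mul] at h1
    have : Subsingleton M := by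
      refine ⟨fun x y => ?_⟩
      have hx := congrArg (fun φ : End k M => φ x) h1
      have hy := congrArg (fun φ : End k M => φ y) h1
      simp only [LinearMap.zero_apply, Module.End.one_apply] at hx hy
      rw [← hx, ← hy]
    refine ⟨0, ?_⟩
    ext x
    exact Subsingleton.elim _ _
  -- the identity for `c * g` and for `g`
  have h1 := h (c * g)
  have h2 := h g
  have hcinv : ρ c⁻¹ = ε⁻¹ • (1 : End k M) := by
    have h3 := rho_mul_rho_inv (ρ := ρ) c
    rw [hε, smul_mul_assoc, one_mul] at h3
    have h4 := congrArg (fun x => ε⁻¹ • x) h3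
    simp only [smul_smul, inv_mul_cancel₀ hε0, one_smul] at h4
    exact h4
  rw [map_mul, mul_inv_rev, map_mul, map_mul, Units.val_mul, hε, hcinv, smul_mul_assoc, one_mul,
    mul_smul_comm, mul_one, smul_smul] at h1
  -- `ε ρ(g) + χ(c) χ(g) ε⁻¹ ρ(g)⁻¹ = s(cg)` and `ρ(g) + χ(g) ρ(g)⁻¹ = s(g)`
  have h3 : (((χ c : k) * ε⁻¹ - ε) * (χ g : k)) • ρ g⁻¹ =
      (s (c * g) - ε * s g) • (1 : End k M) := by
    have e2 := congrArg (fun x => ε • x) h2
    simp only [smul_add, smul_smul] at e2
    have e3 := congrArg₂ (fun x y => x - y) h1 e2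
    simp only [add_sub_add_left_eq_sub, ← sub_smul] at e3
    rw [← e3]
    congr 1
    ring
  have hd : (χ c : k) * ε⁻¹ - ε ≠ 0 := by
    intro h0
    apply hne
    have h5 : (χ c : k) * ε⁻¹ = ε := sub_eq_zero.1 h0
    calc ε * ε = ((χ c : k) * ε⁻¹) * ε := by rw [h5]
      _ = (χ c : k) := by rw [mul_assoc, inv_mul_cancel₀ hε0, mul_one]
  have hχg : (χ g : k) ≠ 0 := (χ g).ne_zero
  -- hence `ρ(g)⁻¹` is a scalar
  have h4 : ρ g⁻¹ = ((((χ c : k) * ε⁻¹ - ε) * (χ g : k))⁻¹ * (s (c * g) - ε * s g)) •
      (1 : End k M) := by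
    have h6 := congrArg (fun x => (((χ c : k) * ε⁻¹ - ε) * (χ g : k))⁻¹ • x) h3
    simp only [smul_smul] at h6
    rw [inv_mul_cancel₀ (mul_ne_zero hd hχg), one_smul] at h6
    exact h6
  -- and so is `ρ(g)`
  set t : k := (((χ c : k) * ε⁻¹ - ε) * (χ g : k))⁻¹ * (s (c * g) - ε * s g) with ht
  have h5 := rho_mul_rho_inv (ρ := ρ) g
  rw [h4, mul_smul_comm, mul_one] at h5
  by_cases ht0 : t = 0
  · rw [ht0, zero_smul] at h5
    have : Subsingleton M := by
      refine ⟨fun x y => ?_⟩
      have hx := congrArg (fun φ : End k M => φ x) h5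
      have hy := congrArg (fun φ : End k M => φ y) h5
      simp only [LinearMap.zero_apply, Module.End.one_apply] at hx hy
      rw [← hx, ← hy]
    refine ⟨0, ?_⟩
    ext x
    exact Subsingleton.elim _ _
  · refine ⟨t⁻¹, ?_⟩
    have h6 := congrArg (fun x => t⁻¹ • x) h5
    simp only [smul_smul, inv_mul_cancel₀ ht0, one_smul] at h6
    exact h6

/-- **The involution argument.** An irreducible finite-dimensional representation satisfying the
operator identity, of a group containing an element `c` with `c² = 1` and `χ(c) = -1`, over a field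
of characteristic `≠ 2`, has dimension `1` or `2`. -/
theorem finrank_eq_two_or_one (h2 : (2 : k) ≠ 0) (hirr : Irred ρ) (h : OpIdentity ρ χ s)
    (c : G) (hc : c * c = 1) (hχc : (χ c : k) = -1) :
    Module.finrank k M = 2 ∨ Module.finrank k M = 1 := by
  have hnt := hirr.1
  have hq := actsQuadratically_spanAlg h
  have hsimple := isSimpleModule_spanAlg hirr
  rcases finrank_eq_two_or_domain (R := spanAlg ρ) (k := k) (M := M) hq with h2' | hdom
  · exact Or.inl h2'
  right
  -- `ρ(c)² = 1`
  have hcc : ρ c * ρ c = 1 := by rw [← map_mul, hc, map_one]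
  -- `ρ(c) = ±1`
  have hpm : ρ c = (1 : k) • (1 : End k M) ∨ ρ c = (-1 : k) • (1 : End k M) := by
    by_cases hp : ρ c = 1
    · left
      rw [one_smul, hp]
    right
    -- `ρ(c) - 1 ≠ 0`: pick `m'` with `(ρ(c) - 1) m' ≠ 0`; it is killed by `ρ(c) + 1`
    have : ∃ m', (ρ c - 1) m' ≠ 0 := by
      by_contra hall
      push Not at hall
      apply hp
      ext x
      have := hall x
      rw [LinearMap.sub_apply, sub_eq_zero] at this
      exact this
    obtain ⟨m', hm'⟩ := this
    have hr : (ρ c + 1) ∈ spanAlg ρ :=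
      (spanAlg ρ).add_mem (rho_mem_spanAlg ρ c) (spanAlg ρ).one_mem
    have hkill : (⟨ρ c + 1, hr⟩ : spanAlg ρ) • ((ρ c - 1) m') = 0 := by
      show (ρ c + 1) ((ρ c - 1) m') = 0
      rw [← Module.End.mul_apply, add_mul, mul_sub, mul_sub, hcc, mul_one, one_mul, mul_one]
      simp
    have hall := hdom ⟨ρ c + 1, hr⟩ _ hm' hkill
    ext x
    have hx : (ρ c + 1) x = 0 := hall x
    rw [LinearMap.add_apply, Module.End.one_apply] at hx
    rw [LinearMap.smul_apply, Module.End.one_apply, neg_one_smul]
    exact eq_neg_of_add_eq_zero_left hx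
  -- all `ρ(g)` are scalars
  have hall : ∀ g, IsScal (ρ g) := by
    intro g
    rcases hpm with hp | hp
    · refine forall_isScal_of_isScal h c 1 hp ?_ g
      rw [hχc, mul_one]
      intro h3
      apply h2
      linear_combination h3
    · refine forall_isScal_of_isScal h c (-1) hp ?_ g
      rw [hχc]
      intro h3
      apply h2
      linear_combination h3
  -- hence every line is stable, and `M` is a line
  obtain ⟨m₀, hm₀⟩ := exists_ne (0 : M)
  rcases hirr.2 (Submodule.span k {m₀}) (fun g x hx => by
    obtain ⟨t, ht⟩ := hall g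
    rw [ht]
    exact Submodule.smul_mem _ _ hx) with h3 | h3
  · exact absurd ((Submodule.span_singleton_eq_bot).1 h3) hm₀
  · have h4 : Module.finrank k M ≤ 1 := by
      rw [← finrank_top k M, ← h3]
      exact (finrank_span_le_card ({m₀} : Set M)).trans (by simp)
    have h5 : 0 < Module.finrank k M := Module.finrank_pos
    omega

end Fermat.Agent.N4F.Adic.Involution
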