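/-
N4-FULL / S30 p-adic packaging (helper27), part 3: **the lattice of a subspace**.

`R` a domain, `K = Frac R`, `M` an `R`-module, `ι : M → V` a localisation of `M` at `R ∖ 0`
(`V` a `K`-vector space; e.g. `V = K ⊗ M`), `U ⊆ V` a `K`-subspace.
`latticeOf ι U = {m ∈ M | ι m ∈ U}` is a saturated `R`-submodule of `M`, and `latticeOf ι U → U` is
again a localisation: `rank_R (latticeOf ι U) = dim_K U`, a basis of the lattice gives a basis of
`U`, and the matrices (hence characteristic polynomials) of compatible endomorphisms correspond.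
-/
import Mathlib

set_option autoImplicit false

open Module nonZeroDivisors Polynomial

namespace Fermat.Agent.N4F.Adic.Lattice

variable {R : Type*} [CommRing R] [IsDomain R] {K : Type*} [Field K] [Algebra R K]
  [IsFractionRing R K] {M : Type*} [AddCommGroup M] [Module R M]
  {V : Type*} [AddCommGroup V] [Module K V] [Module R V] [IsScalarTower R K V]
  (ι : M →ₗ[R] V) [IsLocalizedModule R⁰ ι] (U : Submodule K V)

/-- The lattice `{m ∈ M | ι m ∈ U}` of a `K`-subspace `U` of `V = K ⊗ M`. -/
def latticeOf : Submodule R M :=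
  (U.restrictScalars R).comap ι

omit [IsDomain R] [IsFractionRing R K] [IsLocalizedModule R⁰ ι] in
lemma mem_latticeOf {m : M} : m ∈ latticeOf ι U ↔ ι m ∈ U := Iff.rfl

omit [IsLocalizedModule R⁰ ι] in
/-- The lattice is saturated. -/
lemma mem_latticeOf_of_smul_mem {r : R} (hr : r ≠ 0) {m : M} (h : r • m ∈ latticeOf ι U) :
    m ∈ latticeOf ι U := by
  rw [mem_latticeOf] at h ⊢
  rw [map_smul, ← algebraMap_smul K r (ι m)] at h
  have h2 : algebraMap R K r ≠ 0 := by
    rwa [Ne, IsFractionRing.to_map_eq_zero_iff]
  have h3 := U.smul_mem (algebraMap R K r)⁻¹ h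
  rwa [smul_smul, inv_mul_cancel₀ h2, one_smul] at h3

/-- The inclusion `latticeOf ι U → U`. -/
def toSub : latticeOf ι U →ₗ[R] U where
  toFun m := ⟨ι (m : M), m.2⟩
  map_add' x y := Subtype.ext (by simp)
  map_smul' r x := Subtype.ext (by simp)

omit [IsDomain R] [IsFractionRing R K] [IsLocalizedModule R⁰ ι] in
@[simp] lemma coe_toSub (m : latticeOf ι U) : ((toSub ι U m : U) : V) = ι (m : M) := rfl

/-- `latticeOf ι U → U` is a localisation at the nonzero elements of `R`. -/
instance isLocalizedModule_toSub : IsLocalizedModule R⁰ (toSub ι U) where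
  map_units r := by
    have hr : algebraMap R K (r : R) ≠ 0 := by
      rw [Ne, IsFractionRing.to_map_eq_zero_iff]
      exact nonZeroDivisors.ne_zero r.2
    rw [Module.End.isUnit_iff]
    constructor
    · intro x y hxy
      have h1 : (r : R) • x = (r : R) • y := hxy
      rw [← algebraMap_smul K (r : R) x, ← algebraMap_smul K (r : R) y] at h1
      exact smul_right_injective _ hr h1
    · intro x
      refine ⟨(algebraMap R K (r : R))⁻¹ • x, ?_⟩
      show (r : R) • ((algebraMap R K (r : R))⁻¹ • x) = x
      rw [← algebraMap_smul K (r : R), smul_smul, mul_inv_cancel₀ hr, one_smul]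
  surj y := by
    obtain ⟨⟨m, r⟩, hmr⟩ := IsLocalizedModule.surj R⁰ ι (y : V)
    have hm : m ∈ latticeOf ι U := by
      rw [mem_latticeOf]
      have : ι m = r • (y : V) := hmr.symm
      rw [this]
      exact (U.restrictScalars R).smul_mem _ y.2
    exact ⟨(⟨m, hm⟩, r), Subtype.ext hmr⟩
  exists_of_eq := by
    intro x₁ x₂ h
    have h1 : ι (x₁ : M) = ι (x₂ : M) := congrArg Subtype.val h
    obtain ⟨c, hc⟩ := IsLocalizedModule.exists_of_eq (S := R⁰) h1
    exact ⟨c, Subtype.ext hc⟩

/-- `rank_R (latticeOf ι U) = dim_K U`. -/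
theorem finrank_latticeOf : Module.finrank R (latticeOf ι U) = Module.finrank K U := by
  have h1 : Module.finrank R U = Module.finrank R (latticeOf ι U) :=
    IsLocalizedModule.finrank_eq (p := R⁰) (f := toSub ι U) le_rfl
  have h2 : Module.finrank K U = Module.finrank R U := IsLocalization.finrank_eq K R⁰ le_rfl
  rw [h2, h1]

section Basis

variable {I : Type*} (b : Basis I R (latticeOf ι U))

/-- The basis of `U` given by a basis of its lattice. -/
noncomputable def basisSub : Basis I K U := b.ofIsLocalizedModule K R⁰ (toSub ι U)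

lemma basisSub_apply (i : I) : basisSub ι U b i = toSub ι U (b i) :=
  b.ofIsLocalizedModule_apply K R⁰ (toSub ι U) i

lemma basisSub_repr_toSub (m : latticeOf ι U) (i : I) :
    (basisSub ι U b).repr (toSub ι U m) i = algebraMap R K (b.repr m i) :=
  b.ofIsLocalizedModule_repr_apply K R⁰ (toSub ι U) m i

variable [Fintype I] [DecidableEq I]

/-- Matrices correspond: if `φ` on the lattice and `Φ` on `U` are compatible, the matrix of `Φ` is
the image of the matrix of `φ`. -/
theorem toMatrix_eq_map (φ : End R (latticeOf ι U)) (Φ : End K U)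
    (h : ∀ m, Φ (toSub ι U m) = toSub ι U (φ m)) :
    LinearMap.toMatrix (basisSub ι U b) (basisSub ι U b) Φ =
      (LinearMap.toMatrix b b φ).map (algebraMap R K) := by
  ext i j
  rw [LinearMap.toMatrix_apply, Matrix.map_apply, LinearMap.toMatrix_apply, basisSub_apply, h,
    basisSub_repr_toSub]

omit [Fintype I] [DecidableEq I] in
/-- Characteristic polynomials correspond. -/
theorem charpoly_eq_map [Module.Free R ↥(latticeOf ι U)] [Module.Finite R ↥(latticeOf ι U)]
    [Module.Finite K ↥U] (φ : End R (latticeOf ι U)) (Φ : End K U)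
    (h : ∀ m, Φ (toSub ι U m) = toSub ι U (φ m)) :
    Φ.charpoly = φ.charpoly.map (algebraMap R K) := by
  classical
  let b := Module.Free.chooseBasis R ↥(latticeOf ι U)
  rw [← LinearMap.charpoly_toMatrix Φ (basisSub ι U b), ← LinearMap.charpoly_toMatrix φ b,
    toMatrix_eq_map ι U b φ Φ h, Matrix.charpoly_map]

end Basis

end Fermat.Agent.N4F.Adic.Lattice
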