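/-
N4-FULL / S30 p-adic packaging (helper27), part 4: **the abstract core**.

`R` a principal ideal domain with `2 ≠ 0` (e.g. a DVR of characteristic `0`), `M ≠ 0` a finite free
`R`-module with an action `ρ` of a group `G`, `χ : G →* Rˣ` a character such that
`ρ(g) + χ(g) ρ(g)⁻¹ = s(g)` is a scalar for every `g`, and `c ∈ G` an odd involution (`c² = 1`,
`χ(c) = -1`).  Then (`exists_rank_two_rep`) there is a free `R`-module `V` of rank `2` with an
action `ρ'` of `G` such that `charpoly ρ'(g) = X² - s(g) X + χ(g)` for all `g`, with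
`ρ'(g) = 1` whenever `ρ(g) = 1` and `χ(g) = 1`, and `ρ'(g) ≡ 1 mod r` whenever `ρ(g) ≡ 1 mod r` and
`χ(g) ≡ 1 mod r` (so continuity is inherited elementwise).  No extension of scalars is needed:
the odd involution excludes the quaternion case.
-/
import Fermat.Agent.N4F.Adic.Involution
import Fermat.Agent.N4F.Adic.Lattice

set_option autoImplicit false

open Module nonZeroDivisors Polynomial

namespace Fermat.Agent.N4F.Adic.Core

open Fermat.Agent.N4F.G.ResidualRep Fermat.Agent.N4F.Adic.Involution
  Fermat.Agent.N4F.Adic.Lattice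

/-! ### Extension of scalars of an action to the fraction field -/

section Extend

variable {R : Type*} [CommRing R] [IsDomain R] (K : Type*) [Field K] [Algebra R K]
  [IsFractionRing R K] {G : Type*} [Group G] {M : Type*} [AddCommGroup M] [Module R M]
  {V : Type*} [AddCommGroup V] [Module K V] [Module R V] [IsScalarTower R K V]
  (ι : M →ₗ[R] V) [IsLocalizedModule R⁰ ι]

/-- The action of `G` on the localisation `V` of `M`. -/
noncomputable def extendRep (ρ : G →* End R M) : Representation K G V where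
  toFun g := IsLocalizedModule.mapExtendScalars R⁰ ι ι K (ρ g)
  map_one' := by
    apply LinearMap.restrictScalars_injective R
    apply IsLocalizedModule.linearMap_ext R⁰ ι ι
    ext m
    simp
  map_mul' g h := by
    apply LinearMap.restrictScalars_injective R
    apply IsLocalizedModule.linearMap_ext R⁰ ι ι
    ext m
    simp

@[simp] lemma extendRep_apply (ρ : G →* End R M) (g : G) (m : M) :
    extendRep K ι ρ g (ι m) = ι (ρ g m) := by
  simp [extendRep]

end Extend

/-! ### Irreducible subrepresentations -/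

section Irred

variable {k : Type} [Field k] {G : Type*} [Group G]

/-- A nonzero finite-dimensional representation has an irreducible subrepresentation. -/
theorem exists_irred_subRep {W : Type} [AddCommGroup W] [Module k W] [FiniteDimensional k W]
    [Nontrivial W] (ρ : Representation k G W) :
    ∃ (U : Submodule k W) (hU : ∀ g, ∀ x ∈ U, ρ g x ∈ U), Irred (subRep ρ U hU) := by
  classical
  have hex : ∃ n : ℕ, ∃ U : Submodule k W, U ≠ ⊥ ∧ (∀ g, ∀ x ∈ U, ρ g x ∈ U) ∧
      Module.finrank k ↥U = n :=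
    ⟨_, ⊤, top_ne_bot, fun _ _ _ => Submodule.mem_top, rfl⟩
  obtain ⟨U, hU0, hU, hUn⟩ := Nat.find_spec hex
  have hmin : ∀ U' : Submodule k W, U' ≠ ⊥ → (∀ g, ∀ x ∈ U', ρ g x ∈ U') →
      Module.finrank k ↥U ≤ Module.finrank k ↥U' := by
    intro U' h0 hst
    rw [hUn]
    exact Nat.find_min' hex ⟨U', h0, hst, rfl⟩
  refine ⟨U, hU, Submodule.nontrivial_iff_ne_bot.2 hU0, fun N hN => ?_⟩
  by_cases hN0 : N = ⊥
  · exact Or.inl hN0
  right
  have h1 : N.map U.subtype ≠ ⊥ := by
    intro h0
    apply hN0
    apply Submodule.map_injective_of_injective U.subtype_injective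
    rw [h0, Submodule.map_bot]
  have h2 : ∀ g, ∀ x ∈ N.map U.subtype, ρ g x ∈ N.map U.subtype := by
    rintro g _ ⟨y, hy, rfl⟩
    exact ⟨subRep ρ U hU g y, hN g y hy, rfl⟩
  have h3 : N.map U.subtype ≤ U := Submodule.map_subtype_le U N
  have h4 : N.map U.subtype = U :=
    Submodule.eq_of_le_of_finrank_le h3 (hmin _ h1 h2)
  rw [eq_top_iff]
  rintro ⟨x, hx⟩ _
  have hx' : x ∈ N.map U.subtype := by rw [h4]; exact hx
  obtain ⟨y, hy, hyx⟩ := hx'
  have : y = ⟨x, hx⟩ := Subtype.ext hyx
  rwa [← this]

end Irred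

/-! ### The operator identity over the fraction field -/

section OpK

variable {R : Type*} [CommRing R] [IsDomain R] (K : Type*) [Field K] [Algebra R K]
  [IsFractionRing R K] {G : Type*} [Group G] {M : Type*} [AddCommGroup M] [Module R M]
  {V : Type*} [AddCommGroup V] [Module K V] [Module R V] [IsScalarTower R K V]
  (ι : M →ₗ[R] V) [IsLocalizedModule R⁰ ι]

/-- The character `χ` with values in the fraction field. -/
noncomputable def chiK (χ : G →* Rˣ) : G →* Kˣ := (Units.map (algebraMap R K).toMonoidHom).comp χ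

omit [IsDomain R] [IsFractionRing R K] in
@[simp] lemma coe_chiK (χ : G →* Rˣ) (g : G) : ((chiK K χ g : Kˣ) : K) = algebraMap R K (χ g) := rfl

/-- The operator identity over `R` implies the operator identity over the fraction field. -/
theorem opIdentity_extendRep (ρ : G →* End R M) (χ : G →* Rˣ) (s : G → R)
    (h : ∀ g, ρ g + (χ g : R) • ρ g⁻¹ = s g • (1 : End R M)) :
    OpIdentity (extendRep K ι ρ) (chiK K χ) (fun g => algebraMap R K (s g)) := by
  intro g
  apply LinearMap.restrictScalars_injective R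
  apply IsLocalizedModule.linearMap_ext R⁰ ι ι
  ext m
  have h1 := congrArg (fun φ : End R M => ι (φ m)) (h g)
  simp only [LinearMap.add_apply, LinearMap.smul_apply, Module.End.one_apply, map_add,
    map_smul] at h1
  simp only [LinearMap.coe_comp, LinearMap.coe_restrictScalars, Function.comp_apply,
    LinearMap.add_apply, LinearMap.smul_apply, extendRep_apply, coe_chiK, algebraMap_smul,
    Module.End.one_apply]
  exact h1

end OpK

/-! ### Rank one modules and the diagonal representation -/

section RankOne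

variable {R : Type*} [CommRing R] [IsDomain R] {G : Type*} [Group G] {Λ : Type*} [AddCommGroup Λ]
  [Module R Λ] [Module.Free R Λ] [Module.Finite R Λ]

omit [Module.Finite R Λ] in
/-- `c ↦ c • 1` is injective on a nonzero free module over a domain. -/
lemma smul_one_injectiveR [Nontrivial Λ] :
    Function.Injective fun c : R => c • (1 : End R Λ) := by
  intro c c' h
  obtain ⟨x, hx⟩ := exists_ne (0 : Λ)
  have h1 := congrArg (fun φ : End R Λ => φ x) h
  simp only [LinearMap.smul_apply, Module.End.one_apply] at h1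
  have h2 : (c - c') • x = 0 := by rw [sub_smul, h1, sub_self]
  rcases smul_eq_zero.1 h2 with h3 | h3
  · exact sub_eq_zero.1 h3
  · exact absurd h3 hx

/-- On a free module of rank one every endomorphism is a scalar. -/
lemma exists_eq_smul_one_of_finrank_eq_one (h1 : Module.finrank R Λ = 1) (a : End R Λ) :
    ∃ t : R, a = t • (1 : End R Λ) := by
  let b := Module.finBasisOfFinrankEq R Λ h1
  refine ⟨b.repr (a (b 0)) 0, ?_⟩
  apply b.ext
  intro i
  have hi : i = 0 := Subsingleton.elim _ _
  subst hi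
  have h2 := b.sum_repr (a (b 0))
  rw [Fin.sum_univ_one] at h2
  rw [LinearMap.smul_apply, Module.End.one_apply]
  exact h2.symm

/-- A group acting on a free module of rank one acts through a character. -/
theorem exists_char_of_finrank_eq_one (h1 : Module.finrank R Λ = 1) (ρ : G →* End R Λ) :
    ∃ ψ : G →* Rˣ, ∀ g, ρ g = (ψ g : R) • (1 : End R Λ) := by
  have : Nontrivial Λ := Module.nontrivial_of_finrank_pos (R := R) (by omega)
  choose ψ₀ hψ₀ using fun g => exists_eq_smul_one_of_finrank_eq_one h1 (ρ g)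
  let ψm : G →* R :=
    { toFun := ψ₀
      map_one' := smul_one_injectiveR (Λ := Λ) (by
        show ψ₀ 1 • (1 : End R Λ) = (1 : R) • (1 : End R Λ)
        rw [← hψ₀, map_one, one_smul])
      map_mul' := fun g h => smul_one_injectiveR (Λ := Λ) (by
        show ψ₀ (g * h) • (1 : End R Λ) = (ψ₀ g * ψ₀ h) • (1 : End R Λ)
        rw [← hψ₀, map_mul, hψ₀ g, hψ₀ h, smul_mul_smul_comm, mul_one]) }
  refine ⟨ψm.toHomUnits, fun g => ?_⟩
  rw [MonoidHom.coe_toHomUnits]
  exact hψ₀ g

/-- The diagonal representation `ψ ⊕ χ ψ⁻¹` on `R × R`. -/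
noncomputable def diagRepR (ψ χ : G →* Rˣ) : G →* End R (R × R) where
  toFun g := LinearMap.prodMap ((ψ g : R) • (LinearMap.id : R →ₗ[R] R))
    (((χ g * (ψ g)⁻¹ : Rˣ) : R) • (LinearMap.id : R →ₗ[R] R))
  map_one' := by
    ext <;> simp
  map_mul' g h := by
    ext
    · simp [mul_comm]
    · simp
    · simp
    · simp only [map_mul, mul_inv_rev, Units.val_mul, LinearMap.coe_comp, LinearMap.coe_inr,
        Function.comp_apply, LinearMap.prodMap_apply, map_zero, LinearMap.smul_apply,
        LinearMap.id_coe, id_eq, smul_eq_mul, mul_one, Module.End.mul_apply]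
      ring

omit [IsDomain R] in
lemma diagRepR_apply (ψ χ : G →* Rˣ) (g : G) :
    diagRepR ψ χ g = LinearMap.prodMap ((ψ g : R) • (LinearMap.id : R →ₗ[R] R))
      (((χ g * (ψ g)⁻¹ : Rˣ) : R) • (LinearMap.id : R →ₗ[R] R)) := rfl

lemma charpoly_smul_id (c : R) : (c • (LinearMap.id : R →ₗ[R] R)).charpoly = X - C c := by
  have h0 : c • (LinearMap.id : R →ₗ[R] R) = (0 : End R R) - (-c) • (1 : End R R) := by
    ext
    simp
  rw [h0, LinearMap.charpoly_sub_smul, LinearMap.charpoly_zero, Module.finrank_self, pow_one,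
    X_comp, C_neg, ← sub_eq_add_neg]

lemma charpoly_diagRepR (ψ χ : G →* Rˣ) (g : G) :
    (diagRepR ψ χ g).charpoly =
      X ^ 2 - C ((ψ g : R) + ((χ g * (ψ g)⁻¹ : Rˣ) : R)) * X + C (χ g : R) := by
  rw [diagRepR_apply, LinearMap.charpoly_prodMap, charpoly_smul_id, charpoly_smul_id]
  have h1 : (χ g : R) = (ψ g : R) * ((χ g * (ψ g)⁻¹ : Rˣ) : R) := by
    rw [← Units.val_mul, mul_comm (χ g), mul_inv_cancel_left]
  generalize ((χ g * (ψ g)⁻¹ : Rˣ) : R) = b at h1 ⊢
  rw [h1]
  simp only [map_add, map_mul]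
  ring

end RankOne

/-! ### The main theorem -/

section Main

variable {R : Type} [CommRing R] [IsDomain R] [IsPrincipalIdealRing R]
  {G : Type*} [Group G] {M : Type} [AddCommGroup M] [Module R M] [Module.Free R M]
  [Module.Finite R M]

/-- **The abstract core of the `p`-adic packaging.**  `R` a principal ideal domain with `2 ≠ 0`
(e.g. a DVR of characteristic `0`), `M ≠ 0` a finite free `R`-module with an action `ρ` of a group
`G`, `χ : G →* Rˣ` a character, and assume that `ρ(g) + χ(g) ρ(g)⁻¹ = s(g)` is a scalar for all `g`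
and that `G` contains an odd involution `c` (`c² = 1`, `χ(c) = -1`).  Then there is a free
`R`-module `V` of rank `2` with an action `ρ'` of `G` such that
`charpoly ρ'(g) = X² - s(g) X + χ(g)` for all `g`; moreover `ρ'(g) = 1` whenever `ρ(g) = 1` and
`χ(g) = 1`, and `ρ'(g) ≡ 1 mod r` whenever `ρ(g) ≡ 1 mod r` and `χ(g) ≡ 1 mod r`. -/
theorem exists_rank_two_rep [Nontrivial M] (ρ : G →* End R M) (χ : G →* Rˣ) (s : G → R)
    (h : ∀ g, ρ g + (χ g : R) • ρ g⁻¹ = s g • (1 : End R M)) (h2 : (2 : R) ≠ 0) (c : G)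
    (hc : c * c = 1) (hχc : (χ c : R) = -1) :
    ∃ (V : Type) (_ : AddCommGroup V) (_ : Module R V) (_ : Module.Free R V)
      (_ : Module.Finite R V) (ρ' : G →* End R V), Module.finrank R V = 2 ∧
      (∀ g, (ρ' g).charpoly = X ^ 2 - C (s g) * X + C (χ g : R)) ∧
      (∀ g, ρ g = 1 → χ g = 1 → ρ' g = 1) ∧
      ∀ (r : R) (g : G), (∀ m, ∃ m', ρ g m - m = r • m') → r ∣ (χ g : R) - 1 →
        ∀ v, ∃ v', ρ' g v - v = r • v' := by
  classical
  -- the localisation
  let ι : M →ₗ[R] LocalizedModule R⁰ M := LocalizedModule.mkLinearMap R⁰ M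
  have hιinj : Function.Injective ι := by
    rw [injective_iff_map_eq_zero]
    intro m hm
    rw [IsLocalizedModule.eq_zero_iff R⁰] at hm
    obtain ⟨c, hc⟩ := hm
    have : (c : R) • m = 0 := hc
    rcases smul_eq_zero.1 this with h0 | h0
    · exact absurd h0 (nonZeroDivisors.ne_zero c.2)
    · exact h0
  have : Nontrivial (LocalizedModule R⁰ M) := hιinj.nontrivial
  have hop := opIdentity_extendRep (FractionRing R) ι ρ χ s h
  obtain ⟨U, hU, hirr⟩ := exists_irred_subRep (extendRep (FractionRing R) ι ρ)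
  have hopU : OpIdentity (subRep (extendRep (FractionRing R) ι ρ) U hU) (chiK (FractionRing R) χ)
      (fun g => algebraMap R (FractionRing R) (s g)) := by
    intro g
    ext x
    exact congrArg (fun φ : End (FractionRing R) (LocalizedModule R⁰ M) => φ (x : _)) (hop g)
  have h2K : (2 : FractionRing R) ≠ 0 := by
    have h3 := (IsFractionRing.injective R (FractionRing R)).ne h2
    rwa [map_ofNat, map_zero] at h3
  have hχcK : ((chiK (FractionRing R) χ c : (FractionRing R)ˣ) : FractionRing R) = -1 := by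
    rw [coe_chiK, hχc, map_neg, map_one]
  -- the lattice
  have hΛst : ∀ g, ∀ m ∈ latticeOf ι U, ρ g m ∈ latticeOf ι U := by
    intro g m hm
    rw [mem_latticeOf, ← extendRep_apply (FractionRing R) ι ρ g m]
    exact hU g _ hm
  let ρΛ : G →* End R (latticeOf ι U) :=
    { toFun := fun g => (ρ g).restrict (hΛst g)
      map_one' := by ext; simp
      map_mul' := fun g h => by ext; simp }
  have hρΛ : ∀ g (m : latticeOf ι U), ((ρΛ g m : latticeOf ι U) : M) = ρ g (m : M) :=
    fun g m => rfl
  have hcompat : ∀ g m, subRep (extendRep (FractionRing R) ι ρ) U hU g (toSub ι U m) =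
      toSub ι U (ρΛ g m) := by
    intro g m
    apply Subtype.ext
    rw [subRep_apply, coe_toSub, coe_toSub, hρΛ, extendRep_apply]
  have hΛop : ∀ g, ρΛ g + (χ g : R) • ρΛ g⁻¹ = s g • (1 : End R (latticeOf ι U)) := by
    intro g
    ext m
    exact congrArg (fun φ : End R M => φ (m : M)) (h g)
  have hΛone : ∀ g, ρ g = 1 → ρΛ g = 1 := by
    intro g hg
    ext m
    rw [hρΛ, hg]
    rfl
  have hΛcong : ∀ (r : R) (g : G), (∀ m, ∃ m', ρ g m - m = r • m') →
      ∀ v : latticeOf ι U, ∃ v' : latticeOf ι U, ρΛ g v - v = r • v' := by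
    intro r g hr v
    by_cases hr0 : r = 0
    · obtain ⟨m', hm'⟩ := hr v
      refine ⟨0, Subtype.ext ?_⟩
      rw [hr0, zero_smul] at hm'
      rw [hr0, zero_smul]
      exact hm'
    · obtain ⟨m', hm'⟩ := hr (v : M)
      have hmem : r • m' ∈ latticeOf ι U := by
        rw [← hm']
        exact sub_mem (hΛst g _ v.2) v.2
      exact ⟨⟨m', mem_latticeOf_of_smul_mem ι U hr0 hmem⟩, Subtype.ext hm'⟩
  rcases finrank_eq_two_or_one h2K hirr hopU c hc hχcK with hd | hd
  · -- dimension 2: the lattice itself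
    refine ⟨latticeOf ι U, inferInstance, inferInstance, inferInstance, inferInstance, ρΛ, ?_, ?_,
      ?_, ?_⟩
    · rw [finrank_latticeOf, hd]
    · intro g
      have h3 := charpoly_rho hirr hopU hd g
      have h4 := charpoly_eq_map ι U (ρΛ g)
        (subRep (extendRep (FractionRing R) ι ρ) U hU g) (hcompat g)
      rw [h4] at h3
      apply Polynomial.map_injective _ (IsFractionRing.injective R (FractionRing R))
      rw [h3]
      simp [coe_chiK]
    · intro g hg _
      exact hΛone g hg
    · intro r g hr _ v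
      exact hΛcong r g hr v
  · -- dimension 1: `ψ ⊕ χ ψ⁻¹`
    have hΛ1 : Module.finrank R (latticeOf ι U) = 1 := by rw [finrank_latticeOf, hd]
    obtain ⟨ψ, hψ⟩ := exists_char_of_finrank_eq_one hΛ1 ρΛ
    have hnt : Nontrivial (latticeOf ι U) :=
      Module.nontrivial_of_finrank_pos (R := R) (by omega)
    have hs : ∀ g, s g = (ψ g : R) + ((χ g * (ψ g)⁻¹ : Rˣ) : R) := by
      intro g
      apply smul_one_injectiveR (Λ := latticeOf ι U)
      show s g • (1 : End R (latticeOf ι U)) =
        ((ψ g : R) + ((χ g * (ψ g)⁻¹ : Rˣ) : R)) • (1 : End R (latticeOf ι U))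
      rw [← hΛop g, hψ g, hψ g⁻¹, map_inv, add_smul, Units.val_mul, mul_smul]
    have hψdvd : ∀ (r : R) (g : G), (∀ m, ∃ m', ρ g m - m = r • m') → r ∣ (ψ g : R) - 1 := by
      intro r g hr
      let b := Module.finBasisOfFinrankEq R (latticeOf ι U) hΛ1
      obtain ⟨v', hv'⟩ := hΛcong r g hr (b 0)
      rw [hψ g, LinearMap.smul_apply, Module.End.one_apply] at hv'
      have h5 := congrArg (fun x => b.repr x 0) hv'
      simp only [map_sub, map_smul, Finsupp.coe_sub, Finsupp.coe_smul, Pi.sub_apply,
        Pi.smul_apply, Basis.repr_self, Finsupp.single_eq_same, smul_eq_mul, mul_one] at h5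
      exact ⟨_, h5⟩
    refine ⟨R × R, inferInstance, inferInstance, inferInstance, inferInstance, diagRepR ψ χ, ?_, ?_,
      ?_, ?_⟩
    · rw [Module.finrank_prod, Module.finrank_self]
    · intro g
      rw [charpoly_diagRepR, hs g]
    · intro g hg hχg
      have hψg : ψ g = 1 := by
        apply Units.ext
        apply smul_one_injectiveR (Λ := latticeOf ι U)
        show (ψ g : R) • (1 : End R (latticeOf ι U)) = ((1 : Rˣ) : R) • (1 : End R (latticeOf ι U))
        rw [← hψ g, Units.val_one, one_smul]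
        exact hΛone g hg
      rw [diagRepR_apply, hψg, hχg]
      ext <;> simp
    · intro r g hr hχr v
      obtain ⟨a, ha⟩ := hψdvd r g hr
      obtain ⟨b', hb'⟩ := hχr
      have hinv : (ψ g : R) * (((ψ g)⁻¹ : Rˣ) : R) = 1 := by
        rw [← Units.val_mul, mul_inv_cancel, Units.val_one]
      refine ⟨(a * v.1, (((ψ g)⁻¹ : Rˣ) : R) * (b' - a) * v.2), ?_⟩
      rw [diagRepR_apply]
      apply Prod.ext
      · simp only [LinearMap.prodMap_apply, LinearMap.smul_apply, LinearMap.id_coe, id_eq,
          smul_eq_mul, Prod.fst_sub, Prod.smul_fst]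
        linear_combination v.1 * ha
      · simp only [LinearMap.prodMap_apply, LinearMap.smul_apply, LinearMap.id_coe, id_eq,
          smul_eq_mul, Prod.snd_sub, Prod.smul_snd, Units.val_mul]
        linear_combination (((ψ g)⁻¹ : Rˣ) : R) * v.2 * hb' - (((ψ g)⁻¹ : Rˣ) : R) * v.2 * ha
          + v.2 * hinv

end Main

end Fermat.Agent.N4F.Adic.Core
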