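/-
N4-FULL, S30 packaging, node [EIG] (helper27's split): the simultaneous eigen-lattice of commuting
operators inside a base-changed finite free module, with its induced group action.

`T` finite free over `R₀`, `τ i : End_{R₀} T`, `a i : 𝒪` (`𝒪` a PID, an `R₀`-algebra), `gal : G →* End_{R₀} T`
commuting with the `τ i`.  Then
`eigen τ a = ⋂ᵢ ker (τ i ⊗ 1 - a i) ⊆ 𝒪 ⊗ T` is a saturated (hence free, finite) `𝒪`-lattice, stable
under `G`; `EigenT τ a` is its carrier type, `galEigen` the induced action; unramifiedness,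
congruences and the Eichler–Shimura relation transfer elementwise.  Mathlib only.  (helper25)
-/
import Mathlib

set_option autoImplicit false
set_option linter.unusedSectionVars false

open TensorProduct

namespace Fermat.Agent.N4F.Adic.EigenLattice

universe u v w x y

section Defs

variable {R₀ : Type u} {𝒪 : Type v} [CommRing R₀] [CommRing 𝒪] [Algebra R₀ 𝒪]
  {T : Type w} [AddCommGroup T] [Module R₀ T] {I : Type x}

/-- The simultaneous eigenspace `⋂ᵢ ker (τ i ⊗ 1 - a i)` in `𝒪 ⊗ T`. -/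
def eigen (τ : I → Module.End R₀ T) (a : I → 𝒪) : Submodule 𝒪 (𝒪 ⊗[R₀] T) :=
  ⨅ i, LinearMap.ker ((τ i).baseChange 𝒪 - a i • (1 : Module.End 𝒪 (𝒪 ⊗[R₀] T)))

theorem mem_eigen_iff {τ : I → Module.End R₀ T} {a : I → 𝒪} {m : 𝒪 ⊗[R₀] T} :
    m ∈ eigen τ a ↔ ∀ i, (τ i).baseChange 𝒪 m = a i • m := by
  simp only [eigen, Submodule.mem_iInf, LinearMap.mem_ker, LinearMap.sub_apply,
    LinearMap.smul_apply, Module.End.one_apply, sub_eq_zero]

/-- The eigen-lattice as a type of its own (to keep instance search on `End` cheap). -/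
def EigenT (τ : I → Module.End R₀ T) (a : I → 𝒪) : Type (max v w) := ↥(eigen τ a)

variable (τ : I → Module.End R₀ T) (a : I → 𝒪)

instance instAddCommGroupEigenT : AddCommGroup (EigenT τ a) :=
  inferInstanceAs (AddCommGroup ↥(eigen τ a))

instance instModuleEigenT : Module 𝒪 (EigenT τ a) :=
  inferInstanceAs (Module 𝒪 ↥(eigen τ a))

/-- The inclusion `EigenT τ a → 𝒪 ⊗ T`. -/
def EigenT.val : EigenT τ a →ₗ[𝒪] 𝒪 ⊗[R₀] T := (eigen τ a).subtype

instance instCoeEigenT : CoeOut (EigenT τ a) (𝒪 ⊗[R₀] T) := ⟨fun m => EigenT.val τ a m⟩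

variable {τ a}

theorem EigenT.val_injective : Function.Injective (EigenT.val τ a) :=
  Subtype.val_injective

@[ext] theorem EigenT.ext {m m' : EigenT τ a} (h : EigenT.val τ a m = EigenT.val τ a m') :
    m = m' := EigenT.val_injective h

theorem EigenT.val_mem (m : EigenT τ a) : EigenT.val τ a m ∈ eigen τ a := Subtype.property m

/-- Elements of the eigen-lattice are eigenvectors. -/
theorem EigenT.baseChange_val (m : EigenT τ a) (i : I) :
    (τ i).baseChange 𝒪 (EigenT.val τ a m) = a i • EigenT.val τ a m :=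
  mem_eigen_iff.1 m.val_mem i

/-- An eigenvector, as an element of the eigen-lattice. -/
def EigenT.mk (v : 𝒪 ⊗[R₀] T) (hv : ∀ i, (τ i).baseChange 𝒪 v = a i • v) : EigenT τ a :=
  ⟨v, mem_eigen_iff.2 hv⟩

@[simp] theorem EigenT.val_mk (v : 𝒪 ⊗[R₀] T) (hv : ∀ i, (τ i).baseChange 𝒪 v = a i • v) :
    EigenT.val τ a (EigenT.mk v hv) = v := rfl

/-- A nonzero simultaneous eigenvector makes the eigen-lattice nontrivial. -/
theorem nontrivial_of_eigenvector (h : ∃ v : 𝒪 ⊗[R₀] T, v ≠ 0 ∧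
    ∀ i, (τ i).baseChange 𝒪 v = a i • v) : Nontrivial (EigenT τ a) := by
  obtain ⟨v, hv0, hv⟩ := h
  refine ⟨⟨EigenT.mk v hv, 0, fun h0 => hv0 ?_⟩⟩
  have := congrArg (EigenT.val τ a) h0
  simpa using this

end Defs

section Lattice

variable {R₀ : Type u} {𝒪 : Type v} [CommRing R₀] [CommRing 𝒪] [Algebra R₀ 𝒪]
  {T : Type w} [AddCommGroup T] [Module R₀ T] {I : Type x}
  {τ : I → Module.End R₀ T} {a : I → 𝒪}

/-- **Saturation**: the eigen-lattice is saturated in `𝒪 ⊗ T` (when the latter is torsion-free). -/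
theorem mem_eigen_of_smul_mem [IsDomain 𝒪] [Module.IsTorsionFree 𝒪 (𝒪 ⊗[R₀] T)] {c : 𝒪}
    (hc : c ≠ 0) {w : 𝒪 ⊗[R₀] T} (h : c • w ∈ eigen τ a) : w ∈ eigen τ a := by
  rw [mem_eigen_iff] at h ⊢
  intro i
  have h1 := h i
  rw [map_smul, smul_comm (a i) c w] at h1
  exact smul_right_injective _ hc h1

variable [IsDomain 𝒪] [IsPrincipalIdealRing 𝒪] [Module.Free R₀ T] [Module.Finite R₀ T]

instance instIsTorsionFreeEigenT : Module.IsTorsionFree 𝒪 (EigenT τ a) :=
  Function.Injective.moduleIsTorsionFree (EigenT.val τ a) EigenT.val_injective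
    (fun r m => map_smul _ r m)

instance instFiniteEigenT : Module.Finite 𝒪 (EigenT τ a) :=
  inferInstanceAs (Module.Finite 𝒪 ↥(eigen τ a))

instance instFreeEigenT : Module.Free 𝒪 (EigenT τ a) :=
  Module.free_of_finite_type_torsion_free'

/-- Saturation, for the base change of a finite free module. -/
theorem mem_eigen_of_smul_mem' {c : 𝒪} (hc : c ≠ 0) {w : 𝒪 ⊗[R₀] T} (h : c • w ∈ eigen τ a) :
    w ∈ eigen τ a :=
  mem_eigen_of_smul_mem hc h

end Lattice

section Action

variable {R₀ : Type u} {𝒪 : Type v} [CommRing R₀] [CommRing 𝒪] [Algebra R₀ 𝒪]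
  {T : Type w} [AddCommGroup T] [Module R₀ T] {I : Type x}
  {τ : I → Module.End R₀ T} {a : I → 𝒪}

/-- An endomorphism commuting with the `τ i` preserves the eigen-lattice. -/
theorem baseChange_mem_eigen (f : Module.End R₀ T) (hf : ∀ i, Commute f (τ i))
    {m : 𝒪 ⊗[R₀] T} (hm : m ∈ eigen τ a) : f.baseChange 𝒪 m ∈ eigen τ a := by
  rw [mem_eigen_iff] at hm ⊢
  intro i
  have h1 : (τ i).baseChange 𝒪 (f.baseChange 𝒪 m) = f.baseChange 𝒪 ((τ i).baseChange 𝒪 m) := by
    have h2 : (τ i * f).baseChange 𝒪 = (f * τ i).baseChange 𝒪 := by rw [(hf i).eq]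
    rw [LinearMap.baseChange_mul, LinearMap.baseChange_mul] at h2
    exact LinearMap.congr_fun h2 m
  rw [h1, hm i, map_smul]

variable {G : Type y} [Group G] (gal : G →* Module.End R₀ T)
  (hcomm : ∀ g i, Commute (gal g) (τ i))

/-- **The induced action on the eigen-lattice.** -/
def galEigen : G →* Module.End 𝒪 (EigenT τ a) where
  toFun g := ((gal g).baseChange 𝒪).restrict
    (fun _ hm => baseChange_mem_eigen (gal g) (hcomm g) hm)
  map_one' := by
    apply LinearMap.ext
    intro m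
    apply EigenT.val_injective
    show (gal 1).baseChange 𝒪 (EigenT.val τ a m) = EigenT.val τ a m
    rw [map_one, LinearMap.baseChange_one]
    rfl
  map_mul' g h := by
    apply LinearMap.ext
    intro m
    apply EigenT.val_injective
    show (gal (g * h)).baseChange 𝒪 (EigenT.val τ a m) =
      (gal g).baseChange 𝒪 ((gal h).baseChange 𝒪 (EigenT.val τ a m))
    rw [map_mul, LinearMap.baseChange_mul]
    rfl

theorem coe_galEigen_apply (g : G) (m : EigenT τ a) :
    EigenT.val τ a (galEigen gal hcomm g m) = (gal g).baseChange 𝒪 (EigenT.val τ a m) := rfl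

/-- (i) triviality transfers. -/
theorem galEigen_eq_one {g : G} (hg : gal g = 1) : galEigen (a := a) gal hcomm g = 1 := by
  apply LinearMap.ext
  intro m
  apply EigenT.val_injective
  rw [coe_galEigen_apply, hg, LinearMap.baseChange_one]
  rfl

/-- congruences pass to the base change. -/
theorem exists_baseChange_sub_eq_smul {f : Module.End R₀ T} {c₀ : R₀}
    (hf : ∀ v, ∃ w, f v - v = c₀ • w) (x : 𝒪 ⊗[R₀] T) :
    ∃ w : 𝒪 ⊗[R₀] T, f.baseChange 𝒪 x - x = algebraMap R₀ 𝒪 c₀ • w := by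
  induction x using TensorProduct.induction_on with
  | zero => exact ⟨0, by simp⟩
  | tmul r v =>
    obtain ⟨w, hw⟩ := hf v
    refine ⟨r ⊗ₜ[R₀] w, ?_⟩
    rw [LinearMap.baseChange_tmul, ← TensorProduct.tmul_sub, hw, TensorProduct.tmul_smul,
      algebraMap_smul]
  | add x y hx hy =>
    obtain ⟨w, hw⟩ := hx
    obtain ⟨w', hw'⟩ := hy
    refine ⟨w + w', ?_⟩
    rw [map_add, smul_add, ← hw, ← hw']
    abel

/-- (ii) congruences transfer (the eigen-lattice is saturated). -/
theorem exists_galEigen_sub_eq_smul [IsDomain 𝒪] [Module.IsTorsionFree 𝒪 (𝒪 ⊗[R₀] T)]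
    {g : G} {c₀ : R₀} (hg : ∀ v, ∃ w, gal g v - v = c₀ • w) (hc : algebraMap R₀ 𝒪 c₀ ≠ 0)
    (m : EigenT τ a) :
    ∃ m' : EigenT τ a, galEigen gal hcomm g m - m = algebraMap R₀ 𝒪 c₀ • m' := by
  obtain ⟨w, hw⟩ := exists_baseChange_sub_eq_smul (𝒪 := 𝒪) hg (EigenT.val τ a m)
  have hmem : algebraMap R₀ 𝒪 c₀ • w ∈ eigen τ a := by
    rw [← hw]
    exact Submodule.sub_mem _ (galEigen gal hcomm g m).val_mem m.val_mem
  have hw' : ∀ j, (τ j).baseChange 𝒪 w = a j • w :=
    mem_eigen_iff.1 (mem_eigen_of_smul_mem hc hmem)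
  refine ⟨EigenT.mk w hw', ?_⟩
  apply EigenT.val_injective
  rw [map_sub, coe_galEigen_apply, hw, map_smul, EigenT.val_mk]

/-- (iii) the Eichler–Shimura relation transfers, with `τ i` replaced by its eigenvalue. -/
theorem galEigen_relation {g : G} {i : I} {c₀ : R₀}
    (hg : gal g * gal g - τ i * gal g + c₀ • (1 : Module.End R₀ T) = 0) :
    galEigen gal hcomm g * galEigen gal hcomm g - a i • galEigen gal hcomm g +
      algebraMap R₀ 𝒪 c₀ • (1 : Module.End 𝒪 (EigenT τ a)) = 0 := by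
  apply LinearMap.ext
  intro m
  apply EigenT.val_injective
  have h1 := congrArg (fun f : Module.End R₀ T => f.baseChange 𝒪 (EigenT.val τ a m)) hg
  simp only [LinearMap.baseChange_add, LinearMap.baseChange_sub, LinearMap.baseChange_mul,
    LinearMap.baseChange_smul, LinearMap.baseChange_one, LinearMap.baseChange_zero,
    LinearMap.add_apply, LinearMap.sub_apply, Module.End.mul_apply, LinearMap.smul_apply,
    Module.End.one_apply, LinearMap.zero_apply] at h1
  have h2 : (τ i).baseChange 𝒪 ((gal g).baseChange 𝒪 (EigenT.val τ a m)) =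
      a i • (gal g).baseChange 𝒪 (EigenT.val τ a m) :=
    (galEigen gal hcomm g m).baseChange_val i
  rw [h2, ← algebraMap_smul 𝒪 c₀ (EigenT.val τ a m)] at h1
  rw [LinearMap.zero_apply, map_zero, ← h1]
  rfl

end Action

section Check

/-! Usage check: everything is found by instance search in the setting of S30
(`R₀ = ℤ_[p]`, `𝒪` a complete DVR). -/

example {R₀ 𝒪 T I G : Type} [CommRing R₀] [CommRing 𝒪] [IsDomain 𝒪] [IsPrincipalIdealRing 𝒪]
    [Algebra R₀ 𝒪] [AddCommGroup T] [Module R₀ T] [Module.Free R₀ T] [Module.Finite R₀ T]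
    [Group G] (τ : I → Module.End R₀ T) (a : I → 𝒪) (gal : G →* Module.End R₀ T)
    (hcomm : ∀ g i, Commute (gal g) (τ i)) (g : G) (c₀ : R₀)
    (hg : ∀ v, ∃ w, gal g v - v = c₀ • w) (hc : algebraMap R₀ 𝒪 c₀ ≠ 0) :
    Module.Free 𝒪 (EigenT τ a) ∧ Module.Finite 𝒪 (EigenT τ a) ∧
      ∀ m : EigenT τ a, ∃ m' : EigenT τ a,
        galEigen gal hcomm g m - m = algebraMap R₀ 𝒪 c₀ • m' :=
  ⟨inferInstance, inferInstance, exists_galEigen_sub_eq_smul gal hcomm hg hc⟩

end Check

end Fermat.Agent.N4F.Adic.EigenLattice
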