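/-
N4-FULL / S30 packaging, node [OCC] (helper20): occurrence of a character of a commuting family
of operators on a `ℤ`-lattice `Λ` inside `𝒪 ⊗[ℤ_[p]] T`, where `T` is a finite free `ℤ_[p]`-module
receiving `Λ` through an equivariant additive map `f` with `f x ∈ pT → x ∈ pΛ`.

* `linearIndependent_map_basis` : a `ℤ`-basis of `Λ` stays `ℤ_[p]`-linearly independent in `T`;
* `exists_eigenvector_matrix`   : commuting integer matrices and a character of the ring they
  generate with values in a field of characteristic `0`: a common eigenvector (coordinates);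
* `exists_eigenvector_tensor`   : the occurrence statement consumed by the S30 assembly.
-/
import Mathlib
import Fermat.Agent.N4F.Tors.Occurrence

set_option autoImplicit false
set_option linter.unusedSectionVars false
set_option linter.style.haveILetI false

open scoped TensorProduct

namespace Fermat.Agent.N4F.Adic.Occurrence

open Fermat.Agent.N4F.Tors.Occurrence

/-! ### `ℤ_[p]` inside a domain of characteristic zero -/

theorem algebraMap_padicInt_injective (p : ℕ) [Fact p.Prime] {𝒪 : Type*} [CommRing 𝒪]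
    [IsDomain 𝒪] [CharZero 𝒪] [Algebra ℤ_[p] 𝒪] : Function.Injective (algebraMap ℤ_[p] 𝒪) := by
  rw [injective_iff_map_eq_zero]
  intro x hx
  by_contra hne
  have h1 := PadicInt.unitCoeff_spec hne
  rw [h1, map_mul, map_pow, map_natCast] at hx
  rcases mul_eq_zero.mp hx with h | h
  · exact ((PadicInt.unitCoeff hne).isUnit.map (algebraMap ℤ_[p] 𝒪)).ne_zero h
  · have h2 : ((p : ℕ) : 𝒪) = 0 := eq_zero_of_pow_eq_zero h
    exact (Nat.cast_ne_zero (R := 𝒪)).mpr (Fact.out : p.Prime).ne_zero h2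

/-! ### A `ℤ`-basis of `Λ` stays `ℤ_[p]`-independent in `T` -/

section Independence

variable (p : ℕ) [Fact p.Prime] {Λ : Type*} [AddCommGroup Λ] {T : Type*} [AddCommGroup T]
  [Module ℤ_[p] T] [Module.Free ℤ_[p] T] {ι : Type*} [Fintype ι] (e : Module.Basis ι ℤ Λ)
  (f : Λ →+ T) (hfp : ∀ x, (∃ w, f x = (p : ℤ_[p]) • w) → ∃ y, x = (p : ℤ) • y)

include hfp in
theorem exists_smul_of_sum_smul_eq_zero (x : ι → ℤ_[p]) (hx : ∑ j, x j • f (e j) = 0) :
    ∃ z : ι → ℤ_[p], (∀ j, x j = (p : ℤ_[p]) * z j) ∧ ∑ j, z j • f (e j) = 0 := by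
  classical
  have hp : (p : ℤ_[p]) ≠ 0 := by exact_mod_cast (Fact.out : p.Prime).ne_zero
  have hz : ∀ j, ∃ z : ℤ_[p], x j - ((x j).zmodRepr : ℤ_[p]) = (p : ℤ_[p]) * z := by
    intro j
    have h := (PadicInt.zmodRepr_spec (x j)).2
    rw [PadicInt.maximalIdeal_eq_span_p, Ideal.mem_span_singleton'] at h
    obtain ⟨z, hz⟩ := h
    exact ⟨z, by rw [← hz, mul_comm]⟩
  choose z hz using hz
  set y : Λ := ∑ j, ((x j).zmodRepr : ℤ) • e j with hy
  have hfy : f y = (p : ℤ_[p]) • (-∑ j, z j • f (e j)) := by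
    have h1 : f y = ∑ j, (((x j).zmodRepr : ℕ) : ℤ_[p]) • f (e j) := by
      rw [hy, map_sum]
      refine Finset.sum_congr rfl fun j _ => ?_
      rw [map_zsmul, ← Int.cast_smul_eq_zsmul ℤ_[p], Int.cast_natCast]
    have h2 : ∀ j, (((x j).zmodRepr : ℕ) : ℤ_[p]) = x j - (p : ℤ_[p]) * z j := by
      intro j
      rw [← hz j]
      ring
    rw [h1]
    simp_rw [h2, sub_smul, Finset.sum_sub_distrib, hx, zero_sub, mul_smul, ← Finset.smul_sum,
      smul_neg]
  obtain ⟨y', hy'⟩ := hfp y ⟨_, hfy⟩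
  have hcoord : ∀ j, (x j).zmodRepr = 0 := by
    intro j
    have h1 : e.repr y j = ((x j).zmodRepr : ℤ) := by
      rw [hy, map_sum, Finsupp.finsetSum_apply]
      simp_rw [map_smul, Module.Basis.repr_self, Finsupp.smul_apply, Finsupp.single_apply,
        smul_eq_mul, mul_ite, mul_one, mul_zero]
      rw [Finset.sum_ite_eq' Finset.univ j]
      simp
    have h2 : e.repr y j = (p : ℤ) * e.repr y' j := by
      rw [hy', map_smul, Finsupp.smul_apply, smul_eq_mul]
    have h3 : (p : ℤ) ∣ ((x j).zmodRepr : ℤ) := ⟨_, h1.symm.trans h2⟩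
    have h4 : p ∣ (x j).zmodRepr := by exact_mod_cast h3
    exact Nat.eq_zero_of_dvd_of_lt h4 (PadicInt.zmodRepr_spec (x j)).1
  have hxz : ∀ j, x j = (p : ℤ_[p]) * z j := by
    intro j
    have h := hz j
    rw [hcoord j, Nat.cast_zero, sub_zero] at h
    exact h
  refine ⟨z, hxz, ?_⟩
  have h : (p : ℤ_[p]) • ∑ j, z j • f (e j) = 0 := by
    rw [Finset.smul_sum, ← hx]
    refine Finset.sum_congr rfl fun j _ => ?_
    rw [smul_smul, ← hxz j]
  exact (smul_eq_zero.mp h).resolve_left hp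

include hfp in
theorem pow_dvd_of_sum_smul_eq_zero (k : ℕ) :
    ∀ x : ι → ℤ_[p], ∑ j, x j • f (e j) = 0 → ∀ j, (p : ℤ_[p]) ^ k ∣ x j := by
  induction k with
  | zero =>
    intro x _ j
    simp
  | succ k ih =>
    intro x hx j
    obtain ⟨z, hz, hz0⟩ := exists_smul_of_sum_smul_eq_zero p e f hfp x hx
    obtain ⟨c, hc⟩ := ih z hz0 j
    exact ⟨c, by rw [hz j, hc, pow_succ]; ring⟩

include hfp in
/-- A `ℤ`-basis of `Λ` stays linearly independent over `ℤ_[p]` in `T`. -/
theorem linearIndependent_map_basis : LinearIndependent ℤ_[p] (fun j => f (e j)) := by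
  rw [Fintype.linearIndependent_iff]
  intro x hx j
  rw [← PadicInt.ext_of_toZModPow]
  intro k
  rw [map_zero, ← RingHom.mem_ker, PadicInt.ker_toZModPow, Ideal.mem_span_singleton]
  exact pow_dvd_of_sum_smul_eq_zero p e f hfp k x hx j

end Independence

/-! ### Commuting integer matrices: eigenvectors over a field of characteristic zero -/

section MatrixEigen

variable {n : Type*} [Fintype n] [DecidableEq n] {I : Type*}

/-- Integer matrices acting on `n → ℚ`, as a ring homomorphism. -/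
noncomputable def matQ : Matrix n n ℤ →+* Module.End ℚ (n → ℚ) :=
  ((Matrix.toLinAlgEquiv' : Matrix n n ℚ ≃ₐ[ℚ] Module.End ℚ (n → ℚ)) :
    Matrix n n ℚ →+* Module.End ℚ (n → ℚ)).comp (Int.castRingHom ℚ).mapMatrix

theorem matQ_apply (A : Matrix n n ℤ) (x : n → ℚ) :
    matQ A x = ((Int.castRingHom ℚ).mapMatrix A).mulVec x := rfl

theorem matQ_injective : Function.Injective (matQ (n := n)) := by
  intro A B h
  have h1 : (Int.castRingHom ℚ).mapMatrix A = (Int.castRingHom ℚ).mapMatrix B :=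
    (Matrix.toLinAlgEquiv' : Matrix n n ℚ ≃ₐ[ℚ] Module.End ℚ (n → ℚ)).injective h
  ext j k
  have h2 := congrFun (congrFun h1 j) k
  simpa using h2

attribute [local instance] MvPolynomial.algebraMvPolynomial in
/-- Clearing denominators in a rational multivariate polynomial. -/
theorem exists_int_multiple (P : MvPolynomial I ℚ) :
    ∃ d : ℤ, d ≠ 0 ∧ ∃ Q : MvPolynomial I ℤ,
      MvPolynomial.map (Int.castRingHom ℚ) Q = P * MvPolynomial.C (d : ℚ) := by
  haveI : IsLocalization (Submonoid.map (MvPolynomial.C (σ := I)) (nonZeroDivisors ℤ))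
      (MvPolynomial I ℚ) := MvPolynomial.isLocalization (nonZeroDivisors ℤ) ℚ
  obtain ⟨⟨Q, s⟩, hQs⟩ := IsLocalization.surj
    (Submonoid.map (MvPolynomial.C (σ := I)) (nonZeroDivisors ℤ)) P
  obtain ⟨d, hd, hds⟩ := s.2
  refine ⟨d, nonZeroDivisors.ne_zero hd, Q, ?_⟩
  have h1 : algebraMap (MvPolynomial I ℤ) (MvPolynomial I ℚ) Q
      = MvPolynomial.map (Int.castRingHom ℚ) Q := by
    rw [MvPolynomial.algebraMap_def, algebraMap_int_eq]
  have h2 : algebraMap (MvPolynomial I ℤ) (MvPolynomial I ℚ) (s : MvPolynomial I ℤ)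
      = MvPolynomial.C (d : ℚ) := by
    rw [← hds, MvPolynomial.algebraMap_def, MvPolynomial.map_C, algebraMap_int_eq]
    simp
  simp only at hQs
  rw [← h1, ← hQs, h2]

/-- The coordinate isomorphism `F ⊗[ℚ] (n → ℚ) ≃ (n → F)` intertwines the base change of an
integer matrix with the matrix over `F`. -/
theorem piScalarRight_baseChange_matQ {F : Type*} [Field F] [CharZero F] (A : Matrix n n ℤ)
    (w : F ⊗[ℚ] (n → ℚ)) :
    TensorProduct.piScalarRight ℚ F F n ((matQ A).baseChange F w)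
      = ((Int.castRingHom F).mapMatrix A).mulVec (TensorProduct.piScalarRight ℚ F F n w) := by
  induction w using TensorProduct.induction_on with
  | zero => simp
  | tmul c x =>
    rw [LinearMap.baseChange_tmul, TensorProduct.piScalarRight_apply,
      TensorProduct.piScalarRightHom_tmul, TensorProduct.piScalarRight_apply,
      TensorProduct.piScalarRightHom_tmul]
    funext j
    rw [matQ_apply]
    simp only [Matrix.mulVec, dotProduct, RingHom.mapMatrix_apply, Matrix.map_apply,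
      eq_intCast, Finset.sum_smul]
    refine Finset.sum_congr rfl fun k _ => ?_
    rw [mul_smul, Int.cast_smul_eq_zsmul, zsmul_eq_mul]
  | add x y hx hy =>
    rw [map_add, map_add, hx, hy, map_add, Matrix.mulVec_add]

/-- **Commuting integer matrices.** If every integral polynomial relation among the commuting
matrices `M i` is satisfied by the `a i ∈ F` (a field of characteristic zero), then the `M i`
have a nonzero common eigenvector in `n → F` with eigenvalues `a i`. -/
theorem exists_eigenvector_matrix (M : I → Matrix n n ℤ) (hM : ∀ i j, Commute (M i) (M j))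
    {F : Type*} [Field F] [CharZero F] (a : I → F)
    (H : ∀ P : MvPolynomial I ℤ, polyAct (R := ℤ) M hM P = 0 → MvPolynomial.aeval a P = 0) :
    ∃ v : n → F, v ≠ 0 ∧ ∀ i, ((Int.castRingHom F).mapMatrix (M i)).mulVec v = a i • v := by
  classical
  have hcommQ : ∀ i j, Commute (matQ (M i)) (matQ (M j)) := fun i j => (hM i j).map matQ
  -- the two ring homomorphisms `ℤ[X] → End (n → ℚ)` agree
  have hρ : ∀ Q : MvPolynomial I ℤ,
      polyAct (R := ℚ) (fun i => matQ (M i)) hcommQ (MvPolynomial.map (Int.castRingHom ℚ) Q)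
        = matQ (polyAct (R := ℤ) M hM Q) := by
    intro Q
    have h1 := polyAct_int_unique (fun i => matQ (M i)) hcommQ
      ((polyAct (R := ℚ) (fun i => matQ (M i)) hcommQ).toRingHom.comp
        (MvPolynomial.map (Int.castRingHom ℚ))) (fun i => by simp)
    have h2 := polyAct_int_unique (fun i => matQ (M i)) hcommQ
      ((matQ (n := n)).comp (polyAct (R := ℤ) M hM).toRingHom) (fun i => by simp)
    have h3 := RingHom.congr_fun (h1.trans h2.symm) Q
    simpa using h3
  have HQ : ∀ P : MvPolynomial I ℚ,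
      polyAct (R := ℚ) (fun i => matQ (M i)) hcommQ P = 0 → MvPolynomial.aeval a P = 0 := by
    intro P hP
    obtain ⟨d, hd, Q, hQ⟩ := exists_int_multiple P
    have h1 : matQ (polyAct (R := ℤ) M hM Q) = 0 := by
      rw [← hρ, hQ, map_mul, hP, zero_mul]
    have h2 : polyAct (R := ℤ) M hM Q = 0 := matQ_injective (by rw [h1, map_zero])
    have h3 := H Q h2
    have h4 : MvPolynomial.aeval a (MvPolynomial.map (Int.castRingHom ℚ) Q)
        = MvPolynomial.aeval a Q := by
      have := MvPolynomial.aeval_map_algebraMap ℚ a Q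
      rwa [algebraMap_int_eq] at this
    rw [hQ, map_mul, h3] at h4
    have h5 : MvPolynomial.aeval a (MvPolynomial.C (d : ℚ) : MvPolynomial I ℚ) ≠ 0 := by
      rw [MvPolynomial.aeval_C]
      simpa using hd
    exact (mul_eq_zero.mp h4).resolve_right h5
  obtain ⟨v, hv, hev⟩ := exists_common_eigenvector (K := ℚ) (𝔽 := F)
    (fun i => matQ (M i)) hcommQ a HQ
  refine ⟨TensorProduct.piScalarRight ℚ F F n v, fun h => hv ?_, fun i => ?_⟩
  · exact (TensorProduct.piScalarRight ℚ F F n).injective (by rw [h, map_zero])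
  · rw [← piScalarRight_baseChange_matQ, hev i, map_smul]

end MatrixEigen

/-! ### Commuting integer matrices: eigenvectors with coordinates in a domain -/

section MatrixDomain

variable {n : Type*} [Fintype n] [DecidableEq n] {I : Type*}

theorem exists_eigenvector_matrix_aux (M : I → Matrix n n ℤ) (hM : ∀ i j, Commute (M i) (M j))
    {𝒪 : Type*} [CommRing 𝒪] [IsDomain 𝒪] [CharZero 𝒪] (F : Type*) [Field F] [Algebra 𝒪 F]
    [IsFractionRing 𝒪 F] (a : I → 𝒪)
    (H : ∀ P : MvPolynomial I ℤ, polyAct (R := ℤ) M hM P = 0 → MvPolynomial.aeval a P = 0) :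
    ∃ v : n → 𝒪, v ≠ 0 ∧ ∀ i k, ∑ j, ((M i k j : ℤ) : 𝒪) * v j = a i * v k := by
  classical
  haveI : CharZero F := charZero_of_injective_algebraMap (IsFractionRing.injective 𝒪 F)
  have H' : ∀ P : MvPolynomial I ℤ, polyAct (R := ℤ) M hM P = 0 →
      MvPolynomial.aeval (fun i => algebraMap 𝒪 F (a i)) P = 0 := by
    intro P hP
    have h2 := H P hP
    have h3 := MvPolynomial.aeval_algebraMap_apply (B := F) a P
    rw [h2, map_zero] at h3
    exact h3
  obtain ⟨v₀, hv₀, hev₀⟩ := exists_eigenvector_matrix M hM (fun i => algebraMap 𝒪 F (a i)) H'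
  obtain ⟨d, hd⟩ := IsLocalization.exist_integer_multiples (nonZeroDivisors 𝒪) Finset.univ v₀
  have hd0 : algebraMap 𝒪 F (d : 𝒪) ≠ 0 := by
    rw [Ne, map_eq_zero_iff _ (IsFractionRing.injective 𝒪 F)]
    exact nonZeroDivisors.ne_zero d.2
  have hv' : ∀ j, ∃ r : 𝒪, algebraMap 𝒪 F r = algebraMap 𝒪 F (d : 𝒪) * v₀ j := by
    intro j
    obtain ⟨r, hr⟩ := hd j (Finset.mem_univ j)
    exact ⟨r, by rw [hr, Algebra.smul_def]⟩
  choose v' hv' using hv'
  refine ⟨v', fun h0 => hv₀ ?_, fun i k => ?_⟩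
  · funext j
    have h1 := hv' j
    rw [h0, Pi.zero_apply, map_zero] at h1
    exact (mul_eq_zero.mp h1.symm).resolve_left hd0
  · apply IsFractionRing.injective 𝒪 F
    rw [map_sum, map_mul, hv' k]
    have h1 := congrFun (hev₀ i) k
    simp only [Matrix.mulVec, dotProduct, RingHom.mapMatrix_apply, Matrix.map_apply,
      eq_intCast, Pi.smul_apply, smul_eq_mul] at h1
    calc ∑ j, algebraMap 𝒪 F (((M i k j : ℤ) : 𝒪) * v' j)
        = ∑ j, algebraMap 𝒪 F (d : 𝒪) * (((M i k j : ℤ) : F) * v₀ j) := by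
          refine Finset.sum_congr rfl fun j _ => ?_
          rw [map_mul, map_intCast, hv' j]
          ring
      _ = algebraMap 𝒪 F (d : 𝒪) * ∑ j, ((M i k j : ℤ) : F) * v₀ j := by
          rw [Finset.mul_sum]
      _ = algebraMap 𝒪 F (a i) * (algebraMap 𝒪 F (d : 𝒪) * v₀ k) := by
          rw [h1]
          ring

/-- **Commuting integer matrices, coordinates in a domain.** -/
theorem exists_eigenvector_matrix_domain (M : I → Matrix n n ℤ)
    (hM : ∀ i j, Commute (M i) (M j))
    {𝒪 : Type*} [CommRing 𝒪] [IsDomain 𝒪] [CharZero 𝒪] (a : I → 𝒪)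
    (H : ∀ P : MvPolynomial I ℤ, polyAct (R := ℤ) M hM P = 0 → MvPolynomial.aeval a P = 0) :
    ∃ v : n → 𝒪, v ≠ 0 ∧ ∀ i k, ∑ j, ((M i k j : ℤ) : 𝒪) * v j = a i * v k :=
  exists_eigenvector_matrix_aux M hM (FractionRing 𝒪) a H

end MatrixDomain

/-! ### The occurrence statement -/

section Main

/-- **[OCC]** Occurrence of a character in `𝒪 ⊗[ℤ_[p]] T`.

`Λ` a finite free `ℤ`-module with commuting endomorphisms `t i`; `T` a finite free
`ℤ_[p]`-module with endomorphisms `τ i`; `f : Λ →+ T` equivariant with `f x ∈ pT → x ∈ pΛ`;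
`𝒪` a domain of characteristic zero which is a `ℤ_[p]`-algebra and `a i ∈ 𝒪` such that every
integral polynomial relation among the `t i` is satisfied by the `a i`. Then the `τ i ⊗ 1` have
a nonzero common eigenvector in `𝒪 ⊗[ℤ_[p]] T` with eigenvalues `a i`. -/
theorem exists_eigenvector_tensor (p : ℕ) [Fact p.Prime]
    {Λ : Type*} [AddCommGroup Λ] [Module.Free ℤ Λ] [Module.Finite ℤ Λ]
    {T : Type*} [AddCommGroup T] [Module ℤ_[p] T] [Module.Free ℤ_[p] T]
    [Module.Finite ℤ_[p] T]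
    {I : Type*} (t : I → Module.End ℤ Λ) (ht : ∀ i j, Commute (t i) (t j))
    (τ : I → Module.End ℤ_[p] T) (f : Λ →+ T) (hf : ∀ i x, f (t i x) = τ i (f x))
    (hfp : ∀ x, (∃ w, f x = (p : ℤ_[p]) • w) → ∃ y, x = (p : ℤ) • y)
    {𝒪 : Type*} [CommRing 𝒪] [IsDomain 𝒪] [CharZero 𝒪] [Algebra ℤ_[p] 𝒪] (a : I → 𝒪)
    (H : ∀ P : MvPolynomial I ℤ,
      polyAct (R := ℤ) t ht P = 0 → MvPolynomial.aeval a P = 0) :
    ∃ v : 𝒪 ⊗[ℤ_[p]] T, v ≠ 0 ∧ ∀ i, (τ i).baseChange 𝒪 v = a i • v := by
  classical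
  -- flatness of `𝒪` over `ℤ_[p]`
  haveI : FaithfulSMul ℤ_[p] 𝒪 :=
    (faithfulSMul_iff_algebraMap_injective _ _).mpr (algebraMap_padicInt_injective p)
  haveI : Module.Flat ℤ_[p] 𝒪 := inferInstance
  -- coordinates on `Λ`
  obtain ⟨e⟩ : Nonempty (Module.Basis (Module.Free.ChooseBasisIndex ℤ Λ) ℤ Λ) :=
    ⟨Module.Free.chooseBasis ℤ Λ⟩
  obtain ⟨M, hMdef⟩ : ∃ M : I → Matrix (Module.Free.ChooseBasisIndex ℤ Λ)
      (Module.Free.ChooseBasisIndex ℤ Λ) ℤ, ∀ i, M i = LinearMap.toMatrixAlgEquiv e (t i) :=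
    ⟨fun i => LinearMap.toMatrixAlgEquiv e (t i), fun _ => rfl⟩
  have hM : ∀ i j, Commute (M i) (M j) := fun i j => by
    rw [hMdef, hMdef]
    exact (ht i j).map (LinearMap.toMatrixAlgEquiv e)
  have hpoly : ∀ P : MvPolynomial I ℤ,
      polyAct (R := ℤ) M hM P = LinearMap.toMatrixAlgEquiv e (polyAct (R := ℤ) t ht P) := by
    intro P
    have h1 := polyAct_int_unique M hM
      ((LinearMap.toMatrixAlgEquiv e : Module.End ℤ Λ →+* _).comp
        (polyAct (R := ℤ) t ht).toRingHom) (fun i => by simp [hMdef])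
    exact (RingHom.congr_fun h1 P).symm
  have H' : ∀ P : MvPolynomial I ℤ, polyAct (R := ℤ) M hM P = 0 →
      MvPolynomial.aeval a P = 0 := by
    intro P hP
    rw [hpoly P] at hP
    exact H P ((LinearMap.toMatrixAlgEquiv e).injective (by rw [hP, map_zero]))
  obtain ⟨v', hv'0, hev'⟩ := exists_eigenvector_matrix_domain M hM a H'
  -- the eigenvector in `𝒪 ⊗ T`
  obtain ⟨u, hudef⟩ : ∃ u : Module.Free.ChooseBasisIndex ℤ Λ → 𝒪 ⊗[ℤ_[p]] T,
      ∀ j, u j = (1 : 𝒪) ⊗ₜ[ℤ_[p]] f (e j) := ⟨fun j => (1 : 𝒪) ⊗ₜ[ℤ_[p]] f (e j), fun _ => rfl⟩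
  have hind : LinearIndependent 𝒪 u := by
    have h1 := Module.Flat.linearIndependent_one_tmul (S := 𝒪)
      (linearIndependent_map_basis p e f hfp)
    have h2 : u = fun j => (1 : 𝒪) ⊗ₜ[ℤ_[p]] f (e j) := funext hudef
    rw [h2]
    exact h1
  refine ⟨∑ j, v' j • u j, fun h0 => hv'0 ?_, fun i => ?_⟩
  · funext j
    exact Fintype.linearIndependent_iff.mp hind v' h0 j
  · -- the action of `τ i ⊗ 1` on `u j`
    have hu : ∀ j, (τ i).baseChange 𝒪 (u j) = ∑ k, (((M i) k j : ℤ) : 𝒪) • u k := by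
      intro j
      have h1 : t i (e j) = ∑ k, ((M i) k j) • e k := by
        have h2 := e.sum_repr (t i (e j))
        rw [← h2]
        refine Finset.sum_congr rfl fun k _ => ?_
        rw [hMdef, LinearMap.toMatrixAlgEquiv_apply]
      rw [hudef, LinearMap.baseChange_tmul, ← hf, h1, map_sum, TensorProduct.tmul_sum]
      refine Finset.sum_congr rfl fun k _ => ?_
      rw [map_zsmul, TensorProduct.tmul_smul, hudef]
      exact (Int.cast_smul_eq_zsmul 𝒪 _ _).symm
    calc (τ i).baseChange 𝒪 (∑ j, v' j • u j)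
        = ∑ j, ∑ k, (v' j * (((M i) k j : ℤ) : 𝒪)) • u k := by
          rw [map_sum]
          refine Finset.sum_congr rfl fun j _ => ?_
          rw [map_smul, hu j, Finset.smul_sum]
          exact Finset.sum_congr rfl fun k _ => smul_smul _ _ _
      _ = ∑ k, ∑ j, (v' j * (((M i) k j : ℤ) : 𝒪)) • u k := Finset.sum_comm
      _ = ∑ k, (a i * v' k) • u k := by
          refine Finset.sum_congr rfl fun k _ => ?_
          rw [← Finset.sum_smul, ← hev' i k]
          congr 1
          exact Finset.sum_congr rfl fun j _ => mul_comm _ _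
      _ = a i • ∑ k, v' k • u k := by
          rw [Finset.smul_sum]
          exact Finset.sum_congr rfl fun k _ => (smul_smul _ _ _).symm

end Main

end Fermat.Agent.N4F.Adic.Occurrence
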