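/-
N4-FULL / S30 p-adic packaging (helper27): **the assembly**.

From the Tate-module data `TateData p N` (P1) and a nonzero `χ`-eigenvector in `𝒪 ⊗ T` we build
the `GaloisRepAdic 𝒪` of S30 over `𝒪` ITSELF:

* `M := EigenT τ a ⊆ 𝒪 ⊗ T` the `χ`-eigenlattice ([EIG], helper25) with its Galois action `ρ`;
* `ρ` is adically continuous, unramified outside `Np`, and Frobenius elements satisfy
  `ρ(φ)² - χ(T_ℓ) ρ(φ) + ℓ = 0`;
* hence `ρ(g) + χ_cyc(g) ρ(g)⁻¹` is a scalar `s(g)` for ALL `g` (Chebotarev + Dickson polynomials: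
  helper28's `exists_scalar_of_frobenius_adicContinuous`);
* complex conjugation is an odd involution, so `Core.exists_rank_two_rep` gives a rank-two
  representation `ρ'` with `charpoly ρ'(g) = X² - s(g) X + χ_cyc(g)`, continuity and unramifiedness
  being inherited elementwise.
-/
import Mathlib
import Fermat.Prelude.Def_GaloisRep_ComplexConjugation
import Fermat.Agent.N4F.Adic.Core
import Fermat.Agent.N4F.Adic.EigenLattice
import Fermat.Agent.N4F.Adic.TateData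
import Fermat.Agent.N4F.Adic.Occurrence
import Fermat.Agent.N4.FrobDensity.AdicDensity
import Fermat.Agent.N4.FrobDensity.CycloConj

set_option autoImplicit false

open Polynomial TensorProduct

namespace Fermat.Agent.N4F.Adic.S30Assembly

open Fermat.Agent.N4F.Adic Fermat.Agent.N4F.Adic.EigenLattice Fermat.Agent.N4.FrobDensity
  CuspForm

local notation "Qbar" => AlgebraicClosure ℚ
local notation "Γ" => (AlgebraicClosure ℚ ≃ₐ[ℚ] AlgebraicClosure ℚ)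

section Layer1

variable {p N : ℕ} [Fact p.Prime] [NeZero N] (D : TateData p N) (S : Finset ℕ)
  (𝒪 : Type) [CommRing 𝒪] [IsDomain 𝒪] [IsDiscreteValuationRing 𝒪] [CharZero 𝒪]
  [Algebra ℤ_[p] 𝒪] (χ : heckeAlgebra N 2 (↑S : Set ℕ) →+* 𝒪)

/-- The Hecke operators on the Tate module indexed by the primes `ℓ ∉ S`, `ℓ ∤ N`. -/
def tauT : HeckeIdx N (↑S : Set ℕ) → Module.End ℤ_[p] D.T := fun i => D.hecke i.1

/-- The eigenvalues `χ(T_ℓ)`. -/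
noncomputable def eigenvalue : HeckeIdx N (↑S : Set ℕ) → 𝒪 :=
  fun i => χ (heckeAlgebra.T i.2.1 i.2.2.1 i.2.2.2)

/-- **S30 over `𝒪` itself, from the Tate data and a nonzero `χ`-eigenvector.** -/
theorem exists_galoisRepAdic (hpS : p ∈ S) (hNS : ∀ q : ℕ, q.Prime → q ∣ N → q ∈ S)
    (hp𝒪 : (p : 𝒪) ∈ IsLocalRing.maximalIdeal 𝒪)
    (hocc : ∃ v : 𝒪 ⊗[ℤ_[p]] D.T, v ≠ 0 ∧
      ∀ i, (tauT D S i).baseChange 𝒪 v = eigenvalue S 𝒪 χ i • v) :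
    ∃ ρ : GaloisRepAdic 𝒪,
      (∀ (ℓ : ℕ) (hℓ : ℓ.Prime) (hℓN : ¬ ℓ ∣ N) (hℓS : ℓ ∉ (↑S : Set ℕ)),
        ∀ A : ValuationSubring Qbar, A.LiesOverPrime ℓ →
          ∀ σ : Γ, A.IsFrobeniusAt σ ℓ →
            LinearMap.charpoly (ρ.ρ σ) =
              X ^ 2 - C (χ (heckeAlgebra.T hℓ hℓN hℓS)) * X + C ((ℓ : 𝒪))) ∧
      (∀ q : ℕ, q.Prime → ¬ q ∣ N → q ≠ p → ρ.IsUnramifiedAt q) := by
  classical
  have hp : p.Prime := Fact.out
  -- the eigenlattice and its Galois action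
  have hcomm : ∀ (g : Γ) (i : HeckeIdx N (↑S : Set ℕ)), Commute (D.gal g) (tauT D S i) :=
    fun g i => D.gal_hecke g i.1
  have hnt : Nontrivial (EigenT (tauT D S) (eigenvalue S 𝒪 χ)) := nontrivial_of_eigenvector hocc
  let ρ : Γ →* Module.End 𝒪 (EigenT (tauT D S) (eigenvalue S 𝒪 χ)) :=
    galEigen (a := eigenvalue S 𝒪 χ) D.gal hcomm
  have hpn : ∀ n : ℕ, algebraMap ℤ_[p] 𝒪 ((p : ℤ_[p]) ^ n) = (p : 𝒪) ^ n := by
    intro n
    rw [map_pow, map_natCast]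
  have hp0 : ∀ n : ℕ, (p : 𝒪) ^ n ≠ 0 := fun n =>
    pow_ne_zero n (Nat.cast_ne_zero.2 hp.ne_zero)
  -- continuity, elementwise
  have hcont : ∀ n : ℕ, ∃ L : IntermediateField ℚ Qbar, FiniteDimensional ℚ L ∧
      ∀ σ : Γ, (∀ x ∈ L, σ x = x) → ∀ m, ∃ m', ρ σ m - m = (p : 𝒪) ^ n • m' := by
    intro n
    obtain ⟨L, hL, h⟩ := D.cont n
    refine ⟨L, hL, fun σ hσ m => ?_⟩
    have h1 := exists_galEigen_sub_eq_smul (a := eigenvalue S 𝒪 χ) D.gal hcomm (h σ hσ)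
      (by rw [hpn]; exact hp0 n) m
    rw [hpn] at h1
    exact h1
  have hρ : GaloisActionIsAdicContinuous 𝒪 ρ := by
    intro n
    obtain ⟨L, hL, h⟩ := hcont n
    refine ⟨L, hL, fun σ hσ v => ?_⟩
    obtain ⟨m', hm'⟩ := h σ hσ v
    rw [hm']
    exact Submodule.smul_mem_smul (Ideal.pow_mem_pow hp𝒪 n) Submodule.mem_top
  -- the cyclotomic character
  let χc : Γ →* 𝒪ˣ := cycloCharIn p (algebraMap ℤ_[p] 𝒪)
  have hχc := cycloCharIn_continuous p (algebraMap ℤ_[p] 𝒪) hp𝒪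
  -- the Frobenius relations
  have hrel : ∀ (ℓ : ℕ) (hℓ : ℓ.Prime) (hℓN : ¬ ℓ ∣ N) (hℓS : ℓ ∉ (↑S : Set ℕ)),
      ∀ A : ValuationSubring Qbar, A.LiesOverPrime ℓ → ∀ σ : Γ, A.IsFrobeniusAt σ ℓ →
        ρ σ * ρ σ - χ (heckeAlgebra.T hℓ hℓN hℓS) • ρ σ + ((χc σ : 𝒪ˣ) : 𝒪) • 1 = 0 ∧
          ((χc σ : 𝒪ˣ) : 𝒪) = (ℓ : 𝒪) := by
    intro ℓ hℓ hℓN hℓS A hA σ hσ
    have hℓp : ℓ ≠ p := by
      rintro rfl
      exact hℓS (Finset.mem_coe.2 hpS)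
    have h1 := galEigen_relation (a := eigenvalue S 𝒪 χ) D.gal hcomm
      (i := (⟨ℓ, hℓ, hℓN, hℓS⟩ : HeckeIdx N (↑S : Set ℕ))) (D.frob ℓ hℓ hℓN hℓp A hA σ hσ)
    have h2 : ((χc σ : 𝒪ˣ) : 𝒪) = (ℓ : 𝒪) := cycloCharIn_frob p _ hℓ hℓp hA hσ
    rw [map_natCast] at h1
    rw [h2]
    exact ⟨h1, rfl⟩
  -- the operator identity
  have hop : ∀ g : Γ, ∃ s : 𝒪, ρ g + ((χc g : 𝒪ˣ) : 𝒪) • ρ g⁻¹ = s • 1 := by
    intro g
    refine exists_scalar_of_frobenius_adicContinuous ρ hρ χc hχc S ?_ g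
    intro l hl hlS B hB φ hφ
    have hlN : ¬ l ∣ N := fun h => hlS (hNS l hl h)
    have hlS' : l ∉ (↑S : Set ℕ) := fun h => hlS (Finset.mem_coe.1 h)
    exact ⟨_, (hrel l hl hlN hlS' B hB φ hφ).1⟩
  choose s hs using hop
  -- the rank two representation
  have h2 : (2 : 𝒪) ≠ 0 := two_ne_zero
  have hcc : ((χc complexConjugation : 𝒪ˣ) : 𝒪) = -1 := by
    show ((cycloCharIn p (algebraMap ℤ_[p] 𝒪) complexConjugation : 𝒪ˣ) : 𝒪) = -1
    rw [cycloCharIn_complexConjugation, Units.val_neg, Units.val_one]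
  obtain ⟨V, _, _, _, _, ρ', hV, hchar, hone, hcong⟩ :=
    Core.exists_rank_two_rep ρ χc s hs h2 complexConjugation complexConjugation_mul_self hcc
  have hadic : GaloisActionIsAdicContinuous 𝒪 ρ' := by
    intro n
    obtain ⟨L₁, hL₁, h₁⟩ := hcont n
    obtain ⟨L₂, hL₂, h₂⟩ := cycloCharIn_continuous_of_mem p (algebraMap ℤ_[p] 𝒪)
      (Ideal.span {(p : 𝒪)}) (Ideal.mem_span_singleton_self _) n
    refine ⟨L₁ ⊔ L₂, IntermediateField.finiteDimensional_sup L₁ L₂, fun σ hσ v => ?_⟩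
    have hσ₁ : ∀ x ∈ L₁, σ x = x := fun x hx => hσ x ((le_sup_left : L₁ ≤ L₁ ⊔ L₂) hx)
    have hσ₂ : ∀ x ∈ L₂, σ x = x := fun x hx => hσ x ((le_sup_right : L₂ ≤ L₁ ⊔ L₂) hx)
    have hdvd : (p : 𝒪) ^ n ∣ ((χc σ : 𝒪ˣ) : 𝒪) - 1 := by
      have h3 := h₂ σ hσ₂
      rw [Ideal.span_singleton_pow, Ideal.mem_span_singleton] at h3
      exact h3
    obtain ⟨v', hv'⟩ := hcong ((p : 𝒪) ^ n) σ (h₁ σ hσ₁) hdvd v
    rw [hv']
    exact Submodule.smul_mem_smul (Ideal.pow_mem_pow hp𝒪 n) Submodule.mem_top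
  refine ⟨{ V := V, finrank_eq := hV, ρ := ρ', isAdicContinuous := hadic }, ?_, ?_⟩
  · -- characteristic polynomials of Frobenius elements
    intro ℓ hℓ hℓN hℓS A hA σ hσ
    obtain ⟨hq, hχℓ⟩ := hrel ℓ hℓ hℓN hℓS A hA σ hσ
    show LinearMap.charpoly (ρ' σ) = _
    rw [hchar σ, hχℓ]
    suffices hsσ : s σ = χ (heckeAlgebra.T hℓ hℓN hℓS) by rw [hsσ]
    -- `s σ = χ(T_ℓ)`
    have h3 : ρ σ * ρ σ + ((χc σ : 𝒪ˣ) : 𝒪) • 1 = s σ • ρ σ := by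
      have h4 := congrArg (fun φ => φ * ρ σ) (hs σ)
      simp only [add_mul, smul_mul_assoc, one_mul] at h4
      rw [← map_mul ρ σ⁻¹ σ, inv_mul_cancel, map_one] at h4
      exact h4
    have h5 : (s σ - χ (heckeAlgebra.T hℓ hℓN hℓS)) • ρ σ = 0 := by
      rw [sub_smul, ← h3, ← hq]
      abel
    obtain ⟨m₀, hm₀⟩ := exists_ne (0 : EigenT (tauT D S) (eigenvalue S 𝒪 χ))
    have h6 := congrArg (fun φ : Module.End 𝒪 (EigenT (tauT D S) (eigenvalue S 𝒪 χ)) =>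
      φ (ρ σ⁻¹ m₀)) h5
    simp only [LinearMap.smul_apply, LinearMap.zero_apply] at h6
    have h7 : ρ σ (ρ σ⁻¹ m₀) = m₀ := by
      rw [← Module.End.mul_apply, ← map_mul, mul_inv_cancel, map_one, Module.End.one_apply]
    rw [h7] at h6
    rcases smul_eq_zero.1 h6 with h8 | h8
    · exact sub_eq_zero.1 h8
    · exact absurd h8 hm₀
  · -- unramified outside `Np`
    intro q hq hqN hqp P hP σ hσ
    show ρ' σ = 1
    apply hone σ
    · exact galEigen_eq_one (a := eigenvalue S 𝒪 χ) D.gal hcomm (D.unram q hq hqN hqp P hP σ hσ)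
    · exact cycloCharIn_inertia p _ hq hqp hP hσ

end Layer1

/-! ### Occurrence of `χ` in the Tate module -/

section Layer2

open Fermat.Agent.N4F.Tors.Occurrence

lemma aeval_ringHom {I A B : Type*} [CommRing A] [CommRing B] [Algebra ℤ A] [Algebra ℤ B]
    (φ : A →+* B) (x : I → A) (P : MvPolynomial I ℤ) :
    φ (MvPolynomial.aeval x P) = MvPolynomial.aeval (fun i => φ (x i)) P := by
  have h : φ.comp (algebraMap ℤ A) = algebraMap ℤ B := Subsingleton.elim _ _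
  rw [MvPolynomial.map_aeval, h, MvPolynomial.aeval_eq_eval₂Hom]

variable {p N : ℕ} [Fact p.Prime] [NeZero N] (D : TateData p N) (S : Finset ℕ)
  (𝒪 : Type) [CommRing 𝒪] [IsDomain 𝒪] [CharZero 𝒪]
  [Algebra ℤ_[p] 𝒪] (χ : heckeAlgebra N 2 (↑S : Set ℕ) →+* 𝒪)

/-- `χ` occurs in `𝒪 ⊗ T`. -/
theorem exists_eigenvector :
    ∃ v : 𝒪 ⊗[ℤ_[p]] D.T, v ≠ 0 ∧
      ∀ i, (tauT D S i).baseChange 𝒪 v = eigenvalue S 𝒪 χ i • v := by
  refine Occurrence.exists_eigenvector_tensor p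
    (fun i : HeckeIdx N (↑S : Set ℕ) => D.t i.1) (fun i j => D.t_comm i.1 j.1)
    (tauT D S) D.f (fun i x => D.f_t i.1 x) D.f_mod (eigenvalue S 𝒪 χ) ?_
  intro P hP
  have h1 := D.faithful (↑S : Set ℕ) P hP
  have h2 := aeval_ringHom χ (fun i : HeckeIdx N (↑S : Set ℕ) =>
    (heckeAlgebra.T i.2.1 i.2.2.1 i.2.2.2 : heckeAlgebra N 2 (↑S : Set ℕ))) P
  rw [h1, map_zero] at h2
  exact h2.symm

end Layer2

/-! ### The statement of S30 -/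

section Layer3

/-- **S30 from the Tate data.** -/
theorem s30_of_tateData (hTD : ∀ (p N : ℕ) [Fact p.Prime] [NeZero N], Nonempty (TateData p N)) :
    ∀ (p : ℕ) [Fact p.Prime] (N : ℕ) [NeZero N] (S : Finset ℕ)
      (_hpS : p ∈ S) (_hNS : ∀ q : ℕ, q.Prime → q ∣ N → q ∈ S)
      (𝒪' : Type) [CommRing 𝒪'] [IsDomain 𝒪'] [IsDiscreteValuationRing 𝒪']
      [IsAdicComplete (IsLocalRing.maximalIdeal 𝒪') 𝒪'] [Finite (IsLocalRing.ResidueField 𝒪')]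
      [CharZero 𝒪'] (_hp𝒪' : (p : 𝒪') ∈ IsLocalRing.maximalIdeal 𝒪')
      (χ : CuspForm.heckeAlgebra N 2 (↑S : Set ℕ) →+* 𝒪'),
      ∃ (𝒪'' : Type) (_ : CommRing 𝒪'') (_ : IsDomain 𝒪'') (_ : IsDiscreteValuationRing 𝒪'')
        (_ : IsAdicComplete (IsLocalRing.maximalIdeal 𝒪'') 𝒪'')
        (_ : Finite (IsLocalRing.ResidueField 𝒪'')) (_ : CharZero 𝒪'')
        (_ : Algebra 𝒪' 𝒪'') (_ : Module.Finite 𝒪' 𝒪'') (_ : IsLocalHom (algebraMap 𝒪' 𝒪'')),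
      Function.Injective (algebraMap 𝒪' 𝒪'') ∧
      ∃ ρ : GaloisRepAdic 𝒪'',
        (∀ (ℓ : ℕ) (hℓ : ℓ.Prime) (hℓN : ¬ ℓ ∣ N) (hℓS : ℓ ∉ (↑S : Set ℕ)),
          ∀ A : ValuationSubring (AlgebraicClosure ℚ), A.LiesOverPrime ℓ →
            ∀ σ : AlgebraicClosure ℚ ≃ₐ[ℚ] AlgebraicClosure ℚ, A.IsFrobeniusAt σ ℓ →
              LinearMap.charpoly (ρ.ρ σ) =
                X ^ 2 - C (algebraMap 𝒪' 𝒪'' (χ (CuspForm.heckeAlgebra.T hℓ hℓN hℓS))) * X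
                  + C ((ℓ : 𝒪''))) ∧
        (∀ q : ℕ, q.Prime → ¬ q ∣ N → q ≠ p → ρ.IsUnramifiedAt q) := by
  intro p _ N _ S hpS hNS 𝒪' _ _ _ _ _ _ hp𝒪' χ
  obtain ⟨D⟩ := hTD p N
  letI : Algebra ℤ_[p] 𝒪' :=
    (padicIntToComplete p (IsLocalRing.maximalIdeal 𝒪') hp𝒪').toAlgebra
  obtain ⟨ρ, h1, h2⟩ := exists_galoisRepAdic D S 𝒪' χ hpS hNS hp𝒪'
    (exists_eigenvector D S 𝒪' χ)
  refine ⟨𝒪', inferInstance, inferInstance, inferInstance, inferInstance, inferInstance,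
    inferInstance, Algebra.id 𝒪', inferInstance, ?_, Function.injective_id, ρ, h1, h2⟩
  exact isLocalHom_id 𝒪'

end Layer3

end Fermat.Agent.N4F.Adic.S30Assembly
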