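/-
N4-FULL / S30 p-adic packaging (helper27): **the interface between the Tate module of `J₀(N)`
(P1, helper19) and the S30 assembly.**

`TateData p N` packages what the assembly `Adic/S30Assembly.lean` consumes:

* a finite free `ℤ_p`-module `T` (the `p`-adic Tate module of `J₀(N)`) with an action `gal` of
  `Γ = Gal(ℚ̄/ℚ)` and endomorphisms `hecke ℓ` commuting with `gal`;
* `cont`     : `gal σ ≡ 1 mod pⁿ` for `σ` fixing a finite extension `L = L(n)`;
* `frob`     : the Eichler–Shimura relation `σ² - T_ℓ σ + ℓ = 0` for Frobenius elements at `ℓ ∤ Np`;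
* `unram`    : inertia at `q ∤ Np` acts trivially;
* the integral lattice `Λ` (parabolic homomorphisms `Γ₀(N) → ℤ`) with its Hecke operators `t ℓ`, an
  equivariant additive map `f : Λ → T` which is injective modulo `p`, and FAITHFULNESS of the Hecke
  action on `Λ`: every integral polynomial relation between the `t ℓ` (`ℓ ∉ S`, `ℓ ∤ N`) holds in
  the Hecke algebra `𝕋 = heckeAlgebra N 2 S` of cusp forms.
-/
import Mathlib
import Fermat.Prelude.Def_GaloisRep_Adic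
import Fermat.Prelude.Def_CuspForm_HeckeAlgebra
import Fermat.Agent.N4F.Tors.Occurrence

set_option autoImplicit false

namespace Fermat.Agent.N4F.Adic

open Fermat.Agent.N4F.Tors.Occurrence

local notation "Qbar" => AlgebraicClosure ℚ
local notation "Γ" => (AlgebraicClosure ℚ ≃ₐ[ℚ] AlgebraicClosure ℚ)

/-- The index set of the Hecke operators `T_ℓ` in `heckeAlgebra N 2 S`. -/
abbrev HeckeIdx (N : ℕ) (S : Set ℕ) : Type := {ℓ : ℕ // ℓ.Prime ∧ ¬ ℓ ∣ N ∧ ℓ ∉ S}

/-- The data extracted from the `p`-adic Tate module of `J₀(N)`. -/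
structure TateData (p N : ℕ) [Fact p.Prime] [NeZero N] : Type 1 where
  /-- the Tate module -/
  T : Type
  [instAddCommGroup : AddCommGroup T]
  [instModule : Module ℤ_[p] T]
  [instFree : Module.Free ℤ_[p] T]
  [instFinite : Module.Finite ℤ_[p] T]
  /-- the Galois action -/
  gal : Γ →* Module.End ℤ_[p] T
  /-- the Hecke operators -/
  hecke : ℕ → Module.End ℤ_[p] T
  gal_hecke : ∀ (σ : Γ) (ℓ : ℕ), Commute (gal σ) (hecke ℓ)
  cont : ∀ n : ℕ, ∃ L : IntermediateField ℚ Qbar, FiniteDimensional ℚ L ∧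
    ∀ σ : Γ, (∀ x ∈ L, σ x = x) → ∀ v : T, ∃ w : T, gal σ v - v = (p : ℤ_[p]) ^ n • w
  frob : ∀ ℓ : ℕ, ℓ.Prime → ¬ ℓ ∣ N → ℓ ≠ p → ∀ A : ValuationSubring Qbar, A.LiesOverPrime ℓ →
    ∀ σ : Γ, A.IsFrobeniusAt σ ℓ →
      gal σ * gal σ - hecke ℓ * gal σ + (ℓ : ℤ_[p]) • (1 : Module.End ℤ_[p] T) = 0
  unram : ∀ q : ℕ, q.Prime → ¬ q ∣ N → q ≠ p → ∀ A : ValuationSubring Qbar, A.LiesOverPrime q →
    ∀ σ ∈ A.inertiaSubgroupIn ℚ, gal σ = 1
  /-- the integral lattice -/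
  Λ : Type
  [instAddCommGroupΛ : AddCommGroup Λ]
  [instFreeΛ : Module.Free ℤ Λ]
  [instFiniteΛ : Module.Finite ℤ Λ]
  /-- the Hecke operators on the lattice -/
  t : ℕ → Module.End ℤ Λ
  t_comm : ∀ ℓ ℓ' : ℕ, Commute (t ℓ) (t ℓ')
  /-- the comparison map -/
  f : Λ →+ T
  f_t : ∀ (ℓ : ℕ) (x : Λ), f (t ℓ x) = hecke ℓ (f x)
  f_mod : ∀ x : Λ, (∃ w : T, f x = (p : ℤ_[p]) • w) → ∃ y : Λ, x = (p : ℤ) • y
  faithful : ∀ (S : Set ℕ) (P : MvPolynomial (HeckeIdx N S) ℤ),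
    polyAct (R := ℤ) (fun i : HeckeIdx N S => t i.1) (fun i j => t_comm i.1 j.1) P = 0 →
      MvPolynomial.aeval (fun i : HeckeIdx N S =>
        (CuspForm.heckeAlgebra.T i.2.1 i.2.2.1 i.2.2.2 : CuspForm.heckeAlgebra N 2 S)) P = 0

attribute [instance] TateData.instAddCommGroup TateData.instModule TateData.instFree
  TateData.instFinite TateData.instAddCommGroupΛ TateData.instFreeΛ TateData.instFiniteΛ

end Fermat.Agent.N4F.Adic
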