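/-
N4-FULL, row P1 (helper19): THE INSTANCE OF `TateData p N` (helper27's interface for the S30
assembly) from

* `Res.TorsionFinite N`, `Res.ESOnTorsionAll N` (the two `J`-side inputs of `Res.Inputs N`):
  `Adic/TateJ.lean`;
* `LambdaSystem p N` (T6a, helper4's `Adic/LambdaSystem.lean`): the comparison map
  `lam : parHomAdd N ℤ →+ TJ p N`, Hecke-equivariant and injective mod `p`;
* `HeckeFaithful N` (T6b, helper25's `Adic/HeckeFaithful.lean`): integral polynomial relations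
  between the `T_ℓ` on the lattice hold in the Hecke algebra of cusp forms.

Both the Hecke operators on the Tate module and on the lattice are set to `0` outside the good
primes `ℓ ∤ N` (the interface asks equivariance at every index `ℓ : ℕ`).
-/
import Mathlib
import Fermat.Agent.N4F.Adic.TateData
import Fermat.Agent.N4F.Adic.TateJ
import Fermat.Agent.N4F.Tors.OutputsFinal

set_option autoImplicit false

open ModularCurve AlgebraicCurve PadicInt CongruenceSubgroup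

noncomputable section

namespace Fermat.Agent.N4F.Adic.TateDataInst

open Fermat.Agent.N4F.Adic Fermat.Agent.N4F.Adic.TateModule Fermat.Agent.N4F.Adic.TateJ
  Fermat.Agent.N4F.Res Fermat.Agent.N4F.Tors.HeckeHom Fermat.Agent.N4F.Tors.Outputs
  Fermat.Agent.N4F.Tors.Occurrence

local notation "Qbar" => AlgebraicClosure ℚ
local notation "Γ" => (AlgebraicClosure ℚ ≃ₐ[ℚ] AlgebraicClosure ℚ)

/-! ### Reindexing polynomial relations -/

section Reindex

variable {A : Type*} [Ring A] {B : Type*} [CommRing B] {I I' : Type*}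

/-- `polyAct` along a reindexing. -/
theorem polyAct_rename (e : I → I') (t' : I' → A) (hc' : ∀ i j, Commute (t' i) (t' j))
    (t : I → A) (hc : ∀ i j, Commute (t i) (t j)) (ht : ∀ i, t' (e i) = t i)
    (P : MvPolynomial I ℤ) :
    polyAct (R := ℤ) t' hc' (MvPolynomial.rename e P) = polyAct (R := ℤ) t hc P := by
  have h := polyAct_unique (R := ℤ) t hc ((polyAct (R := ℤ) t' hc').comp (MvPolynomial.rename e))
    (fun i => by
      rw [AlgHom.comp_apply, MvPolynomial.rename_X, polyAct_X, ht])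
  exact (AlgHom.congr_fun h P)

/-- A faithfulness statement transported along a reindexing. -/
theorem faithful_of_rename (e : I → I') (t' : I' → A) (hc' : ∀ i j, Commute (t' i) (t' j))
    (t : I → A) (hc : ∀ i j, Commute (t i) (t j)) (ht : ∀ i, t' (e i) = t i)
    (a' : I' → B) (a : I → B) (ha : ∀ i, a' (e i) = a i)
    (H : ∀ P' : MvPolynomial I' ℤ, polyAct (R := ℤ) t' hc' P' = 0 →
      MvPolynomial.aeval a' P' = 0)
    (P : MvPolynomial I ℤ) (hP : polyAct (R := ℤ) t hc P = 0) :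
    MvPolynomial.aeval a P = 0 := by
  have h1 := H (MvPolynomial.rename e P) (by rw [polyAct_rename e t' hc' t hc ht, hP])
  rw [MvPolynomial.aeval_rename] at h1
  have h2 : (a' ∘ e) = a := funext ha
  rwa [h2] at h1

end Reindex

variable (p : ℕ) [hp : Fact p.Prime] (N : ℕ) [NeZero N]

/-! ### The lattice -/

instance instFiniteLattice : Module.Finite ℤ (parHomAdd N ℤ) :=
  Module.Finite.equiv (toKilling N).symm

instance instFreeLattice : Module.Free ℤ (parHomAdd N ℤ) :=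
  Module.Free.of_equiv (toKilling N).symm

open Classical in
/-- `T_ℓ` on the lattice at good primes, `0` elsewhere. -/
def tGood (ℓ : ℕ) : Module.End ℤ (parHomAdd N ℤ) :=
  if h : ℓ.Prime ∧ ¬ ℓ ∣ N then heckeLattice N ⟨ℓ, h.1⟩ h.2 else 0

omit [NeZero N] in
theorem tGood_of_good {ℓ : ℕ} (h1 : ℓ.Prime) (h2 : ¬ ℓ ∣ N) :
    tGood N ℓ = heckeLattice N ⟨ℓ, h1⟩ h2 := dif_pos ⟨h1, h2⟩

omit [NeZero N] in
theorem tGood_of_not_good {ℓ : ℕ} (h : ¬ (ℓ.Prime ∧ ¬ ℓ ∣ N)) : tGood N ℓ = 0 := dif_neg h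

theorem tGood_commute (ℓ ℓ' : ℕ) : Commute (tGood N ℓ) (tGood N ℓ') := by
  by_cases h : ℓ.Prime ∧ ¬ ℓ ∣ N
  · by_cases h' : ℓ'.Prime ∧ ¬ ℓ' ∣ N
    · rw [tGood_of_good N h.1 h.2, tGood_of_good N h'.1 h'.2]
      exact Fermat.Agent.N4F.Tors.OutputsFinal.heckeLattice_commute N _ _ h.2 h'.2
    · rw [tGood_of_not_good N h']
      exact Commute.zero_right _
  · rw [tGood_of_not_good N h]
    exact Commute.zero_left _

open Classical in
/-- `T_ℓ` on the Tate module at good primes, `0` elsewhere. -/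
def heckeGood (ℓ : ℕ) : Module.End ℤ_[p] (TJ p N) :=
  if ℓ.Prime ∧ ¬ ℓ ∣ N then hecke p N ℓ else 0

theorem heckeGood_of_good {ℓ : ℕ} (h1 : ℓ.Prime) (h2 : ¬ ℓ ∣ N) :
    heckeGood p N ℓ = hecke p N ℓ := if_pos ⟨h1, h2⟩

theorem heckeGood_of_not_good {ℓ : ℕ} (h : ¬ (ℓ.Prime ∧ ¬ ℓ ∣ N)) : heckeGood p N ℓ = 0 :=
  if_neg h

theorem gal_heckeGood_commute (σ : Γ) (ℓ : ℕ) : Commute (gal p N σ) (heckeGood p N ℓ) := by
  by_cases h : ℓ.Prime ∧ ¬ ℓ ∣ N
  · rw [heckeGood_of_good p N h.1 h.2]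
    exact gal_hecke_commute p N σ ℓ
  · rw [heckeGood_of_not_good p N h]
    exact Commute.zero_right _

/-! ### The two `Λ`-side inputs, by shape -/

/-- **(T6a)** the comparison map from the lattice to the Tate module. -/
def LambdaSystem : Prop :=
  ∃ lam : parHomAdd N ℤ →+ TJ p N,
    (∀ (ℓ : Nat.Primes) (hℓN : ¬ (ℓ : ℕ) ∣ N) (ψ : parHomAdd N ℤ),
      lam (heckeLattice N ℓ hℓN ψ) = hecke p N ℓ (lam ψ)) ∧
    ∀ ψ : parHomAdd N ℤ, (∃ w : TJ p N, lam ψ = (p : ℤ_[p]) • w) →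
      ∃ ψ' : parHomAdd N ℤ, ψ = (p : ℤ) • ψ'

/-- The index set of good primes outside `S`, in `Nat.Primes` form. -/
abbrev PIdx (S : Set ℕ) : Type := {ℓ : Nat.Primes // ¬ (ℓ : ℕ) ∣ N ∧ (ℓ : ℕ) ∉ S}

/-- **(T6b)** faithfulness of the lattice for the Hecke algebra of cusp forms. -/
def HeckeFaithful : Prop :=
  ∀ (S : Set ℕ) (P : MvPolynomial (PIdx N S) ℤ),
    polyAct (R := ℤ) (fun i : PIdx N S => heckeLattice N i.1 i.2.1)
      (fun i j => Fermat.Agent.N4F.Tors.OutputsFinal.heckeLattice_commute N i.1 j.1 i.2.1 j.2.1)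
        P = 0 →
      MvPolynomial.aeval (fun i : PIdx N S =>
        (CuspForm.heckeAlgebra.T i.1.2 i.2.1 i.2.2 : CuspForm.heckeAlgebra N 2 S)) P = 0

/-- The reindexing `HeckeIdx N S → PIdx N S`. -/
def toPIdx (S : Set ℕ) (i : HeckeIdx N S) : PIdx N S := ⟨⟨i.1, i.2.1⟩, i.2.2.1, i.2.2.2⟩

theorem faithful_tGood (hF : HeckeFaithful N) (S : Set ℕ) (P : MvPolynomial (HeckeIdx N S) ℤ)
    (hP : polyAct (R := ℤ) (fun i : HeckeIdx N S => tGood N i.1)
      (fun i j => tGood_commute N i.1 j.1) P = 0) :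
    MvPolynomial.aeval (fun i : HeckeIdx N S =>
      (CuspForm.heckeAlgebra.T i.2.1 i.2.2.1 i.2.2.2 : CuspForm.heckeAlgebra N 2 S)) P = 0 :=
  faithful_of_rename (toPIdx N S) (fun i : PIdx N S => heckeLattice N i.1 i.2.1)
    (fun i j => Fermat.Agent.N4F.Tors.OutputsFinal.heckeLattice_commute N i.1 j.1 i.2.1 j.2.1)
    (fun i : HeckeIdx N S => tGood N i.1) (fun i j => tGood_commute N i.1 j.1)
    (fun i => (tGood_of_good N i.2.1 i.2.2.1).symm) _ _ (fun _ => rfl) (hF S) P hP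

/-! ### The instance -/

theorem frob_heckeGood (hES : ESOnTorsionAll N) (ℓ : ℕ) (hℓ : ℓ.Prime) (hℓN : ¬ ℓ ∣ N)
    (hℓp : ℓ ≠ p) (A : ValuationSubring Qbar) (hA : A.LiesOverPrime ℓ) (σ : Γ)
    (hσ : A.IsFrobeniusAt σ ℓ) :
    gal p N σ * gal p N σ - heckeGood p N ℓ * gal p N σ +
      (ℓ : ℤ_[p]) • (1 : Module.End ℤ_[p] (TJ p N)) = 0 := by
  rw [heckeGood_of_good p N hℓ hℓN]
  exact eichler_shimura p N hES ℓ hℓ hℓN hℓp A hA σ hσ

theorem lam_tGood (lam : parHomAdd N ℤ →+ TJ p N)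
    (hlam : ∀ (ℓ : Nat.Primes) (hℓN : ¬ (ℓ : ℕ) ∣ N) (ψ : parHomAdd N ℤ),
      lam (heckeLattice N ℓ hℓN ψ) = hecke p N ℓ (lam ψ)) (ℓ : ℕ) (x : parHomAdd N ℤ) :
    lam (tGood N ℓ x) = heckeGood p N ℓ (lam x) := by
  by_cases h : ℓ.Prime ∧ ¬ ℓ ∣ N
  · rw [tGood_of_good N h.1 h.2, heckeGood_of_good p N h.1 h.2]
    exact hlam ⟨ℓ, h.1⟩ h.2 x
  · rw [tGood_of_not_good N h, heckeGood_of_not_good p N h]
    change lam 0 = 0
    exact map_zero lam

/-- **`TateData p N`** from the four inputs. -/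
def tateData (hfin : TorsionFinite N) (hES : ESOnTorsionAll N) (hΛ : LambdaSystem p N)
    (hF : HeckeFaithful N) : TateData p N :=
  @TateData.mk p N _ _ (TJ p N) _ _ (moduleFree p N hfin) (moduleFinite p N hfin)
    (gal p N) (heckeGood p N) (gal_heckeGood_commute p N) (gal_continuous p N hfin)
    (frob_heckeGood p N hES) (gal_inertia p N hES)
    (parHomAdd N ℤ) _ (instFreeLattice N) (instFiniteLattice N)
    (tGood N) (tGood_commute N) hΛ.choose (lam_tGood p N hΛ.choose hΛ.choose_spec.1)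
    hΛ.choose_spec.2 (faithful_tGood N hF)

end Fermat.Agent.N4F.Adic.TateDataInst
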