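/-
N4-FULL, rows P1/P2 (helper19): **S30 FROM THE INPUTS OF BLOCKS C+E+S18 AND F.**

`s30_of_inputs : (∀ N [NeZero N], ESOnTorsionAll N ∧ KummerPackageAll N) → (frozen S30)`,
where `ESOnTorsionAll N` is the Eichler–Shimura input of `Res.Inputs N` and `KummerPackageAll N`
is the final output of block F (`Tors/KummerBar.lean`).
-/
import Mathlib
import Fermat.Agent.N4F.Adic.S30Assembly
import Fermat.Agent.N4F.Adic.TateDataInst
import Fermat.Agent.N4F.Adic.LambdaSystem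
import Fermat.Agent.N4F.Adic.HeckeFaithful
import Fermat.Agent.N4F.Tors.KummerBar

set_option autoImplicit false

open Polynomial CuspForm ModularCurve AlgebraicCurve CongruenceSubgroup

noncomputable section

namespace Fermat.Agent.N4F.Adic.S30Cond

open Fermat.Agent.N4F.Res Fermat.Agent.N4F.Adic Fermat.Agent.N4F.Tors.Outputs

variable (N : ℕ) [NeZero N]

/-- Block F's final package (`Tors/KummerBar`) in the shape of `Adic/LambdaSystem`. -/
theorem kummerPackageAll_of_bar (h : Fermat.Agent.N4F.Tors.KummerBar.KummerPackageAll N) :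
    LambdaSystem.KummerPackageAll N := by
  obtain ⟨κ, h1, h2, h3, h4⟩ := h
  refine ⟨κ, h1, h2, h3, fun n m hnm hm x y hxy => ?_⟩
  have hx : (m / n) • (x : JZero N) ∈ Jtors N n := hxy ▸ y.2
  have hy : y = ⟨(m / n) • (x : JZero N), hx⟩ := Subtype.ext hxy
  rw [hy]
  exact h4 n m hnm hm x hx

/-- `TorsionFinite` from the Kummer package. -/
theorem torsionFinite_of_all (h : LambdaSystem.KummerPackageAll N) : TorsionFinite N :=
  torsionFinite N (LambdaSystem.KummerPackageAll.kummerPackage h)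

/-- (T6a) in the shape of `TateDataInst`. -/
theorem lambdaSystem (p : ℕ) [Fact p.Prime] (h : LambdaSystem.KummerPackageAll N) :
    TateDataInst.LambdaSystem p N := by
  obtain ⟨f, hf1, hf2, -⟩ :=
    LambdaSystem.exists_lambda_system N p (LambdaSystem.KummerPackageAll.kummerPackagePow h p)
  exact ⟨f, hf1, hf2⟩

/-- (T6b) in the shape of `TateDataInst`. -/
theorem heckeFaithful : TateDataInst.HeckeFaithful N :=
  fun S P hP => HeckeFaithful.hecke_faithful N S (HeckeFaithful.tLat_commute N S) P hP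

/-- **The Tate data exist**, given Eichler–Shimura on torsion and the Kummer package. -/
theorem nonempty_tateData (p : ℕ) [Fact p.Prime] (hES : ESOnTorsionAll N)
    (hK : LambdaSystem.KummerPackageAll N) : Nonempty (TateData p N) :=
  ⟨TateDataInst.tateData p N (torsionFinite_of_all N hK) hES (lambdaSystem N p hK)
    (heckeFaithful N)⟩

/-- **S30 from the inputs**, conclusion verbatim the frozen statement. -/
theorem s30_of_inputs
    (H : ∀ (N : ℕ) [NeZero N], ESOnTorsionAll N ∧ LambdaSystem.KummerPackageAll N) :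
    ∀ (p : ℕ) [Fact p.Prime] (N : ℕ) [NeZero N] (S : Finset ℕ)
      (_hpS : p ∈ S) (_hNS : ∀ q : ℕ, q.Prime → q ∣ N → q ∈ S)
      (𝒪' : Type) [CommRing 𝒪'] [IsDomain 𝒪'] [IsDiscreteValuationRing 𝒪']
      [IsAdicComplete (IsLocalRing.maximalIdeal 𝒪') 𝒪'] [Finite (IsLocalRing.ResidueField 𝒪')]
      [CharZero 𝒪'] (_hp𝒪' : (p : 𝒪') ∈ IsLocalRing.maximalIdeal 𝒪')
      (χ : CuspForm.heckeAlgebra N 2 (↑S : Set ℕ) →+* 𝒪'),
      ∃ (𝒪'' : Type) (_ : CommRing 𝒪'') (_ : IsDomain 𝒪'') (_ : IsDiscreteValuationRing 𝒪'')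
        (_ : IsAdicComplete (IsLocalRing.maximalIdeal 𝒪'') 𝒪'')
        (_ : Finite (IsLocalRing.ResidueField 𝒪'')) (_ : CharZero 𝒪'')
        (_ : Algebra 𝒪' 𝒪'') (_ : Module.Finite 𝒪' 𝒪'') (_ : IsLocalHom (algebraMap 𝒪' 𝒪'')),
      Function.Injective (algebraMap 𝒪' 𝒪'') ∧
      ∃ ρ : GaloisRepAdic 𝒪'',
        (∀ (ℓ : ℕ) (hℓ : ℓ.Prime) (hℓN : ¬ ℓ ∣ N) (hℓS : ℓ ∉ (↑S : Set ℕ)),
          ∀ A : ValuationSubring (AlgebraicClosure ℚ), A.LiesOverPrime ℓ →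
            ∀ σ : AlgebraicClosure ℚ ≃ₐ[ℚ] AlgebraicClosure ℚ, A.IsFrobeniusAt σ ℓ →
              LinearMap.charpoly (ρ.ρ σ) =
                X ^ 2 - C (algebraMap 𝒪' 𝒪'' (χ (CuspForm.heckeAlgebra.T hℓ hℓN hℓS))) * X
                  + C ((ℓ : 𝒪''))) ∧
        (∀ q : ℕ, q.Prime → ¬ q ∣ N → q ≠ p → ρ.IsUnramifiedAt q) :=
  S30Assembly.s30_of_tateData fun p N _ _ => nonempty_tateData N p (H N).1 (H N).2

/-- The same from block F's package in the `Tors/KummerBar` shape. -/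
theorem s30_of_inputs_bar
    (H : ∀ (N : ℕ) [NeZero N],
      ESOnTorsionAll N ∧ Fermat.Agent.N4F.Tors.KummerBar.KummerPackageAll N) :
    ∀ (p : ℕ) [Fact p.Prime] (N : ℕ) [NeZero N] (S : Finset ℕ)
      (_hpS : p ∈ S) (_hNS : ∀ q : ℕ, q.Prime → q ∣ N → q ∈ S)
      (𝒪' : Type) [CommRing 𝒪'] [IsDomain 𝒪'] [IsDiscreteValuationRing 𝒪']
      [IsAdicComplete (IsLocalRing.maximalIdeal 𝒪') 𝒪'] [Finite (IsLocalRing.ResidueField 𝒪')]
      [CharZero 𝒪'] (_hp𝒪' : (p : 𝒪') ∈ IsLocalRing.maximalIdeal 𝒪')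
      (χ : CuspForm.heckeAlgebra N 2 (↑S : Set ℕ) →+* 𝒪'),
      ∃ (𝒪'' : Type) (_ : CommRing 𝒪'') (_ : IsDomain 𝒪'') (_ : IsDiscreteValuationRing 𝒪'')
        (_ : IsAdicComplete (IsLocalRing.maximalIdeal 𝒪'') 𝒪'')
        (_ : Finite (IsLocalRing.ResidueField 𝒪'')) (_ : CharZero 𝒪'')
        (_ : Algebra 𝒪' 𝒪'') (_ : Module.Finite 𝒪' 𝒪'') (_ : IsLocalHom (algebraMap 𝒪' 𝒪'')),
      Function.Injective (algebraMap 𝒪' 𝒪'') ∧
      ∃ ρ : GaloisRepAdic 𝒪'',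
        (∀ (ℓ : ℕ) (hℓ : ℓ.Prime) (hℓN : ¬ ℓ ∣ N) (hℓS : ℓ ∉ (↑S : Set ℕ)),
          ∀ A : ValuationSubring (AlgebraicClosure ℚ), A.LiesOverPrime ℓ →
            ∀ σ : AlgebraicClosure ℚ ≃ₐ[ℚ] AlgebraicClosure ℚ, A.IsFrobeniusAt σ ℓ →
              LinearMap.charpoly (ρ.ρ σ) =
                X ^ 2 - C (algebraMap 𝒪' 𝒪'' (χ (CuspForm.heckeAlgebra.T hℓ hℓN hℓS))) * X
                  + C ((ℓ : 𝒪''))) ∧
        (∀ q : ℕ, q.Prime → ¬ q ∣ N → q ≠ p → ρ.IsUnramifiedAt q) :=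
  s30_of_inputs fun N _ => ⟨(H N).1, kummerPackageAll_of_bar N (H N).2⟩

end Fermat.Agent.N4F.Adic.S30Cond
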