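/-
N4-FULL / S34 (helper20): **S34 from the Eichler–Shimura relation on torsion and the geometric
input (G) at the level of torsion points.**

`InertiaUnipotentOnTorsion N` : for `q ∥ N`, `σ` in an inertia group at `q` and every torsion point
`x ∈ J_0(N)(ℚ̄)` of order prime to `q`: `(σ - 1)² x = 0`.

`s34_of_es_of_unipotent : (∀ N, ESOnTorsionAll N) → (∀ N, InertiaUnipotentOnTorsion N) → (frozen S34)`.
-/
import Mathlib
import Fermat.Agent.N4F.Adic.S34Assembly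
import Fermat.Agent.N4F.Adic.S30Cond
import Fermat.Agent.N4F.Adic.KummerPlugPow

set_option autoImplicit false

open ModularCurve

namespace Fermat.Agent.N4F.Adic.S34Cond

open Fermat.Agent.N4F.Res Fermat.Agent.N4F.Adic Fermat.Agent.N4F.Adic.TateJ
  Fermat.Agent.N4F.Adic.TateModule

local notation "Qbar" => AlgebraicClosure ℚ
local notation "Γ" => (AlgebraicClosure ℚ ≃ₐ[ℚ] AlgebraicClosure ℚ)

/-- **The geometric input (G), at the level of torsion points**: inertia at `q ∥ N` acts on the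
prime-to-`q` torsion of `J_0(N)(ℚ̄)` through `(σ - 1)² = 0`. -/
def InertiaUnipotentOnTorsion (N : ℕ) [NeZero N] : Prop :=
  ∀ q : ℕ, q.Prime → q ∣ N → ¬ q ^ 2 ∣ N → ∀ A : ValuationSubring Qbar, A.LiesOverPrime q →
    ∀ σ ∈ A.inertiaSubgroupIn ℚ, ∀ m : ℕ, ¬ q ∣ m → ∀ x : JZero N, m • x = 0 →
      σ • (σ • x) - (σ • x) - (σ • x - x) = 0

variable (p : ℕ) [hp : Fact p.Prime] (N : ℕ) [NeZero N]

/-- (G) on the Tate module. -/
theorem gal_sub_one_sq (hG : InertiaUnipotentOnTorsion N) (q : ℕ) (hq : q.Prime) (hqp : q ≠ p)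
    (hqN : q ∣ N) (hq2 : ¬ q ^ 2 ∣ N) (A : ValuationSubring Qbar) (hA : A.LiesOverPrime q)
    (σ : Γ) (hσ : σ ∈ A.inertiaSubgroupIn ℚ) :
    (gal p N σ - 1) * (gal p N σ - 1) = 0 := by
  refine LinearMap.ext fun x => Tate.ext fun k => ?_
  have h := hG q hq hqN hq2 A hA σ hσ (p ^ k) (not_dvd_pow p hq hqp k) ((x : ℕ → JZero N) k)
    (Tate.pow_smul_apply x k)
  rw [Module.End.mul_apply, LinearMap.sub_apply, LinearMap.sub_apply, Module.End.one_apply,
    Module.End.one_apply, map_sub, LinearMap.zero_apply]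
  change ((gal p N σ (gal p N σ x) : TJ p N) : ℕ → JZero N) k
    - ((gal p N σ x : TJ p N) : ℕ → JZero N) k
    - (((gal p N σ x : TJ p N) : ℕ → JZero N) k - (x : ℕ → JZero N) k) = 0
  rw [gal_apply_coe, gal_apply_coe]
  exact h

/-- The Tate data with (G). -/
theorem exists_tateData_unipotent (hES : ESOnTorsionAll N) (hG : InertiaUnipotentOnTorsion N) :
    ∃ D : TateData p N, S34Assembly.UnipotentInertia D := by
  have hK := KummerPlugPow.kummerPackageAll N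
  refine ⟨TateDataInst.tateData p N (S30Cond.torsionFinite_of_all N hK) hES
    (S30Cond.lambdaSystem N p hK) (S30Cond.heckeFaithful N), ?_⟩
  intro q hq hqp hqN hq2 A hA σ hσ
  exact gal_sub_one_sq p N hG q hq hqp hqN hq2 A hA σ hσ

/-- **S34 from the Eichler–Shimura relation on torsion and (G)**, conclusion verbatim the frozen
statement. -/
theorem s34_of_es_of_unipotent (hES : ∀ (N : ℕ) [NeZero N], ESOnTorsionAll N)
    (hG : ∀ (N : ℕ) [NeZero N], InertiaUnipotentOnTorsion N)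
    {𝒪 : Type} [CommRing 𝒪] [IsDomain 𝒪] [IsDiscreteValuationRing 𝒪]
    [IsAdicComplete (IsLocalRing.maximalIdeal 𝒪) 𝒪] [Finite (IsLocalRing.ResidueField 𝒪)]
    [CharZero 𝒪]
    {p : ℕ} (hp : p.Prime) (hp𝒪 : (p : 𝒪) ∈ IsLocalRing.maximalIdeal 𝒪)
    {N : ℕ} [NeZero N] {S : Finset ℕ} (hpS : p ∈ S) (hNS : ∀ q : ℕ, q.Prime → q ∣ N → q ∈ S)
    {θ : CuspForm.heckeAlgebra N 2 (↑S : Set ℕ) →+* IsLocalRing.ResidueField 𝒪}
    {T : Type} [CommRing T] [IsLocalRing T] [IsNoetherianRing T]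
    [IsAdicComplete (IsLocalRing.maximalIdeal T) T] [Algebra 𝒪 T] [IsLocalHom (algebraMap 𝒪 T)]
    [Module.Finite 𝒪 T] [Module.Free 𝒪 T]
    (H : CuspForm.HeckeGaloisRepDatum N (↑S : Set ℕ) 𝒪 θ T)
    (q : ℕ) (hq : q.Prime) (hqp : q ≠ p) (hqN : q ∣ N) (hq2 : ¬ q ^ 2 ∣ N) :
    H.ρ.IsUnipotentOnInertiaAt q :=
  S34Assembly.s34_of_tateData
    (fun p N _ _ => exists_tateData_unipotent p N (hES N) (hG N))
    hp hp𝒪 hpS hNS H q hq hqp hqN hq2

end Fermat.Agent.N4F.Adic.S34Cond
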