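/-
N4-FULL / S30 packaging (helper20): the rank-one case.

A pair of adically continuous characters `ψ₁ ψ₂ : Gal(ℚ̄/ℚ) →* 𝒪ˣ` gives the diagonal
`GaloisRepAdic 𝒪` on `Fin 2 → 𝒪`; characteristic polynomials, unramifiedness, and the corollary
used in the `dim U = 1` case of S30: from a character `ψ` one gets `ψ ⊕ χ_cyc ψ⁻¹` whose
Frobenius characteristic polynomials are `X² - a X + ℓ` whenever `ψ(Frob)² - a ψ(Frob) + ℓ = 0`.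
-/
import Mathlib
import Fermat.Prelude.Def_GaloisRep_Adic
import Fermat.Agent.N4.FrobDensity.CycloAdic

set_option autoImplicit false
set_option linter.unusedSectionVars false
set_option linter.style.haveILetI false

namespace Fermat.Agent.N4F.Adic.DiagRep

open Polynomial

local notation "Qbar" => AlgebraicClosure ℚ
local notation "Γ" => (AlgebraicClosure ℚ ≃ₐ[ℚ] AlgebraicClosure ℚ)

variable {𝒪 : Type} [CommRing 𝒪] [IsLocalRing 𝒪]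

/-- Adic continuity of a character: congruent to `1` modulo `𝔪 ^ n` on an open subgroup, for
every `n` (the shape of `FrobDensity.cycloCharIn_continuous`). -/
def AdicCont (ψ : Γ →* 𝒪ˣ) : Prop :=
  ∀ n : ℕ, ∃ L : IntermediateField ℚ Qbar, FiniteDimensional ℚ L ∧
    ∀ σ : Γ, (∀ x ∈ L, σ x = x) →
      ((ψ σ : 𝒪ˣ) : 𝒪) - 1 ∈ IsLocalRing.maximalIdeal 𝒪 ^ n

theorem AdicCont.one : AdicCont (1 : Γ →* 𝒪ˣ) := by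
  intro n
  refine ⟨⊥, inferInstance, fun σ _ => ?_⟩
  simp

theorem AdicCont.mul {ψ₁ ψ₂ : Γ →* 𝒪ˣ} (h₁ : AdicCont ψ₁) (h₂ : AdicCont ψ₂) :
    AdicCont (ψ₁ * ψ₂) := by
  intro n
  obtain ⟨L₁, hL₁, H₁⟩ := h₁ n
  obtain ⟨L₂, hL₂, H₂⟩ := h₂ n
  refine ⟨L₁ ⊔ L₂, ?_, fun σ hσ => ?_⟩
  · haveI := hL₁
    haveI := hL₂
    exact IntermediateField.finiteDimensional_sup L₁ L₂
  · have e₁ := H₁ σ (fun x hx => hσ x ((le_sup_left : L₁ ≤ L₁ ⊔ L₂) hx))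
    have e₂ := H₂ σ (fun x hx => hσ x ((le_sup_right : L₂ ≤ L₁ ⊔ L₂) hx))
    have h : (((ψ₁ * ψ₂) σ : 𝒪ˣ) : 𝒪) - 1
        = (((ψ₁ σ : 𝒪ˣ) : 𝒪) - 1) * ((ψ₂ σ : 𝒪ˣ) : 𝒪) + (((ψ₂ σ : 𝒪ˣ) : 𝒪) - 1) := by
      rw [MonoidHom.mul_apply, Units.val_mul]
      ring
    rw [h]
    exact Ideal.add_mem _ (Ideal.mul_mem_right _ _ e₁) e₂

theorem AdicCont.inv {ψ : Γ →* 𝒪ˣ} (h : AdicCont ψ) : AdicCont ψ⁻¹ := by
  intro n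
  obtain ⟨L, hL, H⟩ := h n
  refine ⟨L, hL, fun σ hσ => ?_⟩
  have e := H σ hσ
  have h1 : ((ψ⁻¹ σ : 𝒪ˣ) : 𝒪) - 1
      = -(((ψ σ)⁻¹ : 𝒪ˣ) : 𝒪) * (((ψ σ : 𝒪ˣ) : 𝒪) - 1) := by
    rw [MonoidHom.inv_apply]
    have h2 : (((ψ σ)⁻¹ : 𝒪ˣ) : 𝒪) * ((ψ σ : 𝒪ˣ) : 𝒪) = 1 := Units.inv_mul _
    linear_combination h2
  rw [h1]
  exact Ideal.mul_mem_left _ _ e

/-- The cyclotomic character into a local ring of residue characteristic `p` is adically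
continuous. -/
theorem adicCont_cycloCharIn (p : ℕ) [Fact p.Prime] (f : ℤ_[p] →+* 𝒪)
    (hp𝒪 : (p : 𝒪) ∈ IsLocalRing.maximalIdeal 𝒪) :
    AdicCont (Fermat.Agent.N4.FrobDensity.cycloCharIn p f) :=
  fun n => Fermat.Agent.N4.FrobDensity.cycloCharIn_continuous p f hp𝒪 n

/-! ### The diagonal representation -/

/-- The pair of characters as a monoid homomorphism into `Fin 2 → 𝒪`. -/
noncomputable def diagHom (ψ₁ ψ₂ : Γ →* 𝒪ˣ) : Γ →* (Fin 2 → 𝒪) where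
  toFun σ := ![((ψ₁ σ : 𝒪ˣ) : 𝒪), ((ψ₂ σ : 𝒪ˣ) : 𝒪)]
  map_one' := by
    funext i
    fin_cases i <;> simp
  map_mul' a b := by
    funext i
    fin_cases i <;> simp

theorem diagHom_zero (ψ₁ ψ₂ : Γ →* 𝒪ˣ) (σ : Γ) :
    diagHom ψ₁ ψ₂ σ 0 = ((ψ₁ σ : 𝒪ˣ) : 𝒪) := rfl

theorem diagHom_one (ψ₁ ψ₂ : Γ →* 𝒪ˣ) (σ : Γ) :
    diagHom ψ₁ ψ₂ σ 1 = ((ψ₂ σ : 𝒪ˣ) : 𝒪) := rfl

/-- The diagonal action on `Fin 2 → 𝒪`. -/
noncomputable def diagAction (ψ₁ ψ₂ : Γ →* 𝒪ˣ) : Γ →* Module.End 𝒪 (Fin 2 → 𝒪) :=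
  ((Matrix.toLinAlgEquiv' : Matrix (Fin 2) (Fin 2) 𝒪 ≃ₐ[𝒪] Module.End 𝒪 (Fin 2 → 𝒪)) :
      Matrix (Fin 2) (Fin 2) 𝒪 →* Module.End 𝒪 (Fin 2 → 𝒪)).comp
    (((Matrix.diagonalRingHom (Fin 2) 𝒪 : (Fin 2 → 𝒪) →+* Matrix (Fin 2) (Fin 2) 𝒪) :
      (Fin 2 → 𝒪) →* Matrix (Fin 2) (Fin 2) 𝒪).comp (diagHom ψ₁ ψ₂))

theorem diagAction_eq (ψ₁ ψ₂ : Γ →* 𝒪ˣ) (σ : Γ) :
    diagAction ψ₁ ψ₂ σ = Matrix.toLin' (Matrix.diagonal (diagHom ψ₁ ψ₂ σ)) := rfl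

theorem diagAction_apply (ψ₁ ψ₂ : Γ →* 𝒪ˣ) (σ : Γ) (v : Fin 2 → 𝒪) (i : Fin 2) :
    diagAction ψ₁ ψ₂ σ v i = diagHom ψ₁ ψ₂ σ i * v i := by
  rw [diagAction_eq, Matrix.toLin'_apply, Matrix.mulVec_diagonal]

theorem mem_smul_top_of_forall_mem (I : Ideal 𝒪) (c v : Fin 2 → 𝒪) (hc : ∀ i, c i ∈ I) :
    (fun i => c i * v i) ∈ I • (⊤ : Submodule 𝒪 (Fin 2 → 𝒪)) := by
  have h : (fun i => c i * v i) = ∑ i, c i • (Pi.single i (v i) : Fin 2 → 𝒪) := by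
    funext j
    rw [Finset.sum_apply]
    simp only [Pi.smul_apply, smul_eq_mul]
    rw [Finset.sum_eq_single j]
    · rw [Pi.single_eq_same]
    · intro b _ hb
      rw [Pi.single_eq_of_ne' hb, mul_zero]
    · intro hj
      exact absurd (Finset.mem_univ j) hj
  rw [h]
  exact Submodule.sum_mem _ fun i _ => Submodule.smul_mem_smul (hc i) Submodule.mem_top

theorem diagAction_adicContinuous {ψ₁ ψ₂ : Γ →* 𝒪ˣ} (h₁ : AdicCont ψ₁) (h₂ : AdicCont ψ₂) :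
    GaloisActionIsAdicContinuous 𝒪 (diagAction ψ₁ ψ₂) := by
  intro n
  obtain ⟨L₁, hL₁, H₁⟩ := h₁ n
  obtain ⟨L₂, hL₂, H₂⟩ := h₂ n
  refine ⟨L₁ ⊔ L₂, ?_, fun σ hσ v => ?_⟩
  · haveI := hL₁
    haveI := hL₂
    exact IntermediateField.finiteDimensional_sup L₁ L₂
  · have e₁ := H₁ σ (fun x hx => hσ x ((le_sup_left : L₁ ≤ L₁ ⊔ L₂) hx))
    have e₂ := H₂ σ (fun x hx => hσ x ((le_sup_right : L₂ ≤ L₁ ⊔ L₂) hx))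
    have h : diagAction ψ₁ ψ₂ σ v - v = fun i => (diagHom ψ₁ ψ₂ σ i - 1) * v i := by
      funext i
      rw [Pi.sub_apply, diagAction_apply]
      ring
    rw [h]
    refine mem_smul_top_of_forall_mem _ _ v fun i => ?_
    fin_cases i
    · simpa [diagHom_zero] using e₁
    · simpa [diagHom_one] using e₂

/-- **The diagonal `GaloisRepAdic`** attached to two adically continuous characters. -/
noncomputable def diagRep (ψ₁ ψ₂ : Γ →* 𝒪ˣ) (h₁ : AdicCont ψ₁) (h₂ : AdicCont ψ₂) :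
    GaloisRepAdic 𝒪 where
  V := Fin 2 → 𝒪
  finrank_eq := by rw [Module.finrank_fin_fun]
  ρ := diagAction ψ₁ ψ₂
  isAdicContinuous := diagAction_adicContinuous h₁ h₂

theorem diagRep_ρ (ψ₁ ψ₂ : Γ →* 𝒪ˣ) (h₁ : AdicCont ψ₁) (h₂ : AdicCont ψ₂) :
    (diagRep ψ₁ ψ₂ h₁ h₂).ρ = diagAction ψ₁ ψ₂ := rfl

/-- Characteristic polynomial of the diagonal action. -/
theorem diagAction_charpoly (ψ₁ ψ₂ : Γ →* 𝒪ˣ) (σ : Γ) :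
    LinearMap.charpoly (diagAction ψ₁ ψ₂ σ) =
      X ^ 2 - C (((ψ₁ σ : 𝒪ˣ) : 𝒪) + ((ψ₂ σ : 𝒪ˣ) : 𝒪)) * X
        + C (((ψ₁ σ : 𝒪ˣ) : 𝒪) * ((ψ₂ σ : 𝒪ˣ) : 𝒪)) := by
  rw [diagAction_eq, Matrix.charpoly_toLin', Matrix.charpoly_fin_two, Matrix.trace_fin_two,
    Matrix.det_fin_two]
  simp only [Matrix.diagonal_apply_eq, diagHom_zero, diagHom_one]
  have h01 : Matrix.diagonal (diagHom ψ₁ ψ₂ σ) 0 1 = 0 :=
    Matrix.diagonal_apply_ne _ (by decide)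
  rw [h01, zero_mul, sub_zero]

theorem diagRep_charpoly (ψ₁ ψ₂ : Γ →* 𝒪ˣ) (h₁ : AdicCont ψ₁) (h₂ : AdicCont ψ₂) (σ : Γ) :
    LinearMap.charpoly ((diagRep ψ₁ ψ₂ h₁ h₂).ρ σ) =
      X ^ 2 - C (((ψ₁ σ : 𝒪ˣ) : 𝒪) + ((ψ₂ σ : 𝒪ˣ) : 𝒪)) * X
        + C (((ψ₁ σ : 𝒪ˣ) : 𝒪) * ((ψ₂ σ : 𝒪ˣ) : 𝒪)) :=
  diagAction_charpoly ψ₁ ψ₂ σ

theorem diagAction_eq_one {ψ₁ ψ₂ : Γ →* 𝒪ˣ} {σ : Γ} (e₁ : ψ₁ σ = 1) (e₂ : ψ₂ σ = 1) :
    diagAction ψ₁ ψ₂ σ = 1 := by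
  refine LinearMap.ext fun v => funext fun i => ?_
  rw [diagAction_apply, Module.End.one_apply]
  fin_cases i
  · simp [diagHom_zero, e₁]
  · simp [diagHom_one, e₂]

/-- The diagonal representation is unramified at `q` when both characters are trivial on every
inertia group over `q`. -/
theorem diagRep_isUnramifiedAt (ψ₁ ψ₂ : Γ →* 𝒪ˣ) (h₁ : AdicCont ψ₁) (h₂ : AdicCont ψ₂) (q : ℕ)
    (u₁ : ∀ P : ValuationSubring Qbar, P.LiesOverPrime q →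
      ∀ σ ∈ P.inertiaSubgroupIn ℚ, ψ₁ σ = 1)
    (u₂ : ∀ P : ValuationSubring Qbar, P.LiesOverPrime q →
      ∀ σ ∈ P.inertiaSubgroupIn ℚ, ψ₂ σ = 1) :
    (diagRep ψ₁ ψ₂ h₁ h₂).IsUnramifiedAt q :=
  fun P hP σ hσ => diagAction_eq_one (u₁ P hP σ hσ) (u₂ P hP σ hσ)

/-! ### The rank-one case of S30 -/

/-- **Rank-one packaging.** Let `ψ : Γ →* 𝒪ˣ` be an adically continuous character, unramified
outside a set `T` of primes, and `f : ℤ_[p] →+* 𝒪`. Then `ρ := ψ ⊕ χ_cyc ψ⁻¹` is a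
`GaloisRepAdic 𝒪` which is unramified outside `T ∪ {p}` and such that, for every Frobenius
element `σ` at a prime `ℓ ≠ p` and every `a` with `ψ(σ)² - a ψ(σ) + ℓ = 0`, the characteristic
polynomial of `ρ(σ)` is `X² - a X + ℓ`. -/
theorem exists_galoisRepAdic_of_character (p : ℕ) [Fact p.Prime] (f : ℤ_[p] →+* 𝒪)
    (hp𝒪 : (p : 𝒪) ∈ IsLocalRing.maximalIdeal 𝒪) (ψ : Γ →* 𝒪ˣ) (hψ : AdicCont ψ)
    (T : Set ℕ)
    (hur : ∀ q : ℕ, q.Prime → q ∉ T → ∀ P : ValuationSubring Qbar, P.LiesOverPrime q →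
      ∀ σ ∈ P.inertiaSubgroupIn ℚ, ψ σ = 1) :
    ∃ ρ : GaloisRepAdic 𝒪,
      (∀ (ℓ : ℕ), ℓ.Prime → ℓ ≠ p → ∀ A : ValuationSubring Qbar, A.LiesOverPrime ℓ →
        ∀ σ : Γ, A.IsFrobeniusAt σ ℓ → ∀ a : 𝒪,
          ((ψ σ : 𝒪ˣ) : 𝒪) ^ 2 - a * ((ψ σ : 𝒪ˣ) : 𝒪) + (ℓ : 𝒪) = 0 →
            LinearMap.charpoly (ρ.ρ σ) = X ^ 2 - C a * X + C ((ℓ : 𝒪))) ∧
      (∀ q : ℕ, q.Prime → q ∉ T → q ≠ p → ρ.IsUnramifiedAt q) := by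
  have hχ := adicCont_cycloCharIn p f hp𝒪
  refine ⟨diagRep ψ (Fermat.Agent.N4.FrobDensity.cycloCharIn p f * ψ⁻¹) hψ (hχ.mul hψ.inv),
    ?_, ?_⟩
  · intro ℓ hℓ hℓp A hA σ hσ a ha
    rw [diagRep_charpoly]
    have hχσ := Fermat.Agent.N4.FrobDensity.cycloCharIn_frob p f hℓ hℓp hA hσ
    set u : 𝒪 := ((ψ σ : 𝒪ˣ) : 𝒪) with hu
    set w : 𝒪 := (((ψ σ)⁻¹ : 𝒪ˣ) : 𝒪) with hw
    have huw : u * w = 1 := Units.mul_inv _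
    have h2 : (((Fermat.Agent.N4.FrobDensity.cycloCharIn p f * ψ⁻¹) σ : 𝒪ˣ) : 𝒪)
        = (ℓ : 𝒪) * w := by
      rw [MonoidHom.mul_apply, Units.val_mul, hχσ, MonoidHom.inv_apply]
    rw [h2]
    have hsum : u + (ℓ : 𝒪) * w = a := by
      linear_combination (w : 𝒪) * ha + (-u + a) * huw
    have hprod : u * ((ℓ : 𝒪) * w) = (ℓ : 𝒪) := by
      linear_combination (ℓ : 𝒪) * huw
    rw [hsum, hprod]
  · intro q hq hqT hqp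
    refine diagRep_isUnramifiedAt _ _ _ _ q (hur q hq hqT) fun P hP σ hσ => ?_
    rw [MonoidHom.mul_apply, MonoidHom.inv_apply, hur q hq hqT P hP σ hσ,
      Fermat.Agent.N4.FrobDensity.cycloCharIn_inertia p f hq hqp hP hσ]
    simp

end Fermat.Agent.N4F.Adic.DiagRep
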