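/-
N4-FULL / S30 p-adic packaging (helper27), part 1: **closedness of the Eichler–Shimura operator
identity**.

`R` a commutative ring, `M` a finite free `R`-module with an action `ρ` of a group `G`, `χ : G →* Rˣ`
a character, `ϖ : R` with `⋂ ϖⁿR = 0`.  `𝒰` a (directed) family of subgroups of `G` ("open
subgroups") such that `ρ` and `χ` are `ϖ`-adically continuous for `𝒰`.  If every element of `G`
is, modulo every `U ∈ 𝒰`, a power of an element `f` satisfying a quadratic relation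
`ρ(f)² - a ρ(f) + χ(f) = 0`, then for EVERY `g : G` the operator `ρ(g) + χ(g) ρ(g)⁻¹` is a scalar.
-/
import Mathlib

set_option autoImplicit false

open Module

namespace Fermat.Agent.N4F.Adic.OpIdentityClosed

section Dickson

variable {R : Type*} [CommRing R] {G : Type*} [Group G] {M : Type*} [AddCommGroup M] [Module R M]
  {ρ : G →* End R M} {χ : G →* Rˣ}

/-- The Dickson sequence `D_0 = 2`, `D_1 = s`, `D_{j+2} = s D_{j+1} - c D_j` over a ring. -/
def dicksonR (s c : R) : ℕ → R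
  | 0 => 2
  | 1 => s
  | (j + 2) => s * dicksonR s c (j + 1) - c * dicksonR s c j

lemma rho_mul_rho_inv' (g : G) : ρ g * ρ g⁻¹ = 1 := by
  rw [← map_mul, mul_inv_cancel, map_one]

lemma rho_inv_mul_rho' (g : G) : ρ g⁻¹ * ρ g = 1 := by
  rw [← map_mul, inv_mul_cancel, map_one]

/-- A quadratic relation `ρ(f)² - a ρ(f) + χ(f) = 0` gives `ρ(f) + χ(f) ρ(f)⁻¹ = a`. -/
theorem opIdentity_of_quadratic (f : G) (a : R)
    (h : ρ f * ρ f - a • ρ f + ((χ f : Rˣ) : R) • (1 : End R M) = 0) :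
    ρ f + ((χ f : Rˣ) : R) • ρ f⁻¹ = a • (1 : End R M) := by
  have h1 := congrArg (fun x => x * ρ f⁻¹) h
  simp only [add_mul, sub_mul, mul_assoc, rho_mul_rho_inv', mul_one, smul_mul_assoc, one_mul,
    zero_mul] at h1
  rw [← sub_eq_zero, ← h1]
  abel

/-- If `ρ(f) + χ(f) ρ(f)⁻¹ = s` then `ρ(f^j) + χ(f^j) ρ(f^j)⁻¹ = D_j(s, χ(f))` for all `j`
(helper4's `opIdentity_pow`, over a commutative ring). -/
theorem opIdentity_pow_ring (f : G) (s : R)
    (h : ρ f + ((χ f : Rˣ) : R) • ρ f⁻¹ = s • (1 : End R M)) (j : ℕ) :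
    ρ (f ^ j) + ((χ (f ^ j) : Rˣ) : R) • ρ (f ^ j)⁻¹ =
      dicksonR s ((χ f : Rˣ) : R) j • (1 : End R M) := by
  set x : End R M := ρ f with hx
  set y : End R M := ((χ f : Rˣ) : R) • ρ f⁻¹ with hy
  have hxy : x * y = ((χ f : Rˣ) : R) • (1 : End R M) := by
    rw [hy, mul_smul_comm, hx, ← map_mul, mul_inv_cancel, map_one]
  have hyx : y * x = ((χ f : Rˣ) : R) • (1 : End R M) := by
    rw [hy, smul_mul_assoc, hx, ← map_mul, inv_mul_cancel, map_one]
  have hpow : ∀ j : ℕ, ρ (f ^ j) + ((χ (f ^ j) : Rˣ) : R) • ρ (f ^ j)⁻¹ = x ^ j + y ^ j := by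
    intro j
    rw [map_pow ρ, map_pow χ, Units.val_pow_eq_pow_val, ← inv_pow, map_pow ρ, hy, smul_pow]
  rw [hpow]
  have hcomm : Commute x y := by rw [Commute, SemiconjBy, hxy, hyx]
  induction j using Nat.strong_induction_on with
  | _ j ih =>
    match j, ih with
    | 0, _ =>
      rw [pow_zero, pow_zero, dicksonR, ← one_add_one_eq_two, add_smul, one_smul]
    | 1, _ =>
      rw [pow_one, pow_one, dicksonR]
      exact h
    | (j + 2), ih =>
      have e1 := ih (j + 1) (by omega)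
      have e0 := ih j (by omega)
      have key : x ^ (j + 2) + y ^ (j + 2) =
          (x + y) * (x ^ (j + 1) + y ^ (j + 1)) - (x * y) * (x ^ j + y ^ j) := by
        have h1 : y * x ^ (j + 1) = x * y * x ^ j := by
          rw [pow_succ', ← mul_assoc, hcomm.eq]
        have h2 : x * y ^ (j + 1) = x * y * y ^ j := by
          rw [pow_succ', ← mul_assoc]
        rw [add_mul, mul_add, mul_add, mul_add, h1, h2, pow_succ' x (j + 1), pow_succ' y (j + 1)]
        abel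
      rw [key, e1, e0, h, hxy, dicksonR]
      simp only [smul_mul_assoc, one_mul, smul_smul, sub_smul]

end Dickson

section Congruence

variable {R : Type*} [CommRing R] {M : Type*} [AddCommGroup M] [Module R M]

/-- The endomorphisms which are `≡ 0` modulo `ϖⁿ`. -/
def congEnd (ϖ : R) (n : ℕ) : Submodule R (End R M) where
  carrier := {φ | ∀ v, ∃ w, φ v = ϖ ^ n • w}
  zero_mem' v := ⟨0, by simp⟩
  add_mem' := by
    intro φ ψ hφ hψ v
    obtain ⟨w, hw⟩ := hφ v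
    obtain ⟨w', hw'⟩ := hψ v
    exact ⟨w + w', by rw [LinearMap.add_apply, hw, hw', smul_add]⟩
  smul_mem' := by
    intro r φ hφ v
    obtain ⟨w, hw⟩ := hφ v
    exact ⟨r • w, by rw [LinearMap.smul_apply, hw, smul_comm]⟩

lemma mem_congEnd {ϖ : R} {n : ℕ} {φ : End R M} :
    φ ∈ congEnd (M := M) ϖ n ↔ ∀ v, ∃ w, φ v = ϖ ^ n • w := Iff.rfl

lemma mul_mem_congEnd_left {ϖ : R} {n : ℕ} {φ : End R M} (ψ : End R M)
    (hφ : φ ∈ congEnd (M := M) ϖ n) : ψ * φ ∈ congEnd (M := M) ϖ n := by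
  intro v
  obtain ⟨w, hw⟩ := hφ v
  exact ⟨ψ w, by rw [Module.End.mul_apply, hw, map_smul]⟩

lemma mul_mem_congEnd_right {ϖ : R} {n : ℕ} {φ : End R M} (ψ : End R M)
    (hφ : φ ∈ congEnd (M := M) ϖ n) : φ * ψ ∈ congEnd (M := M) ϖ n := by
  intro v
  obtain ⟨w, hw⟩ := hφ (ψ v)
  exact ⟨w, by rw [Module.End.mul_apply, hw]⟩

lemma smul_one_mem_congEnd {ϖ : R} {n : ℕ} {r : R} (hr : ϖ ^ n ∣ r) :
    r • (1 : End R M) ∈ congEnd (M := M) ϖ n := by
  intro v
  obtain ⟨t, rfl⟩ := hr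
  exact ⟨t • v, by rw [LinearMap.smul_apply, Module.End.one_apply, mul_smul]⟩

/-- **Separatedness**: an endomorphism of a finite free module which is a scalar modulo `ϖⁿ` for
every `n` is a scalar, if `⋂ ϖⁿR = 0`. -/
theorem exists_eq_smul_one_of_forall_cong [Module.Free R M] [Module.Finite R M] {ϖ : R}
    (hsep : ∀ r : R, (∀ n, ϖ ^ n ∣ r) → r = 0) (φ : End R M)
    (h : ∀ n, ∃ s : R, φ - s • (1 : End R M) ∈ congEnd (M := M) ϖ n) :
    ∃ s : R, φ = s • (1 : End R M) := by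
  classical
  let b := Module.Free.chooseBasis R M
  -- the matrix coefficients
  have hcoef : ∀ n, ∃ s : R, ∀ i k, ϖ ^ n ∣ b.repr (φ (b i)) k - (if k = i then s else 0) := by
    intro n
    obtain ⟨s, hs⟩ := h n
    refine ⟨s, fun i k => ?_⟩
    obtain ⟨w, hw⟩ := hs (b i)
    refine ⟨b.repr w k, ?_⟩
    have h1 := congrArg (fun x => b.repr x k) hw
    simp only [LinearMap.sub_apply, LinearMap.smul_apply, Module.End.one_apply, map_sub, map_smul,
      Finsupp.coe_sub, Finsupp.coe_smul, Pi.sub_apply, Pi.smul_apply, smul_eq_mul,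
      b.repr_self, Finsupp.single_apply] at h1
    rw [← h1]
    split_ifs with h2 h3 h3
    · simp
    · exact absurd h2.symm h3
    · exact absurd h3.symm h2
    · simp
  have hoff : ∀ i k, k ≠ i → b.repr (φ (b i)) k = 0 := by
    intro i k hki
    apply hsep
    intro n
    obtain ⟨s, hs⟩ := hcoef n
    have := hs i k
    rwa [if_neg hki, sub_zero] at this
  by_cases hne : Nonempty (Module.Free.ChooseBasisIndex R M)
  swap
  · refine ⟨0, ?_⟩
    rw [zero_smul]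
    apply b.ext
    intro i
    exact absurd ⟨i⟩ hne
  obtain ⟨i₀⟩ := hne
  have hdiag : ∀ i, b.repr (φ (b i)) i = b.repr (φ (b i₀)) i₀ := by
    intro i
    rw [← sub_eq_zero]
    apply hsep
    intro n
    obtain ⟨s, hs⟩ := hcoef n
    have h1 := hs i i
    have h2 := hs i₀ i₀
    rw [if_pos rfl] at h1 h2
    have := dvd_sub h1 h2
    rwa [sub_sub_sub_cancel_right] at this
  refine ⟨b.repr (φ (b i₀)) i₀, ?_⟩
  apply b.ext
  intro i
  apply b.repr.injective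
  ext k
  rw [LinearMap.smul_apply, Module.End.one_apply, map_smul, Finsupp.smul_apply, b.repr_self,
    Finsupp.single_apply, smul_eq_mul]
  by_cases hki : k = i
  · subst hki
    rw [if_pos rfl, mul_one, hdiag]
  · rw [hoff i k hki, if_neg (Ne.symm hki), mul_zero]

end Congruence

section Closed

variable {R : Type*} [CommRing R] {G : Type*} [Group G] {M : Type*} [AddCommGroup M] [Module R M]

/-- `ϖ`-adic continuity of an action with respect to a family of subgroups. -/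
def AdicCont (𝒰 : Set (Subgroup G)) (ϖ : R) (ρ : G →* End R M) : Prop :=
  ∀ n : ℕ, ∃ U ∈ 𝒰, ∀ σ ∈ U, ρ σ - 1 ∈ congEnd (M := M) ϖ n

/-- `ϖ`-adic continuity of a character with respect to a family of subgroups. -/
def AdicContChar (𝒰 : Set (Subgroup G)) (ϖ : R) (χ : G →* Rˣ) : Prop :=
  ∀ n : ℕ, ∃ U ∈ 𝒰, ∀ σ ∈ U, ϖ ^ n ∣ ((χ σ : Rˣ) : R) - 1

variable {𝒰 : Set (Subgroup G)} {ϖ : R} {ρ : G →* End R M} {χ : G →* Rˣ}

/-- **Closedness of the operator identity.** -/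
theorem exists_opIdentity [Module.Free R M] [Module.Finite R M]
    (hsep : ∀ r : R, (∀ n, ϖ ^ n ∣ r) → r = 0)
    (hdir : ∀ U ∈ 𝒰, ∀ V ∈ 𝒰, ∃ W ∈ 𝒰, W ≤ U ⊓ V)
    (hρ : AdicCont 𝒰 ϖ ρ) (hχ : AdicContChar 𝒰 ϖ χ)
    (Frob : Set G) (a : G → R)
    (hquad : ∀ f ∈ Frob, ρ f * ρ f - a f • ρ f + ((χ f : Rˣ) : R) • (1 : End R M) = 0)
    (hdense : ∀ g : G, ∀ U ∈ 𝒰, ∃ f ∈ Frob, ∃ j : ℕ, ∃ u ∈ U, g = f ^ j * u) (g : G) :
    ∃ s : R, ρ g + ((χ g : Rˣ) : R) • ρ g⁻¹ = s • (1 : End R M) := by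
  apply exists_eq_smul_one_of_forall_cong hsep
  intro n
  obtain ⟨U₁, hU₁, h1⟩ := hρ n
  obtain ⟨U₂, hU₂, h2⟩ := hχ n
  obtain ⟨W, hW, hWle⟩ := hdir U₁ hU₁ U₂ hU₂
  obtain ⟨f, hf, j, u, hu, rfl⟩ := hdense g W hW
  have hu1 : u ∈ U₁ := (hWle hu).1
  have hu2 : u ∈ U₂ := (hWle hu).2
  have hid := opIdentity_pow_ring (ρ := ρ) (χ := χ) f (a f)
    (opIdentity_of_quadratic f (a f) (hquad f hf)) j
  refine ⟨dicksonR (a f) ((χ f : Rˣ) : R) j, ?_⟩
  rw [← hid]
  -- the difference of the two operators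
  have e1 : ρ (f ^ j * u) - ρ (f ^ j) = ρ (f ^ j) * (ρ u - 1) := by
    rw [map_mul, mul_sub, mul_one]
  have hχu : ((χ (f ^ j * u) : Rˣ) : R) = ((χ (f ^ j) : Rˣ) : R) * ((χ u : Rˣ) : R) := by
    rw [map_mul, Units.val_mul]
  have e2 : ((χ (f ^ j * u) : Rˣ) : R) • ρ (f ^ j * u)⁻¹ - ((χ (f ^ j) : Rˣ) : R) • ρ (f ^ j)⁻¹ =
      ((χ (f ^ j) : Rˣ) : R) • (((((χ u : Rˣ) : R) - 1) • ρ u⁻¹ + (ρ u⁻¹ - 1)) * ρ (f ^ j)⁻¹) := by
    rw [hχu, mul_inv_rev, map_mul, add_mul, sub_mul, one_mul, smul_mul_assoc, sub_smul, one_smul,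
      mul_smul]
    rw [smul_add, smul_sub, smul_sub]
    abel
  have hmem1 : ρ (f ^ j * u) - ρ (f ^ j) ∈ congEnd (M := M) ϖ n := by
    rw [e1]
    exact mul_mem_congEnd_left _ (h1 u hu1)
  have hmem2 : ((χ (f ^ j * u) : Rˣ) : R) • ρ (f ^ j * u)⁻¹ -
      ((χ (f ^ j) : Rˣ) : R) • ρ (f ^ j)⁻¹ ∈ congEnd (M := M) ϖ n := by
    rw [e2]
    refine Submodule.smul_mem _ _ (mul_mem_congEnd_right _ (Submodule.add_mem _ ?_ ?_))
    · have h3 := smul_one_mem_congEnd (M := M) (h2 u hu2)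
      have h4 := mul_mem_congEnd_right (ρ u⁻¹) h3
      rwa [smul_mul_assoc, one_mul] at h4
    · exact h1 u⁻¹ (U₁.inv_mem hu1)
  have := Submodule.add_mem _ hmem1 hmem2
  convert this using 1
  abel

end Closed

end Fermat.Agent.N4F.Adic.OpIdentityClosed
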