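/-
N4-FULL / S31 (helper20): **lattice-side lemmas for the unramifiedness of the Hecke-algebra-valued
representation** (statement S31), all elementary.

* `dseq a b k`       : the Dickson sequence `E_0 = 2, E_1 = a, E_{k+2} = a E_{k+1} - b E_k` in an
  arbitrary (noncommutative) ring, `b : ℕ`; `map_dseq` (ring homomorphisms), `dseq_eq_dicksonSeq`
  (commutative rings), `pow_add_pow_eq_dseq`, `pow_add_natCast_mul_pow_eq_dseq`
  (`F^k + b^k F^{-k} = E_k(h, b)` if `F² - h F + b = 0`, `F` invertible — `h` NOT central);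
* `map_dseq_apply`   : transport of `dseq` through an equivariant additive map;
* `saturated_pow`    : `f` injective modulo `p` (between torsion-free modules) is injective modulo
  `p ^ M`, in the divisibility form;
* `exists_end_smul_eq` : an endomorphism of a finite free `ℤ`-module with values in `d Λ` is `d ψ`;
* `exists_artinRees` : **the key lemma** (Artin–Rees): for a commuting family `t` of endomorphisms of a
  finite free `ℤ`-module there is `c` such that `P(t) ∈ d^{n+c} End Λ ⇒ P(t) = d^n Q(t)`.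
-/
import Mathlib
import Fermat.Agent.N4F.Tors.Occurrence
import Fermat.Agent.N4.FrobDensity.Dickson

set_option autoImplicit false

namespace Fermat.Agent.N4F.Adic.S31Lattice

open Fermat.Agent.N4F.Tors.Occurrence Fermat.Agent.N4.FrobDensity

/-! ### The Dickson sequence in an arbitrary ring -/

section DSeq

variable {S : Type*} [Ring S]

/-- `E_0 = 2`, `E_1 = a`, `E_{k+2} = a E_{k+1} - b E_k`. -/
def dseq (a : S) (b : ℕ) : ℕ → S
  | 0 => 2
  | 1 => a
  | (k + 2) => a * dseq a b (k + 1) - (b : S) * dseq a b k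

@[simp] theorem dseq_zero (a : S) (b : ℕ) : dseq a b 0 = 2 := rfl

@[simp] theorem dseq_one (a : S) (b : ℕ) : dseq a b 1 = a := rfl

theorem dseq_add_two (a : S) (b : ℕ) (k : ℕ) :
    dseq a b (k + 2) = a * dseq a b (k + 1) - (b : S) * dseq a b k := rfl

theorem map_dseq {S' F : Type*} [Ring S'] [FunLike F S S'] [RingHomClass F S S'] (φ : F) (a : S)
    (b : ℕ) (k : ℕ) : φ (dseq a b k) = dseq (φ a) b k := by
  induction k using Nat.twoStepInduction with
  | zero => rw [dseq_zero, dseq_zero, map_ofNat]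
  | one => rfl
  | more k ih0 ih1 =>
    rw [dseq_add_two, map_sub, map_mul, map_mul, map_natCast, ih0, ih1, dseq_add_two]

theorem dseq_eq_dicksonSeq {R : Type*} [CommRing R] (a : R) (b : ℕ) (k : ℕ) :
    dseq a b k = dicksonSeq a (b : R) k := by
  induction k using Nat.twoStepInduction with
  | zero => rfl
  | one => rfl
  | more k ih0 ih1 => rw [dseq_add_two, dicksonSeq_add_two, ih0, ih1]

/-- Power sums of two commuting elements with product `b`. -/
theorem pow_add_pow_eq_dseq (x y : S) (b : ℕ) (hc : Commute x y) (hp : x * y = (b : S)) (k : ℕ) :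
    x ^ k + y ^ k = dseq (x + y) b k := by
  induction k using Nat.twoStepInduction with
  | zero => rw [pow_zero, pow_zero, dseq_zero, one_add_one_eq_two]
  | one => rw [pow_one, pow_one, dseq_one]
  | more k ih0 ih1 =>
    rw [dseq_add_two, ← ih0, ← ih1, ← hp]
    have h1 : y * x ^ (k + 1) = x * y * x ^ k := by
      rw [pow_succ', ← mul_assoc, hc.eq]
    have h2 : x * y ^ (k + 1) = x * y * y ^ k := by
      rw [pow_succ', mul_assoc]
    rw [add_mul, mul_add, mul_add, mul_add, h1, h2, pow_succ' x (k + 1), pow_succ' y (k + 1)]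
    abel

/-- If `F² - h F + b = 0` and `F` is invertible then `F^k + b^k F^{-k} = E_k(h, b)`; `h` need not
be central. -/
theorem pow_add_natCast_mul_pow_eq_dseq (F Finv h : S) (b : ℕ) (h1 : F * Finv = 1)
    (h2 : Finv * F = 1) (hq : F * F - h * F + (b : S) = 0) (k : ℕ) :
    F ^ k + (b : S) ^ k * Finv ^ k = dseq h b k := by
  have hs : F + (b : S) * Finv = h := by
    have h3 : (F * F - h * F + (b : S)) * Finv = 0 := by rw [hq, zero_mul]
    rw [add_mul, sub_mul, mul_assoc, h1, mul_one, mul_assoc, h1, mul_one] at h3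
    have h4 : F + (b : S) * Finv = F - h + (b : S) * Finv + h := by abel
    rw [h4, h3, zero_add]
  have hp : F * ((b : S) * Finv) = (b : S) := by
    rw [← mul_assoc, ← (Nat.cast_commute b F).eq, mul_assoc, h1, mul_one]
  have hc : Commute F ((b : S) * Finv) := by
    rw [Commute, SemiconjBy, hp, mul_assoc, h2, mul_one]
  have h5 := pow_add_pow_eq_dseq F ((b : S) * Finv) b hc hp k
  rw [hs, (Nat.cast_commute b Finv).mul_pow] at h5
  exact h5

end DSeq

/-! ### Transport through an equivariant additive map -/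

section Transport

variable {Λ W : Type*} [AddCommGroup Λ] [AddCommGroup W] {R : Type*} [CommRing R] [Module R W]

/-- An additive map intertwining `a` and `h` intertwines `E_k(a, b)` and `E_k(h, b)`. -/
theorem map_dseq_apply (f : Λ →+ W) (a : Module.End ℤ Λ) (h : Module.End R W)
    (hah : ∀ z, f (a z) = h (f z)) (b : ℕ) (k : ℕ) (z : Λ) :
    f (dseq a b k z) = dseq h b k (f z) := by
  induction k using Nat.twoStepInduction with
  | zero =>
    rw [dseq_zero, dseq_zero, ← one_add_one_eq_two, ← one_add_one_eq_two, LinearMap.add_apply,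
      LinearMap.add_apply, Module.End.one_apply, Module.End.one_apply, map_add]
  | one => rw [dseq_one, dseq_one, hah]
  | more k ih0 ih1 =>
    rw [dseq_add_two, dseq_add_two, LinearMap.sub_apply, LinearMap.sub_apply, map_sub,
      Module.End.mul_apply, Module.End.mul_apply, Module.End.mul_apply, Module.End.mul_apply,
      hah, ih1, Module.End.natCast_apply, Module.End.natCast_apply, map_nsmul, ih0]

end Transport

/-! ### Saturation -/

section Saturation

variable (p : ℕ) [Fact p.Prime] {Λ W : Type*} [AddCommGroup Λ] [AddCommGroup W]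
  [Module ℤ_[p] W] [Module.IsTorsionFree ℤ_[p] W]

/-- If `f x ∈ p W ⇒ x ∈ p Λ` then `f x ∈ p ^ M W ⇒ x ∈ p ^ M Λ`. -/
theorem saturated_pow (f : Λ →+ W)
    (hfp : ∀ x, (∃ w, f x = (p : ℤ_[p]) • w) → ∃ y, x = (p : ℤ) • y) :
    ∀ (M : ℕ) (x : Λ), (∃ w, f x = (p : ℤ_[p]) ^ M • w) → ∃ y, x = ((p : ℤ) ^ M) • y := by
  have hp : (p : ℤ_[p]) ≠ 0 := by exact_mod_cast (Fact.out : p.Prime).ne_zero
  intro M
  induction M with
  | zero =>
    intro x _
    exact ⟨x, by rw [pow_zero, one_smul]⟩
  | succ M ih =>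
    rintro x ⟨w, hw⟩
    obtain ⟨y₁, hy₁⟩ := hfp x ⟨(p : ℤ_[p]) ^ M • w, by rw [hw, pow_succ', mul_smul]⟩
    have h1 : f x = (p : ℤ_[p]) • f y₁ := by
      rw [hy₁, map_zsmul, ← Int.cast_smul_eq_zsmul ℤ_[p], Int.cast_natCast]
    have h2 : f y₁ = (p : ℤ_[p]) ^ M • w := by
      apply smul_right_injective W hp
      show (p : ℤ_[p]) • f y₁ = (p : ℤ_[p]) • ((p : ℤ_[p]) ^ M • w)
      rw [← h1, hw, pow_succ', mul_smul]
    obtain ⟨y₂, hy₂⟩ := ih y₁ ⟨w, h2⟩
    exact ⟨y₂, by rw [hy₁, hy₂, pow_succ', mul_smul]⟩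

end Saturation

/-! ### Divisible endomorphisms of a free module -/

section Divisible

variable {Λ : Type*} [AddCommGroup Λ] [Module.Free ℤ Λ]

/-- An endomorphism of a free `ℤ`-module with values in `d Λ` is `d` times an endomorphism. -/
theorem exists_end_smul_eq (d : ℤ) (E : Module.End ℤ Λ) (hE : ∀ z, ∃ y, E z = d • y) :
    ∃ ψ : Module.End ℤ Λ, E = d • ψ := by
  classical
  let b := Module.Free.chooseBasis ℤ Λ
  choose y hy using fun i => hE (b i)
  refine ⟨b.constr ℤ y, ?_⟩
  apply b.ext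
  intro i
  rw [LinearMap.smul_apply, Module.Basis.constr_basis, hy]

end Divisible

/-! ### The key lemma -/

section KeyLemma

variable {Λ : Type*} [AddCommGroup Λ] [Module.Free ℤ Λ] [Module.Finite ℤ Λ]
  {I : Type*} (t : I → Module.End ℤ Λ) (ht : ∀ i j, Commute (t i) (t j))

/-- **Key lemma (Artin–Rees).** There is `c` such that every `P(t)` divisible by `d ^ (n + c)` in
`End Λ` is `d ^ n` times some `Q(t)`. -/
theorem exists_artinRees (d : ℤ) :
    ∃ c : ℕ, ∀ (n : ℕ) (P : MvPolynomial I ℤ) (ψ : Module.End ℤ Λ),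
      polyAct (R := ℤ) t ht P = (d ^ (n + c)) • ψ →
        ∃ Q : MvPolynomial I ℤ, polyAct (R := ℤ) t ht P = (d ^ n) • polyAct (R := ℤ) t ht Q := by
  obtain ⟨c, hc⟩ := Ideal.exists_pow_inf_eq_pow_smul (Ideal.span {d})
    (LinearMap.range (polyAct (R := ℤ) t ht).toLinearMap)
  refine ⟨c, fun n P ψ hP => ?_⟩
  have h1 : polyAct (R := ℤ) t ht P ∈
      (Ideal.span {d} ^ (n + c) • ⊤ ⊓ LinearMap.range (polyAct (R := ℤ) t ht).toLinearMap :
        Submodule ℤ (Module.End ℤ Λ)) := by
    refine ⟨?_, ⟨P, rfl⟩⟩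
    rw [hP]
    exact Submodule.smul_mem_smul (Ideal.pow_mem_pow (Ideal.mem_span_singleton_self d) _)
      Submodule.mem_top
  rw [hc (n + c) (Nat.le_add_left c n), Nat.add_sub_cancel] at h1
  have h2 : (Ideal.span {d} ^ n • (Ideal.span {d} ^ c • ⊤ ⊓
      LinearMap.range (polyAct (R := ℤ) t ht).toLinearMap) : Submodule ℤ (Module.End ℤ Λ)) ≤
        Ideal.span {d} ^ n • LinearMap.range (polyAct (R := ℤ) t ht).toLinearMap :=
    Submodule.smul_mono le_rfl inf_le_right
  have h3 := h2 h1
  rw [Ideal.span_singleton_pow, Submodule.ideal_span_singleton_smul,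
    Submodule.mem_smul_pointwise_iff_exists] at h3
  obtain ⟨e, ⟨Q, hQ⟩, he⟩ := h3
  exact ⟨Q, by rw [← he, ← hQ]; rfl⟩

end KeyLemma

end Fermat.Agent.N4F.Adic.S31Lattice
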