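/-
N4-FULL / S31 (helper20): **trace lemmas and the Burnside argument.**

* `trace_pow_eq_dicksonSeq`   : rank two, `charpoly E = X² - a X + b` ⇒ `tr (E ^ m) = D_m(a, b)`;
* `trace_mem_of_mem_smallEnd` : the trace of an endomorphism with image in `J • V` lies in `J`;
* `eq_zero_of_forall_sum_eq_zero` : vectors over a local ring `R` whose images span `K ^ ι` over a
  field `K` (via `R → K` killing the maximal ideal) detect `z = 0` by `∑ s_i z_i = 0`;
* `eq_zero_of_forall_trace_mul_eq_zero` : if the matrices of `ρ g` span `M₂(K)` then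
  `tr (Z ρ(g)) = 0 ∀ g ⇒ Z = 0`;
* `eq_one_of_forall_trace_eq` : **an absolutely irreducible (residually) `ρ : GaloisRepAdic R` and `τ`
  with `tr ρ(τ g) = tr ρ(g)` for all `g` ⇒ `ρ(τ) = 1`** (Burnside).
-/
import Mathlib
import Fermat.Prelude.Def_GaloisRep_Adic
import Fermat.Agent.N4F.G.Burnside
import Fermat.Agent.N4.FrobDensity.AdicDensity

set_option autoImplicit false

open Polynomial

namespace Fermat.Agent.N4F.Adic.S31Trace

open Fermat.Agent.N4.FrobDensity

/-! ### Traces of powers -/

section TracePow

variable {R : Type*} [CommRing R] [Nontrivial R] {V : Type*} [AddCommGroup V] [Module R V]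
  [Module.Free R V] [Module.Finite R V]

/-- The trace of an endomorphism of a free module of rank two from its characteristic polynomial. -/
theorem trace_eq_of_charpoly (hV : Module.finrank R V = 2) (E : Module.End R V) (a b : R)
    (hE : LinearMap.charpoly E = X ^ 2 - C a * X + C b) : LinearMap.trace R V E = a := by
  classical
  let bs : Module.Basis (Fin 2) R V := Module.finBasisOfFinrankEq R V hV
  rw [LinearMap.trace_eq_matrix_trace R bs, Matrix.trace_eq_neg_charpoly_coeff,
    LinearMap.charpoly_toMatrix, hE, Fintype.card_fin]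
  simp [coeff_C]

/-- `tr (E ^ m) = D_m(a, b)` if `charpoly E = X² - a X + b` in rank two. -/
theorem trace_pow_eq_dicksonSeq (hV : Module.finrank R V = 2) (E : Module.End R V) (a b : R)
    (hE : LinearMap.charpoly E = X ^ 2 - C a * X + C b) (m : ℕ) :
    LinearMap.trace R V (E ^ m) = dicksonSeq a b m := by
  have hCH : E ^ 2 = a • E - b • (1 : Module.End R V) := by
    have h1 := LinearMap.aeval_self_charpoly E
    rw [hE] at h1
    simp only [map_add, map_sub, map_mul, map_pow, aeval_X, aeval_C,
      Algebra.algebraMap_eq_smul_one, smul_mul_assoc, one_mul] at h1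
    rw [← sub_eq_zero, ← h1]
    abel
  induction m using Nat.twoStepInduction with
  | zero =>
    rw [pow_zero, LinearMap.trace_one, hV, dicksonSeq_zero]
    norm_num
  | one => rw [pow_one, dicksonSeq_one, trace_eq_of_charpoly hV E a b hE]
  | more m ih0 ih1 =>
    have h2 : E ^ (m + 2) = a • E ^ (m + 1) - b • E ^ m := by
      rw [pow_add, hCH, mul_sub, mul_smul_comm, mul_smul_comm, mul_one, ← pow_succ]
    rw [h2, map_sub, map_smul, map_smul, ih0, ih1, dicksonSeq_add_two, smul_eq_mul, smul_eq_mul]

end TracePow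

/-! ### Traces of small endomorphisms -/

section TraceSmall

variable {R : Type*} [CommRing R] {V : Type*} [AddCommGroup V] [Module R V]
  [Module.Free R V] [Module.Finite R V]

/-- The trace of an endomorphism with image in `J • V` lies in `J`. -/
theorem trace_mem_of_mem_smallEnd (J : Ideal R) (E : Module.End R V) (hE : E ∈ smallEnd J) :
    LinearMap.trace R V E ∈ J := by
  classical
  let bs := Module.Free.chooseBasis R V
  rw [LinearMap.trace_eq_matrix_trace R bs, Matrix.trace]
  refine Ideal.sum_mem _ fun i _ => ?_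
  rw [Matrix.diag_apply, LinearMap.toMatrix_apply]
  exact repr_mem_of_mem_smul_top bs J (hE (bs i)) i

end TraceSmall

/-! ### Detecting zero over a local ring -/

section Detect

variable {R : Type*} [CommRing R] [IsLocalRing R] {K : Type*} [Field K] (φ : R →+* K)
  (hφ : ∀ x ∈ IsLocalRing.maximalIdeal R, φ x = 0)
  {ι : Type*} [Fintype ι] [DecidableEq ι] {κ : Type*}

include hφ in
/-- If the images in `K ^ ι` of the vectors `s a ∈ R ^ ι` span, then `∑ i, s a i * z i = 0` for all
`a` forces `z = 0`. -/
theorem eq_zero_of_forall_sum_eq_zero (s : κ → ι → R)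
    (hspan : Submodule.span K (Set.range fun a => fun i => φ (s a i)) = ⊤)
    (z : ι → R) (hz : ∀ a, ∑ i, s a i * z i = 0) : z = 0 := by
  classical
  have : Module.Finite K (Submodule.span K (Set.range fun a => fun i => φ (s a i))) := by
    rw [hspan]
    infer_instance
  obtain ⟨f, hf, -, hli⟩ := Submodule.exists_fun_fin_finrank_span_eq K
    (Set.range fun a => fun i => φ (s a i))
  have hd : Module.finrank K (Submodule.span K (Set.range fun a => fun i => φ (s a i)))
      = Fintype.card ι := by
    rw [hspan, finrank_top, Module.finrank_fintype_fun_eq_card]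
  -- reindex by `ι`
  let e : ι ≃ Fin (Module.finrank K (Submodule.span K (Set.range fun a => fun i => φ (s a i)))) :=
    (Fintype.equivFin ι).trans (finCongr hd.symm)
  have hli' : LinearIndependent K (fun a : ι => f (e a)) := hli.comp e e.injective
  choose a ha using fun j : ι => hf (e j)
  -- the matrix of the chosen vectors
  obtain ⟨A, hA⟩ : ∃ A : Matrix ι ι R, ∀ j i, A j i = s (a j) i := ⟨fun j i => s (a j) i, fun _ _ => rfl⟩
  have hAφ : (φ.mapMatrix A).row = fun j : ι => f (e j) := by
    funext j
    rw [← ha j]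
    funext i
    show φ (A j i) = φ (s (a j) i)
    rw [hA]
  have hunit : IsUnit (φ.mapMatrix A) := by
    rw [← Matrix.linearIndependent_rows_iff_isUnit, hAφ]
    exact hli'
  have hdet : IsUnit A.det := by
    have h1 : φ A.det ≠ 0 := by
      rw [RingHom.map_det]
      exact ((Matrix.isUnit_iff_isUnit_det _).mp hunit).ne_zero
    by_contra hnu
    exact h1 (hφ _ ((IsLocalRing.mem_maximalIdeal _).mpr hnu))
  have hAz : A.mulVec z = 0 := by
    funext j
    show ∑ i, A j i * z i = 0
    simp only [hA]
    exact hz (a j)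
  have h2 : z = A⁻¹.mulVec (A.mulVec z) := by
    rw [Matrix.mulVec_mulVec, Matrix.nonsing_inv_mul A hdet, Matrix.one_mulVec]
  rw [h2, hAz, Matrix.mulVec_zero]

end Detect

/-! ### Trace pairing against a spanning representation -/

section TracePairing

variable {R : Type*} [CommRing R] [IsLocalRing R] {K : Type*} [Field K] (φ : R →+* K)
  (hφ : ∀ x ∈ IsLocalRing.maximalIdeal R, φ x = 0)
  {V : Type*} [AddCommGroup V] [Module R V] {n : Type*} [Fintype n] [DecidableEq n]
  (bs : Module.Basis n R V) {G : Type*}

include hφ in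
/-- If the matrices of the `ρ g` span `M_n(K)` then `tr (Z ρ(g)) = 0` for all `g` forces `Z = 0`. -/
theorem eq_zero_of_forall_trace_mul_eq_zero (ρ : G → Module.End R V)
    (hspan : Submodule.span K (Set.range fun g => φ.mapMatrix (LinearMap.toMatrix bs bs (ρ g))) = ⊤)
    (Z : Module.End R V) (hZ : ∀ g, LinearMap.trace R V (Z * ρ g) = 0) : Z = 0 := by
  classical
  -- flatten
  have hspan' : Submodule.span K (Set.range fun g => fun ij : n × n =>
      φ (LinearMap.toMatrix bs bs (ρ g) ij.1 ij.2)) = ⊤ := by
    let ε : Matrix n n K ≃ₗ[K] (n × n → K) :=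
      (Matrix.ofLinearEquiv K).symm.trans (LinearEquiv.curry K K n n).symm
    have h1 := congrArg (Submodule.map ε.toLinearMap) hspan
    rw [Submodule.map_span, Submodule.map_top, LinearMap.range_eq_top.mpr ε.surjective,
      ← Set.range_comp] at h1
    exact h1
  have hz := eq_zero_of_forall_sum_eq_zero φ hφ
    (fun g => fun ij : n × n => LinearMap.toMatrix bs bs (ρ g) ij.1 ij.2) hspan'
    (fun ij : n × n => LinearMap.toMatrix bs bs Z ij.2 ij.1) (by
      intro g
      have h1 := hZ g
      rw [LinearMap.trace_mul_comm, LinearMap.trace_eq_matrix_trace R bs,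
        LinearMap.toMatrix_mul, Matrix.trace] at h1
      rw [Fintype.sum_prod_type, ← h1]
      refine Finset.sum_congr rfl fun i _ => ?_
      rw [Matrix.diag_apply, Matrix.mul_apply])
  apply (LinearMap.toMatrix bs bs).injective
  rw [map_zero]
  ext i j
  exact congrFun hz (j, i)

end TracePairing

/-! ### The Burnside argument -/

section BurnsideArg

open scoped TensorProduct

local notation "Γ" => (AlgebraicClosure ℚ ≃ₐ[ℚ] AlgebraicClosure ℚ)

variable {R : Type} [CommRing R] [IsLocalRing R]

/-- **Burnside.** If the residual representation of `ρ` is absolutely irreducible and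
`tr ρ(τ g) = tr ρ(g)` for all `g`, then `ρ(τ) = 1`. -/
theorem eq_one_of_forall_trace_eq (ρ : GaloisRepAdic R)
    (habs : ρ.residual.IsAbsolutelyIrreducible) (τ : Γ)
    (hτ : ∀ g : Γ, LinearMap.trace R ρ.V (ρ.ρ (τ * g)) = LinearMap.trace R ρ.V (ρ.ρ g)) :
    ρ.ρ τ = 1 := by
  classical
  -- the residue map into the algebraic closure of the residue field
  obtain ⟨φ, hφdef⟩ : ∃ φ : R →+* AlgebraicClosure (IsLocalRing.ResidueField R),
      φ = (algebraMap (IsLocalRing.ResidueField R)
        (AlgebraicClosure (IsLocalRing.ResidueField R))).comp (IsLocalRing.residue R) := ⟨_, rfl⟩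
  have hφ : ∀ x ∈ IsLocalRing.maximalIdeal R, φ x = 0 := by
    intro x hx
    rw [hφdef, RingHom.comp_apply, (IsLocalRing.residue_eq_zero_iff x).mpr hx, map_zero]
  -- bases
  obtain ⟨bs⟩ : Nonempty (Module.Basis (Fin 2) R ρ.V) :=
    ⟨Module.finBasisOfFinrankEq R ρ.V ρ.finrank_eq⟩
  obtain ⟨bk, hbk⟩ : ∃ bk : Module.Basis (Fin 2) (IsLocalRing.ResidueField R)
      (IsLocalRing.ResidueField R ⊗[R] ρ.V),
      bk = Algebra.TensorProduct.basis (IsLocalRing.ResidueField R) bs := ⟨_, rfl⟩
  obtain ⟨bK, hbK⟩ : ∃ bK : Module.Basis (Fin 2) (AlgebraicClosure (IsLocalRing.ResidueField R))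
      (AlgebraicClosure (IsLocalRing.ResidueField R) ⊗[IsLocalRing.ResidueField R]
        (IsLocalRing.ResidueField R ⊗[R] ρ.V)),
      bK = Algebra.TensorProduct.basis (AlgebraicClosure (IsLocalRing.ResidueField R)) bk :=
    ⟨_, rfl⟩
  -- Burnside over the algebraic closure
  have hfr := (ρ.residual.baseChange (AlgebraicClosure (IsLocalRing.ResidueField R))).finrank_eq
  have : Nontrivial (ρ.residual.baseChange (AlgebraicClosure (IsLocalRing.ResidueField R))).V :=
    Module.nontrivial_of_finrank_eq_succ hfr
  have hB := Fermat.Agent.N4F.G.Burnside.span_range_eq_top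
    (ρ.residual.baseChange (AlgebraicClosure (IsLocalRing.ResidueField R))).ρ habs
  have hB' : Submodule.span (AlgebraicClosure (IsLocalRing.ResidueField R))
      (Set.range fun g : Γ => (((ρ.ρ g).baseChange (IsLocalRing.ResidueField R)).baseChange
        (AlgebraicClosure (IsLocalRing.ResidueField R)) :
          Module.End (AlgebraicClosure (IsLocalRing.ResidueField R))
            (AlgebraicClosure (IsLocalRing.ResidueField R) ⊗[IsLocalRing.ResidueField R]
              (IsLocalRing.ResidueField R ⊗[R] ρ.V)))) = ⊤ := hB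
  -- in matrix form
  have hmat : ∀ g : Γ, LinearMap.toMatrix bK bK
      (((ρ.ρ g).baseChange (IsLocalRing.ResidueField R)).baseChange
        (AlgebraicClosure (IsLocalRing.ResidueField R)))
        = φ.mapMatrix (LinearMap.toMatrix bs bs (ρ.ρ g)) := by
    intro g
    rw [hbK, LinearMap.toMatrix_baseChange, hbk, LinearMap.toMatrix_baseChange, hφdef]
    ext i j
    rfl
  have hspan : Submodule.span (AlgebraicClosure (IsLocalRing.ResidueField R))
      (Set.range fun g : Γ => φ.mapMatrix (LinearMap.toMatrix bs bs (ρ.ρ g))) = ⊤ := by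
    have h1 := congrArg (Submodule.map (LinearMap.toMatrix bK bK).toLinearMap) hB'
    rw [Submodule.map_span, Submodule.map_top, LinearMap.range_eq_top.mpr
      (LinearMap.toMatrix bK bK).surjective, ← Set.range_comp] at h1
    rw [← h1]
    congr 2
    funext g
    exact (hmat g).symm
  have hZ : ∀ g : Γ, LinearMap.trace R ρ.V ((ρ.ρ τ - 1) * ρ.ρ g) = 0 := by
    intro g
    rw [sub_mul, one_mul, ← map_mul, map_sub, hτ g, sub_self]
  have h0 := eq_zero_of_forall_trace_mul_eq_zero φ hφ bs (fun g : Γ => ρ.ρ g) hspan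
    (ρ.ρ τ - 1) hZ
  exact sub_eq_zero.mp h0

end BurnsideArg

end Fermat.Agent.N4F.Adic.S31Trace
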