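/-
N4-FULL / S31 (helper20): **unramifiedness of the Hecke-algebra-valued representation outside `S`,
from the Tate-module data `TateData p N`** (statement S31).

Let `ρ : GaloisRepAdic R` (`R` Noetherian local, `p ∈ 𝔪_R`) with
`charpoly ρ(Frob_ℓ) = X² - π(T_ℓ) X + ℓ` for `ℓ ∉ S`, `π : 𝕋 → R` a ring homomorphism, and with
absolutely irreducible residual representation.  Then `ρ` is unramified at every `q ∉ S`.

(A) `tr ρ(τ g) = tr ρ(g)` for `τ` in an inertia group at `q`: modulo `𝔪^n` both sides are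
    `D_m(π T_ℓ, ℓ)`, `D_{m'}(π T_ℓ', ℓ')` for Frobenius elements approximating `g`, `τ g` at a deep
    enough finite level (Frobenius-power density), and `D_m(T_ℓ, ℓ) ≡ D_{m'}(T_ℓ', ℓ') mod p^n 𝕋`
    because the corresponding operators on the Tate module are congruent modulo `p^M`
    (`gal(τ) = 1`, `χ(τ) = 1`), hence the ones on the lattice `Λ` too (saturation), hence the
    elements of `𝕋` (Artin–Rees + faithfulness).  Krull's intersection theorem concludes.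
(B) Burnside (`S31Trace.eq_one_of_forall_trace_eq`).
-/
import Mathlib
import Fermat.Prelude.Def_GaloisRep_Adic
import Fermat.Prelude.Def_CuspForm_HeckeAlgebra
import Fermat.Prelude.Def_CuspForm_HeckeGaloisRepDatum
import Fermat.Agent.N4F.Adic.TateData
import Fermat.Agent.N4F.Adic.S31Lattice
import Fermat.Agent.N4F.Adic.S31Trace
import Fermat.Agent.N4.FrobDensity.AdicDensity
import Fermat.Agent.N4.FrobDensity.CycloAdic

set_option autoImplicit false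
set_option linter.style.haveILetI false
set_option linter.unusedSectionVars false

open Polynomial

namespace Fermat.Agent.N4F.Adic.S31Assembly

open Fermat.Agent.N4F.Adic Fermat.Agent.N4F.Adic.S31Lattice Fermat.Agent.N4F.Adic.S31Trace
  Fermat.Agent.N4.FrobDensity Fermat.Agent.N4F.Tors.Occurrence CuspForm

local notation "Qbar" => AlgebraicClosure ℚ
local notation "Γ" => (AlgebraicClosure ℚ ≃ₐ[ℚ] AlgebraicClosure ℚ)

local instance isAlgebraicQbar_S31 : Algebra.IsAlgebraic ℚ (AlgebraicClosure ℚ) :=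
  AlgebraicClosure.isAlgebraic ℚ
local instance isAlgClosureQbar_S31 : IsAlgClosure ℚ (AlgebraicClosure ℚ) :=
  ⟨inferInstance, inferInstance⟩
local instance normalQbar_S31 : Normal ℚ (AlgebraicClosure ℚ) :=
  IsAlgClosure.normal ℚ (AlgebraicClosure ℚ)

/-! ### The congruence in the Hecke algebra -/

section Congruence

variable {p N : ℕ} [Fact p.Prime] [NeZero N] (D : TateData p N) (S : Set ℕ)

/-- The Hecke operators on the lattice indexed by `HeckeIdx N S`. -/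
def tI : HeckeIdx N S → Module.End ℤ D.Λ := fun i => D.t i.1

theorem tI_comm (i j : HeckeIdx N S) : Commute (tI D S i) (tI D S j) := D.t_comm i.1 j.1

/-- The Hecke operators `T_ℓ ∈ 𝕋`. -/
noncomputable def TI : HeckeIdx N S → heckeAlgebra N 2 S :=
  fun i => heckeAlgebra.T i.2.1 i.2.2.1 i.2.2.2

/-- **The congruence.**  For every `n` there is `M` such that every `P ∈ ℤ[X_ℓ]` with
`f ∘ P(t) ≡ 0 mod p^M` has `π(P(T)) ∈ 𝔪^n`. -/
theorem exists_pow_forall_aeval_mem {R : Type*} [CommRing R] (J : Ideal R) (hpJ : (p : R) ∈ J)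
    (π : heckeAlgebra N 2 S →+* R) (n : ℕ) :
    ∃ M : ℕ, ∀ P : MvPolynomial (HeckeIdx N S) ℤ,
      (∀ z : D.Λ, ∃ w : D.T,
        D.f (polyAct (R := ℤ) (tI D S) (tI_comm D S) P z) = (p : ℤ_[p]) ^ M • w) →
      π (MvPolynomial.aeval (TI S) P) ∈ J ^ n := by
  obtain ⟨c, hc⟩ := exists_artinRees (tI D S) (tI_comm D S) (p : ℤ)
  refine ⟨n + c, fun P hP => ?_⟩
  -- saturation
  have h1 : ∀ z : D.Λ, ∃ y : D.Λ,
      polyAct (R := ℤ) (tI D S) (tI_comm D S) P z = ((p : ℤ) ^ (n + c)) • y :=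
    fun z => saturated_pow p D.f D.f_mod (n + c) _ (hP z)
  obtain ⟨ψ, hψ⟩ := exists_end_smul_eq ((p : ℤ) ^ (n + c)) _ h1
  obtain ⟨Q, hQ⟩ := hc n P ψ hψ
  -- faithfulness
  have h2 : polyAct (R := ℤ) (tI D S) (tI_comm D S) (P - ((p : ℤ) ^ n) • Q) = 0 := by
    rw [map_sub, map_smul, hQ, sub_self]
  have h3 := D.faithful S (P - ((p : ℤ) ^ n) • Q) h2
  have h4 : MvPolynomial.aeval (TI S) P = ((p : ℤ) ^ n) • MvPolynomial.aeval (TI S) Q := by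
    have h5 : MvPolynomial.aeval (TI S) (P - ((p : ℤ) ^ n) • Q) = 0 := h3
    rw [map_sub, map_smul, sub_eq_zero] at h5
    exact h5
  rw [h4, zsmul_eq_mul, map_mul, map_intCast]
  refine Ideal.mul_mem_right _ _ ?_
  push_cast
  exact Ideal.pow_mem_pow hpJ n

end Congruence

/-! ### Levels and approximation by Frobenius powers -/

section Levels

/-- A common finite normal level for three properties holding on open subgroups. -/
theorem exists_normal_level_of_pred₃ (P₁ P₂ P₃ : Γ → Prop)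
    (h₁ : ∃ L : IntermediateField ℚ Qbar, FiniteDimensional ℚ L ∧
      ∀ σ : Γ, (∀ x ∈ L, σ x = x) → P₁ σ)
    (h₂ : ∃ L : IntermediateField ℚ Qbar, FiniteDimensional ℚ L ∧
      ∀ σ : Γ, (∀ x ∈ L, σ x = x) → P₂ σ)
    (h₃ : ∃ L : IntermediateField ℚ Qbar, FiniteDimensional ℚ L ∧
      ∀ σ : Γ, (∀ x ∈ L, σ x = x) → P₃ σ) :
    ∃ (L : IntermediateField ℚ Qbar) (_ : FiniteDimensional ℚ L) (_ : Normal ℚ L),
      (∀ γ : Γ, AlgEquiv.restrictNormalHom L γ = 1 → P₁ γ) ∧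
      (∀ γ : Γ, AlgEquiv.restrictNormalHom L γ = 1 → P₂ γ) ∧
      (∀ γ : Γ, AlgEquiv.restrictNormalHom L γ = 1 → P₃ γ) := by
  obtain ⟨L₁₂, hfd, hn, ha, hb⟩ := exists_normal_level_of_pred P₁ P₂ h₁ h₂
  have h₁₂ : ∃ L : IntermediateField ℚ Qbar, FiniteDimensional ℚ L ∧
      ∀ σ : Γ, (∀ x ∈ L, σ x = x) → (P₁ σ ∧ P₂ σ) :=
    ⟨L₁₂, hfd, fun σ hσ => ⟨ha σ (restrictNormalHom_eq_one_of_fixes L₁₂ hσ),
      hb σ (restrictNormalHom_eq_one_of_fixes L₁₂ hσ)⟩⟩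
  obtain ⟨L, hfd', hn', hc, hd⟩ := exists_normal_level_of_pred (fun σ => P₁ σ ∧ P₂ σ) P₃ h₁₂ h₃
  exact ⟨L, hfd', hn', fun γ hγ => (hc γ hγ).1, fun γ hγ => (hc γ hγ).2, hd⟩

variable {𝒪 : Type*} [CommRing 𝒪] {V : Type*} [AddCommGroup V] [Module 𝒪 V]
  (L : IntermediateField ℚ Qbar) [FiniteDimensional ℚ L] [Normal ℚ L] (J : Ideal 𝒪)
  (ρ : Γ →* Module.End 𝒪 V)
  (hρ : ∀ γ : Γ, AlgEquiv.restrictNormalHom L γ = 1 → ρ γ - 1 ∈ smallEnd J)

include hρ in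
/-- Elements with the same restriction to `L` have congruent images. -/
theorem sub_mem_smallEnd_of_restrict_eq {g ψ : Γ}
    (hm : AlgEquiv.restrictNormalHom L g = AlgEquiv.restrictNormalHom L ψ) :
    ρ g - ρ ψ ∈ smallEnd J := by
  have hker : AlgEquiv.restrictNormalHom L (ψ⁻¹ * g) = 1 := by
    rw [map_mul, map_inv, hm, inv_mul_cancel]
  have h1 : ρ g - ρ ψ = ρ ψ * (ρ (ψ⁻¹ * g) - 1) := by
    rw [mul_sub, mul_one, ← map_mul, mul_inv_cancel_left]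
  rw [h1]
  exact mul_mem_smallEnd_left _ (hρ _ hker)

include hρ in
/-- The operator `ρ(g) + χ(g) ρ(g)⁻¹` modulo `J` only depends on the restriction of `g` to `L`. -/
theorem opId_sub_mem_smallEnd (χ : Γ →* 𝒪ˣ)
    (hχ : ∀ γ : Γ, AlgEquiv.restrictNormalHom L γ = 1 → ((χ γ : 𝒪ˣ) : 𝒪) - 1 ∈ J) {g ψ : Γ}
    (hm : AlgEquiv.restrictNormalHom L g = AlgEquiv.restrictNormalHom L ψ) :
    ρ g + ((χ g : 𝒪ˣ) : 𝒪) • ρ g⁻¹ - (ρ ψ + ((χ ψ : 𝒪ˣ) : 𝒪) • ρ ψ⁻¹) ∈ smallEnd J := by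
  set τ : Γ := ψ⁻¹ * g with hτ
  have hker : AlgEquiv.restrictNormalHom L τ = 1 := by
    rw [hτ, map_mul, map_inv, hm, inv_mul_cancel]
  have hker' : AlgEquiv.restrictNormalHom L τ⁻¹ = 1 := by
    rw [map_inv, hker, inv_one]
  have hg : g = ψ * τ := by rw [hτ, mul_inv_cancel_left]
  have hg' : g⁻¹ = τ⁻¹ * ψ⁻¹ := by rw [hg, mul_inv_rev]
  have e1 : ρ g - ρ ψ ∈ smallEnd J := sub_mem_smallEnd_of_restrict_eq L J ρ hρ hm
  have e2 : ρ g⁻¹ - ρ ψ⁻¹ ∈ smallEnd J := by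
    have h1 : ρ g⁻¹ - ρ ψ⁻¹ = (ρ τ⁻¹ - 1) * ρ ψ⁻¹ := by rw [hg', map_mul, sub_mul, one_mul]
    rw [h1]
    exact mul_mem_smallEnd_right _ (hρ τ⁻¹ hker')
  have e3 : (((χ τ : 𝒪ˣ) : 𝒪) - 1) • ρ g⁻¹ ∈ smallEnd J :=
    smul_mem_smallEnd_of_mem (hχ τ hker) _
  have hχg : ((χ g : 𝒪ˣ) : 𝒪) = ((χ ψ : 𝒪ˣ) : 𝒪) * ((χ τ : 𝒪ˣ) : 𝒪) := by
    rw [hg, map_mul, Units.val_mul]
  have hsum : ρ g + ((χ g : 𝒪ˣ) : 𝒪) • ρ g⁻¹ - (ρ ψ + ((χ ψ : 𝒪ˣ) : 𝒪) • ρ ψ⁻¹)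
      = (ρ g - ρ ψ) + ((χ ψ : 𝒪ˣ) : 𝒪) • ((((χ τ : 𝒪ˣ) : 𝒪) - 1) • ρ g⁻¹ + (ρ g⁻¹ - ρ ψ⁻¹)) := by
    rw [hχg, smul_add, smul_sub, sub_smul, one_smul, smul_sub, mul_smul]
    abel
  rw [hsum]
  exact Submodule.add_mem _ e1 (Submodule.smul_mem _ _ (Submodule.add_mem _ e3 e2))

end Levels

/-! ### Step (A): inertia does not change traces -/

section Main

variable {p N : ℕ} [Fact p.Prime] [NeZero N] (D : TateData p N) (S : Finset ℕ)
  {R : Type} [CommRing R] [IsLocalRing R]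
  (hpS : p ∈ S) (hNS : ∀ q : ℕ, q.Prime → q ∣ N → q ∈ S)
  (π : heckeAlgebra N 2 (↑S : Set ℕ) →+* R) (ρ : GaloisRepAdic R)
  (hfrob : ∀ (ℓ : ℕ) (hℓ : ℓ.Prime) (hℓN : ¬ ℓ ∣ N) (hℓS : ℓ ∉ (↑S : Set ℕ)),
    ∀ A : ValuationSubring Qbar, A.LiesOverPrime ℓ → ∀ σ : Γ, A.IsFrobeniusAt σ ℓ →
      LinearMap.charpoly (ρ.ρ σ) = X ^ 2 - C (π (heckeAlgebra.T hℓ hℓN hℓS)) * X + C ((ℓ : R)))

/-- The operator `gal(g) + χ(g) gal(g)⁻¹` on the Tate module. -/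
noncomputable def opW (g : Γ) : Module.End ℤ_[p] D.T :=
  D.gal g + ((cycloCharAdic p g : ℤ_[p]ˣ) : ℤ_[p]) • D.gal g⁻¹

include hpS hNS hfrob in
/-- Approximation of `x` by a power of a Frobenius element at a deep finite level, on the Tate
module and on `ρ` simultaneously. -/
theorem exists_approx (L : IntermediateField ℚ Qbar) [FiniteDimensional ℚ L] [Normal ℚ L]
    (JW : Ideal ℤ_[p]) (JR : Ideal R)
    (h₁ : ∀ γ : Γ, AlgEquiv.restrictNormalHom L γ = 1 → D.gal γ - 1 ∈ smallEnd JW)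
    (h₂ : ∀ γ : Γ, AlgEquiv.restrictNormalHom L γ = 1 →
      ((cycloCharAdic p γ : ℤ_[p]ˣ) : ℤ_[p]) - 1 ∈ JW)
    (h₃ : ∀ γ : Γ, AlgEquiv.restrictNormalHom L γ = 1 → ρ.ρ γ - 1 ∈ smallEnd JR) (x : Γ) :
    ∃ (i : HeckeIdx N (↑S : Set ℕ)) (m : ℕ),
      opW D x - dseq (D.hecke i.1) i.1 m ∈ smallEnd JW ∧
      LinearMap.trace R ρ.V (ρ.ρ x) - dicksonSeq (π (TI (↑S : Set ℕ) i)) (i.1 : R) m ∈ JR := by
  obtain ⟨l, hl, hlS, A, hlA, φ, hφ, m, hm⟩ := exists_isFrobeniusAt_pow_eq L x S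
  have hlp : l ≠ p := fun h => hlS (h ▸ hpS)
  have hlN : ¬ l ∣ N := fun h => hlS (hNS l hl h)
  have hlS' : l ∉ (↑S : Set ℕ) := fun h => hlS (Finset.mem_coe.1 h)
  refine ⟨⟨l, hl, hlN, hlS'⟩, m, ?_, ?_⟩
  · -- the Tate module
    have h4 := opId_sub_mem_smallEnd L JW D.gal h₁ (cycloCharAdic p) h₂ hm
    have hχ : ((cycloCharAdic p φ : ℤ_[p]ˣ) : ℤ_[p]) = (l : ℤ_[p]) :=
      cycloCharAdic_frob p hl hlp hlA hφ
    have hF1 : D.gal φ * D.gal φ⁻¹ = 1 := by rw [← map_mul, mul_inv_cancel, map_one]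
    have hF2 : D.gal φ⁻¹ * D.gal φ = 1 := by rw [← map_mul, inv_mul_cancel, map_one]
    have hq : D.gal φ * D.gal φ - D.hecke l * D.gal φ + ((l : ℕ) : Module.End ℤ_[p] D.T) = 0 := by
      have h5 := D.frob l hl hlN hlp A hlA φ hφ
      rwa [Nat.cast_smul_eq_nsmul, nsmul_eq_mul, mul_one] at h5
    have h5 := pow_add_natCast_mul_pow_eq_dseq (D.gal φ) (D.gal φ⁻¹) (D.hecke l) l hF1 hF2 hq m
    have h6 : D.gal (φ ^ m) + ((cycloCharAdic p (φ ^ m) : ℤ_[p]ˣ) : ℤ_[p]) • D.gal (φ ^ m)⁻¹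
        = dseq (D.hecke l) l m := by
      rw [map_pow, map_pow, Units.val_pow_eq_pow_val, hχ, ← inv_pow, map_pow, ← h5,
        ← Nat.cast_pow, Nat.cast_smul_eq_nsmul, nsmul_eq_mul, Nat.cast_pow]
    rw [h6] at h4
    exact h4
  · -- `ρ`
    have h4 := sub_mem_smallEnd_of_restrict_eq L JR ρ.ρ h₃ hm
    have h5 := trace_mem_of_mem_smallEnd JR _ h4
    rw [map_sub, map_pow, trace_pow_eq_dicksonSeq ρ.finrank_eq (ρ.ρ φ) _ _
      (hfrob l hl hlN hlS' A hlA φ hφ) m] at h5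
    exact h5

variable [IsNoetherianRing R]

include D hpS hNS hfrob in
/-- **Step (A).**  Multiplying by an element of an inertia group at `q ∉ S` does not change the
trace. -/
theorem trace_mul_eq_of_mem_inertia (hpR : (p : R) ∈ IsLocalRing.maximalIdeal R) {q : ℕ}
    (hq : q.Prime) (hqS : q ∉ S) (P : ValuationSubring Qbar) (hP : P.LiesOverPrime q) (τ : Γ)
    (hτ : τ ∈ P.inertiaSubgroupIn ℚ) (g : Γ) :
    LinearMap.trace R ρ.V (ρ.ρ (τ * g)) = LinearMap.trace R ρ.V (ρ.ρ g) := by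
  have hqp : q ≠ p := fun h => hqS (h ▸ hpS)
  have hqN : ¬ q ∣ N := fun h => hqS (hNS q hq h)
  have hgalτ : D.gal τ = 1 := D.unram q hq hqN hqp P hP τ hτ
  have hgalτ' : D.gal τ⁻¹ = 1 := D.unram q hq hqN hqp P hP τ⁻¹ (inv_mem hτ)
  have hχτ : cycloCharAdic p τ = 1 := cycloCharAdic_inertia p hq hqp hP hτ
  have hX : opW D (τ * g) = opW D g := by
    unfold opW
    rw [mul_inv_rev, map_mul, map_mul, map_mul, hgalτ, hgalτ', hχτ, one_mul, one_mul, mul_one]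
  -- Krull
  have hkrull : ∀ c : R, (∀ n : ℕ, c ∈ IsLocalRing.maximalIdeal R ^ n) → c = 0 := by
    intro c hc
    have h1 : c ∈ (⨅ n : ℕ, IsLocalRing.maximalIdeal R ^ n : Ideal R) := by
      rw [Ideal.mem_iInf]
      exact hc
    rw [Ideal.iInf_pow_eq_bot_of_isLocalRing _ (IsLocalRing.maximalIdeal.isMaximal R).ne_top] at h1
    exact h1
  rw [← sub_eq_zero]
  refine hkrull _ fun n => ?_
  obtain ⟨M, hM⟩ := exists_pow_forall_aeval_mem D (↑S : Set ℕ) (IsLocalRing.maximalIdeal R) hpR π n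
  -- the level
  obtain ⟨L, hfd, hn, h₁, h₂, h₃⟩ := exists_normal_level_of_pred₃
    (fun σ => D.gal σ - 1 ∈ smallEnd (V := D.T) (Ideal.span {(p : ℤ_[p]) ^ M}))
    (fun σ => ((cycloCharAdic p σ : ℤ_[p]ˣ) : ℤ_[p]) - 1 ∈ Ideal.span {(p : ℤ_[p]) ^ M})
    (fun σ => ρ.ρ σ - 1 ∈ smallEnd (V := ρ.V) (IsLocalRing.maximalIdeal R ^ n))
    (by
      obtain ⟨L, hL, h⟩ := D.cont M
      refine ⟨L, hL, fun σ hσ v => ?_⟩
      obtain ⟨w, hw⟩ := h σ hσ v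
      rw [LinearMap.sub_apply, Module.End.one_apply, hw]
      exact Submodule.smul_mem_smul (Ideal.mem_span_singleton_self _) Submodule.mem_top)
    (cycloCharAdic_continuous p M)
    (by
      obtain ⟨L, hL, h⟩ := ρ.isAdicContinuous n
      exact ⟨L, hL, fun σ hσ v => by
        rw [LinearMap.sub_apply, Module.End.one_apply]
        exact h σ hσ v⟩)
  obtain ⟨i, m, hW, hR⟩ := exists_approx D S hpS hNS π ρ hfrob L _ _ h₁ h₂ h₃ g
  obtain ⟨i', m', hW', hR'⟩ := exists_approx D S hpS hNS π ρ hfrob L _ _ h₁ h₂ h₃ (τ * g)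
  rw [hX] at hW'
  have hE : dseq (D.hecke i.1) i.1 m - dseq (D.hecke i'.1) i'.1 m'
      ∈ smallEnd (V := D.T) (Ideal.span {(p : ℤ_[p]) ^ M}) := by
    have h4 := Submodule.sub_mem _ hW' hW
    have h5 : opW D g - dseq (D.hecke i'.1) i'.1 m' - (opW D g - dseq (D.hecke i.1) i.1 m)
        = dseq (D.hecke i.1) i.1 m - dseq (D.hecke i'.1) i'.1 m' := by abel
    rw [h5] at h4
    exact h4
  -- the polynomial
  obtain ⟨Q, hQdef⟩ : ∃ Q : MvPolynomial (HeckeIdx N (↑S : Set ℕ)) ℤ,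
      Q = dseq (MvPolynomial.X i) i.1 m - dseq (MvPolynomial.X i') i'.1 m' := ⟨_, rfl⟩
  have hQact : polyAct (R := ℤ) (tI D (↑S : Set ℕ)) (tI_comm D (↑S : Set ℕ)) Q
      = dseq (tI D (↑S : Set ℕ) i) i.1 m - dseq (tI D (↑S : Set ℕ) i') i'.1 m' := by
    rw [hQdef, map_sub, map_dseq, map_dseq, polyAct_X, polyAct_X]
  have hcond : ∀ z : D.Λ, ∃ w : D.T,
      D.f (polyAct (R := ℤ) (tI D (↑S : Set ℕ)) (tI_comm D (↑S : Set ℕ)) Q z)
        = (p : ℤ_[p]) ^ M • w := by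
    intro z
    rw [hQact, LinearMap.sub_apply, map_sub,
      map_dseq_apply D.f (tI D (↑S : Set ℕ) i) (D.hecke i.1) (fun z => D.f_t i.1 z) i.1 m z,
      map_dseq_apply D.f (tI D (↑S : Set ℕ) i') (D.hecke i'.1) (fun z => D.f_t i'.1 z) i'.1 m' z,
      ← LinearMap.sub_apply]
    have h4 := hE (D.f z)
    rw [Submodule.ideal_span_singleton_smul, Submodule.mem_smul_pointwise_iff_exists] at h4
    obtain ⟨w, -, hw⟩ := h4
    exact ⟨w, hw.symm⟩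
  have h7 := hM Q hcond
  rw [hQdef, map_sub, map_dseq, map_dseq, MvPolynomial.aeval_X, MvPolynomial.aeval_X, map_sub,
    map_dseq, map_dseq, dseq_eq_dicksonSeq, dseq_eq_dicksonSeq] at h7
  -- combine
  have h8 : LinearMap.trace R ρ.V (ρ.ρ (τ * g)) - LinearMap.trace R ρ.V (ρ.ρ g)
      = (LinearMap.trace R ρ.V (ρ.ρ (τ * g)) - dicksonSeq (π (TI (↑S : Set ℕ) i')) (i'.1 : R) m')
        - (LinearMap.trace R ρ.V (ρ.ρ g) - dicksonSeq (π (TI (↑S : Set ℕ) i)) (i.1 : R) m)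
        - (dicksonSeq (π (TI (↑S : Set ℕ) i)) (i.1 : R) m
            - dicksonSeq (π (TI (↑S : Set ℕ) i')) (i'.1 : R) m') := by ring
  rw [h8]
  exact Ideal.sub_mem _ (Ideal.sub_mem _ hR' hR) h7

include D hpS hNS hfrob in
/-- **S31 from the Tate data**, abstract form: `ρ` is unramified at every `q ∉ S`. -/
theorem isUnramifiedAt_of_tateData (hpR : (p : R) ∈ IsLocalRing.maximalIdeal R)
    (habs : ρ.residual.IsAbsolutelyIrreducible) {q : ℕ} (hq : q.Prime) (hqS : q ∉ S) :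
    ρ.IsUnramifiedAt q := by
  intro P hP τ hτ
  exact eq_one_of_forall_trace_eq ρ habs τ fun g =>
    trace_mul_eq_of_mem_inertia D S hpS hNS π ρ hfrob hpR hq hqS P hP τ hτ g

end Main

/-! ### The statement of S31 -/

section Statement

/-- **S31 from the Tate data.** -/
theorem s31_of_tateData (hTD : ∀ (p N : ℕ) [Fact p.Prime] [NeZero N], Nonempty (TateData p N))
    {p : ℕ} {N : ℕ} [NeZero N] {S : Finset ℕ}
    {𝒪 : Type} [CommRing 𝒪] [IsDomain 𝒪] [IsDiscreteValuationRing 𝒪]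
    [IsAdicComplete (IsLocalRing.maximalIdeal 𝒪) 𝒪]
    {θ : CuspForm.heckeAlgebra N 2 (↑S : Set ℕ) →+* IsLocalRing.ResidueField 𝒪}
    {T : Type} [CommRing T] [IsLocalRing T] [IsNoetherianRing T]
    [IsAdicComplete (IsLocalRing.maximalIdeal T) T] [Algebra 𝒪 T] [IsLocalHom (algebraMap 𝒪 T)]
    [Module.Finite 𝒪 T] [Module.Free 𝒪 T] (hp : p.Prime)
    (hp𝒪 : (p : 𝒪) ∈ IsLocalRing.maximalIdeal 𝒪) (hpS : p ∈ S)
    (hNS : ∀ q : ℕ, q.Prime → q ∣ N → q ∈ S)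
    (H : CuspForm.HeckeGaloisRepDatum N (↑S : Set ℕ) 𝒪 θ T)
    (q : ℕ) (hq : q.Prime) (hqS : q ∉ S) :
    H.ρ.IsUnramifiedAt q := by
  haveI : Fact p.Prime := ⟨hp⟩
  obtain ⟨D⟩ := hTD p N
  have hpT : (p : T) ∈ IsLocalRing.maximalIdeal T := by
    have h1 : (p : T) = algebraMap 𝒪 T (p : 𝒪) := (map_natCast (algebraMap 𝒪 T) p).symm
    rw [h1, IsLocalRing.mem_maximalIdeal, mem_nonunits_iff]
    intro h2
    exact (IsLocalRing.mem_maximalIdeal _).mp hp𝒪 (isUnit_of_map_unit (algebraMap 𝒪 T) _ h2)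
  exact isUnramifiedAt_of_tateData D S hpS hNS H.π H.ρ H.charpoly_frob hpT H.residual_absIrr hq hqS

end Statement

end Fermat.Agent.N4F.Adic.S31Assembly
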