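/-
N4-FULL / S31 (helper20): **S31 from the Eichler–Shimura relation on torsion ALONE** (block F being
unconditional): `s31_of_es : (∀ N [NeZero N], ESOnTorsionAll N) → (frozen S31)`.
-/
import Mathlib
import Fermat.Agent.N4F.Adic.S31Assembly
import Fermat.Agent.N4F.Adic.S30Cond
import Fermat.Agent.N4F.Adic.KummerPlugPow

set_option autoImplicit false

namespace Fermat.Agent.N4F.Adic.S31Cond

open Fermat.Agent.N4F.Res Fermat.Agent.N4F.Adic

/-- The Tate data from the Eichler–Shimura relation on torsion. -/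
theorem nonempty_tateData_of_es (H : ∀ (N : ℕ) [NeZero N], ESOnTorsionAll N)
    (p N : ℕ) [Fact p.Prime] [NeZero N] : Nonempty (TateData p N) :=
  S30Cond.nonempty_tateData N p (H N) (KummerPlugPow.kummerPackageAll N)

/-- **S31 from the Eichler–Shimura relation on torsion**, conclusion verbatim the frozen statement. -/
theorem s31_of_es (H : ∀ (N : ℕ) [NeZero N], ESOnTorsionAll N)
    {p : ℕ} {N : ℕ} [NeZero N] {S : Finset ℕ}
    {𝒪 : Type} [CommRing 𝒪] [IsDomain 𝒪] [IsDiscreteValuationRing 𝒪]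
    [IsAdicComplete (IsLocalRing.maximalIdeal 𝒪) 𝒪]
    {θ : CuspForm.heckeAlgebra N 2 (↑S : Set ℕ) →+* IsLocalRing.ResidueField 𝒪}
    {T : Type} [CommRing T] [IsLocalRing T] [IsNoetherianRing T]
    [IsAdicComplete (IsLocalRing.maximalIdeal T) T] [Algebra 𝒪 T] [IsLocalHom (algebraMap 𝒪 T)]
    [Module.Finite 𝒪 T] [Module.Free 𝒪 T] (hp : p.Prime)
    (hp𝒪 : (p : 𝒪) ∈ IsLocalRing.maximalIdeal 𝒪) (hpS : p ∈ S)
    (hNS : ∀ q : ℕ, q.Prime → q ∣ N → q ∈ S)
    (H' : CuspForm.HeckeGaloisRepDatum N (↑S : Set ℕ) 𝒪 θ T)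
    (q : ℕ) (hq : q.Prime) (hqS : q ∉ S) :
    H'.ρ.IsUnramifiedAt q :=
  S31Assembly.s31_of_tateData (fun p N _ _ => nonempty_tateData_of_es H p N)
    hp hp𝒪 hpS hNS H' q hq hqS

end Fermat.Agent.N4F.Adic.S31Cond
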