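/-
N4-FULL / S34 (helper20): **unipotent inertia at `q ∥ N`, `q ≠ p`, from the Tate-module data plus ONE
geometric input (G)**: `(σ - 1)² = 0` on the Tate module for `σ` in an inertia group at `q`.

* `trace_eq_of_opW_eq` : **trace rigidity from the Tate module**: if the operators
  `gal(x) + χ(x) gal(x)⁻¹` and `gal(y) + χ(y) gal(y)⁻¹` on the Tate module agree, then
  `tr ρ(x) = tr ρ(y)` (S31's step (A) is `x = τ g`, `y = g`; here `x = σ`, `y = 1`);
* `det_eq_one_of_cyclo_eq_one` : `χ_cyc(g) = 1 ⇒ det ρ(g) = 1` (Frobenius-power density);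
* `UnipotentInertia D` : the input (G);
* `isUnipotentOnInertiaAt_of_tateData`, `s34_of_tateData` : the frozen S34 from the Tate data
  with (G).
-/
import Mathlib
import Fermat.Prelude.Def_GaloisRep_LocalConditions
import Fermat.Prelude.Def_CuspForm_HeckeGaloisRepDatum
import Fermat.Agent.N4F.Adic.S31Assembly

set_option autoImplicit false
set_option linter.style.haveILetI false
set_option linter.unusedSectionVars false

open Polynomial

namespace Fermat.Agent.N4F.Adic.S34Assembly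

open Fermat.Agent.N4F.Adic Fermat.Agent.N4F.Adic.S31Lattice Fermat.Agent.N4F.Adic.S31Trace
  Fermat.Agent.N4F.Adic.S31Assembly
  Fermat.Agent.N4.FrobDensity Fermat.Agent.N4F.Tors.Occurrence CuspForm

local notation "Qbar" => AlgebraicClosure ℚ
local notation "Γ" => (AlgebraicClosure ℚ ≃ₐ[ℚ] AlgebraicClosure ℚ)

local instance isAlgebraicQbar_S34 : Algebra.IsAlgebraic ℚ (AlgebraicClosure ℚ) :=
  AlgebraicClosure.isAlgebraic ℚ
local instance isAlgClosureQbar_S34 : IsAlgClosure ℚ (AlgebraicClosure ℚ) :=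
  ⟨inferInstance, inferInstance⟩
local instance normalQbar_S34 : Normal ℚ (AlgebraicClosure ℚ) :=
  IsAlgClosure.normal ℚ (AlgebraicClosure ℚ)

/-! ### Determinants and characteristic polynomials -/

section Det

variable {R : Type*} [CommRing R] {V : Type*} [AddCommGroup V] [Module R V]
  [Module.Free R V] [Module.Finite R V]

/-- Congruent endomorphisms have congruent determinants. -/
theorem det_sub_det_mem (J : Ideal R) (E₁ E₂ : Module.End R V) (h : E₁ - E₂ ∈ smallEnd J) :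
    LinearMap.det E₁ - LinearMap.det E₂ ∈ J := by
  classical
  let bs := Module.Free.chooseBasis R V
  rw [← LinearMap.det_toMatrix bs E₁, ← LinearMap.det_toMatrix bs E₂,
    ← Ideal.Quotient.eq, RingHom.map_det, RingHom.map_det]
  congr 1
  ext i j
  rw [RingHom.mapMatrix_apply, RingHom.mapMatrix_apply, Matrix.map_apply, Matrix.map_apply,
    Ideal.Quotient.eq, LinearMap.toMatrix_apply, LinearMap.toMatrix_apply, ← Finsupp.sub_apply,
    ← map_sub, ← LinearMap.sub_apply]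
  exact repr_mem_of_mem_smul_top bs J (h (bs j)) i

/-- The characteristic polynomial in rank two. -/
theorem charpoly_eq_of_finrank_two [Nontrivial R] (hV : Module.finrank R V = 2)
    (E : Module.End R V) :
    LinearMap.charpoly E = X ^ 2 - C (LinearMap.trace R V E) * X + C (LinearMap.det E) := by
  classical
  let bs : Module.Basis (Fin 2) R V := Module.finBasisOfFinrankEq R V hV
  rw [← LinearMap.charpoly_toMatrix E bs, Matrix.charpoly_fin_two,
    ← LinearMap.trace_eq_matrix_trace R bs, LinearMap.det_toMatrix]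

end Det

/-! ### Trace rigidity from the Tate module -/

section Main

variable {p N : ℕ} [Fact p.Prime] [NeZero N] (D : TateData p N) (S : Finset ℕ)
  {R : Type} [CommRing R] [IsLocalRing R] [IsNoetherianRing R]
  (hpS : p ∈ S) (hNS : ∀ q : ℕ, q.Prime → q ∣ N → q ∈ S)
  (π : heckeAlgebra N 2 (↑S : Set ℕ) →+* R) (ρ : GaloisRepAdic R)
  (hfrob : ∀ (ℓ : ℕ) (hℓ : ℓ.Prime) (hℓN : ¬ ℓ ∣ N) (hℓS : ℓ ∉ (↑S : Set ℕ)),
    ∀ A : ValuationSubring Qbar, A.LiesOverPrime ℓ → ∀ σ : Γ, A.IsFrobeniusAt σ ℓ →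
      LinearMap.charpoly (ρ.ρ σ) = X ^ 2 - C (π (heckeAlgebra.T hℓ hℓN hℓS)) * X + C ((ℓ : R)))

/-- Krull's intersection theorem, elementwise. -/
theorem eq_zero_of_forall_mem_pow (c : R) (hc : ∀ n : ℕ, c ∈ IsLocalRing.maximalIdeal R ^ n) :
    c = 0 := by
  have h1 : c ∈ (⨅ n : ℕ, IsLocalRing.maximalIdeal R ^ n : Ideal R) := by
    rw [Ideal.mem_iInf]
    exact hc
  rw [Ideal.iInf_pow_eq_bot_of_isLocalRing _ (IsLocalRing.maximalIdeal.isMaximal R).ne_top] at h1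
  exact h1

include D hpS hNS hfrob in
/-- **Trace rigidity from the Tate module.**  If `gal(x) + χ(x) gal(x)⁻¹ = gal(y) + χ(y) gal(y)⁻¹`
on the Tate module then `tr ρ(x) = tr ρ(y)`. -/
theorem trace_eq_of_opW_eq (hpR : (p : R) ∈ IsLocalRing.maximalIdeal R) (x y : Γ)
    (hX : opW D x = opW D y) :
    LinearMap.trace R ρ.V (ρ.ρ x) = LinearMap.trace R ρ.V (ρ.ρ y) := by
  rw [← sub_eq_zero]
  refine eq_zero_of_forall_mem_pow _ fun n => ?_
  obtain ⟨M, hM⟩ := exists_pow_forall_aeval_mem D (↑S : Set ℕ) (IsLocalRing.maximalIdeal R) hpR π n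
  -- the level
  obtain ⟨L, hfd, hn, h₁, h₂, h₃⟩ := exists_normal_level_of_pred₃
    (fun σ => D.gal σ - 1 ∈ smallEnd (V := D.T) (Ideal.span {(p : ℤ_[p]) ^ M}))
    (fun σ => ((cycloCharAdic p σ : ℤ_[p]ˣ) : ℤ_[p]) - 1 ∈ Ideal.span {(p : ℤ_[p]) ^ M})
    (fun σ => ρ.ρ σ - 1 ∈ smallEnd (V := ρ.V) (IsLocalRing.maximalIdeal R ^ n))
    (by
      obtain ⟨L, hL, h⟩ := D.cont M
      refine ⟨L, hL, fun σ hσ v => ?_⟩
      obtain ⟨w, hw⟩ := h σ hσ v
      rw [LinearMap.sub_apply, Module.End.one_apply, hw]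
      exact Submodule.smul_mem_smul (Ideal.mem_span_singleton_self _) Submodule.mem_top)
    (cycloCharAdic_continuous p M)
    (by
      obtain ⟨L, hL, h⟩ := ρ.isAdicContinuous n
      exact ⟨L, hL, fun σ hσ v => by
        rw [LinearMap.sub_apply, Module.End.one_apply]
        exact h σ hσ v⟩)
  obtain ⟨i, m, hW, hR⟩ := exists_approx D S hpS hNS π ρ hfrob L _ _ h₁ h₂ h₃ y
  obtain ⟨i', m', hW', hR'⟩ := exists_approx D S hpS hNS π ρ hfrob L _ _ h₁ h₂ h₃ x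
  rw [hX] at hW'
  have hE : dseq (D.hecke i.1) i.1 m - dseq (D.hecke i'.1) i'.1 m'
      ∈ smallEnd (V := D.T) (Ideal.span {(p : ℤ_[p]) ^ M}) := by
    have h4 := Submodule.sub_mem _ hW' hW
    have h5 : opW D y - dseq (D.hecke i'.1) i'.1 m' - (opW D y - dseq (D.hecke i.1) i.1 m)
        = dseq (D.hecke i.1) i.1 m - dseq (D.hecke i'.1) i'.1 m' := by abel
    rw [h5] at h4
    exact h4
  -- the polynomial
  obtain ⟨Q, hQdef⟩ : ∃ Q : MvPolynomial (HeckeIdx N (↑S : Set ℕ)) ℤ,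
      Q = dseq (MvPolynomial.X i) i.1 m - dseq (MvPolynomial.X i') i'.1 m' := ⟨_, rfl⟩
  have hQact : polyAct (R := ℤ) (tI D (↑S : Set ℕ)) (tI_comm D (↑S : Set ℕ)) Q
      = dseq (tI D (↑S : Set ℕ) i) i.1 m - dseq (tI D (↑S : Set ℕ) i') i'.1 m' := by
    rw [hQdef, map_sub, map_dseq, map_dseq, polyAct_X, polyAct_X]
  have hcond : ∀ z : D.Λ, ∃ w : D.T,
      D.f (polyAct (R := ℤ) (tI D (↑S : Set ℕ)) (tI_comm D (↑S : Set ℕ)) Q z)
        = (p : ℤ_[p]) ^ M • w := by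
    intro z
    rw [hQact, LinearMap.sub_apply, map_sub,
      map_dseq_apply D.f (tI D (↑S : Set ℕ) i) (D.hecke i.1) (fun z => D.f_t i.1 z) i.1 m z,
      map_dseq_apply D.f (tI D (↑S : Set ℕ) i') (D.hecke i'.1) (fun z => D.f_t i'.1 z) i'.1 m' z,
      ← LinearMap.sub_apply]
    have h4 := hE (D.f z)
    rw [Submodule.ideal_span_singleton_smul, Submodule.mem_smul_pointwise_iff_exists] at h4
    obtain ⟨w, -, hw⟩ := h4
    exact ⟨w, hw.symm⟩
  have h7 := hM Q hcond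
  rw [hQdef, map_sub, map_dseq, map_dseq, MvPolynomial.aeval_X, MvPolynomial.aeval_X, map_sub,
    map_dseq, map_dseq, dseq_eq_dicksonSeq, dseq_eq_dicksonSeq] at h7
  -- combine
  have h8 : LinearMap.trace R ρ.V (ρ.ρ x) - LinearMap.trace R ρ.V (ρ.ρ y)
      = (LinearMap.trace R ρ.V (ρ.ρ x) - dicksonSeq (π (TI (↑S : Set ℕ) i')) (i'.1 : R) m')
        - (LinearMap.trace R ρ.V (ρ.ρ y) - dicksonSeq (π (TI (↑S : Set ℕ) i)) (i.1 : R) m)
        - (dicksonSeq (π (TI (↑S : Set ℕ) i)) (i.1 : R) m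
            - dicksonSeq (π (TI (↑S : Set ℕ) i')) (i'.1 : R) m') := by ring
  rw [h8]
  exact Ideal.sub_mem _ (Ideal.sub_mem _ hR' hR) h7

include hpS hNS hfrob in
/-- `χ_cyc(g) = 1 ⇒ det ρ(g) = 1`. -/
theorem det_eq_one_of_cyclo_eq_one (hpR : (p : R) ∈ IsLocalRing.maximalIdeal R) (g : Γ)
    (hg : cycloCharAdic p g = 1) : LinearMap.det (ρ.ρ g) = 1 := by
  rw [← sub_eq_zero]
  refine eq_zero_of_forall_mem_pow _ fun n => ?_
  obtain ⟨L, hfd, hn, h₂, h₃⟩ := exists_normal_level_of_pred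
    (fun σ => ((cycloCharAdic p σ : ℤ_[p]ˣ) : ℤ_[p]) - 1 ∈ Ideal.span {(p : ℤ_[p]) ^ n})
    (fun σ => ρ.ρ σ - 1 ∈ smallEnd (V := ρ.V) (IsLocalRing.maximalIdeal R ^ n))
    (cycloCharAdic_continuous p n)
    (by
      obtain ⟨L, hL, h⟩ := ρ.isAdicContinuous n
      exact ⟨L, hL, fun σ hσ v => by
        rw [LinearMap.sub_apply, Module.End.one_apply]
        exact h σ hσ v⟩)
  obtain ⟨l, hl, hlS, A, hlA, φ, hφ, m, hm⟩ := exists_isFrobeniusAt_pow_eq L g S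
  have hlp : l ≠ p := fun h => hlS (h ▸ hpS)
  have hlN : ¬ l ∣ N := fun h => hlS (hNS l hl h)
  have hlS' : l ∉ (↑S : Set ℕ) := fun h => hlS (Finset.mem_coe.1 h)
  -- determinants
  have h4 := det_sub_det_mem _ _ _ (sub_mem_smallEnd_of_restrict_eq L _ ρ.ρ h₃ hm)
  have hdetφ : LinearMap.det (ρ.ρ φ) = (l : R) := by
    rw [LinearMap.det_eq_sign_charpoly_coeff, ρ.finrank_eq, hfrob l hl hlN hlS' A hlA φ hφ]
    simp [coeff_X, coeff_C]
  rw [map_pow, map_pow, hdetφ] at h4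
  -- the cyclotomic character
  have hker : AlgEquiv.restrictNormalHom L ((φ ^ m)⁻¹ * g) = 1 := by
    rw [map_mul, map_inv, hm, inv_mul_cancel]
  have h5 := h₂ _ hker
  have hχ : ((cycloCharAdic p φ : ℤ_[p]ˣ) : ℤ_[p]) = (l : ℤ_[p]) :=
    cycloCharAdic_frob p hl hlp hlA hφ
  rw [map_mul, hg, mul_one, map_inv, map_pow] at h5
  have h6 : (1 : ℤ_[p]) - (l : ℤ_[p]) ^ m ∈ Ideal.span {(p : ℤ_[p]) ^ n} := by
    have h7 : (1 : ℤ_[p]) - (l : ℤ_[p]) ^ m
        = ((l : ℤ_[p]) ^ m) * ((((cycloCharAdic p φ ^ m)⁻¹ : ℤ_[p]ˣ) : ℤ_[p]) - 1) := by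
      rw [mul_sub, mul_one, ← hχ, ← Units.val_pow_eq_pow_val, ← Units.val_mul, mul_inv_cancel,
        Units.val_one]
    rw [h7]
    exact Ideal.mul_mem_left _ _ h5
  have h8 : ((p : ℤ) ^ n) ∣ (1 - (l : ℤ) ^ m) := by
    rw [Ideal.mem_span_singleton] at h6
    have h9 : ((1 - (l : ℤ) ^ m : ℤ) : ℤ_[p]) = (1 : ℤ_[p]) - (l : ℤ_[p]) ^ m := by push_cast; rfl
    rw [← h9, PadicInt.pow_p_dvd_int_iff] at h6
    exact h6
  obtain ⟨c, hc⟩ := h8
  have h10 : (1 : R) - (l : R) ^ m ∈ IsLocalRing.maximalIdeal R ^ n := by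
    have h11 : (1 : R) - (l : R) ^ m = ((1 - (l : ℤ) ^ m : ℤ) : R) := by push_cast; rfl
    rw [h11, hc]
    push_cast
    exact Ideal.mul_mem_right _ _ (Ideal.pow_mem_pow hpR n)
  have h12 : LinearMap.det (ρ.ρ g) - 1
      = (LinearMap.det (ρ.ρ g) - (l : R) ^ m) - ((1 : R) - (l : R) ^ m) := by ring
  rw [h12]
  exact Ideal.sub_mem _ h4 h10

/-- **The geometric input (G)**: inertia at `q ∥ N`, `q ≠ p`, acts on the Tate module through
`(σ - 1)² = 0`. -/
def UnipotentInertia : Prop :=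
  ∀ q : ℕ, q.Prime → q ≠ p → q ∣ N → ¬ q ^ 2 ∣ N → ∀ A : ValuationSubring Qbar,
    A.LiesOverPrime q → ∀ σ ∈ A.inertiaSubgroupIn ℚ, (D.gal σ - 1) * (D.gal σ - 1) = 0

include hpS hNS hfrob in
/-- **S34 from the Tate data and (G)**, abstract form. -/
theorem isUnipotentOnInertiaAt_of_tateData (hG : UnipotentInertia D)
    (hpR : (p : R) ∈ IsLocalRing.maximalIdeal R) {q : ℕ} (hq : q.Prime) (hqp : q ≠ p)
    (hqN : q ∣ N) (hq2 : ¬ q ^ 2 ∣ N) : ρ.IsUnipotentOnInertiaAt q := by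
  intro P hP σ hσ
  have hχσ : cycloCharAdic p σ = 1 := cycloCharAdic_inertia p hq hqp hP hσ
  -- the operator on the Tate module
  have hX : opW D σ = opW D 1 := by
    have h1 := hG q hq hqp hqN hq2 P hP σ hσ
    have h2 : D.gal σ * D.gal σ⁻¹ = 1 := by rw [← map_mul, mul_inv_cancel, map_one]
    have h3 : (D.gal σ - 1) * (D.gal σ - 1) * D.gal σ⁻¹ = D.gal σ + D.gal σ⁻¹ - (1 + 1) := by
      have h4 : (D.gal σ - 1) * (D.gal σ - 1) * D.gal σ⁻¹
          = D.gal σ * (D.gal σ * D.gal σ⁻¹) - (D.gal σ * D.gal σ⁻¹) - (D.gal σ * D.gal σ⁻¹)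
            + D.gal σ⁻¹ := by noncomm_ring
      rw [h4, h2, mul_one]
      abel
    rw [h1, zero_mul] at h3
    unfold opW
    rw [hχσ, Units.val_one, one_smul, inv_one, map_one, map_one, Units.val_one, one_smul]
    exact (sub_eq_zero.mp h3.symm)
  have htr : LinearMap.trace R ρ.V (ρ.ρ σ) = 2 := by
    rw [trace_eq_of_opW_eq D S hpS hNS π ρ hfrob hpR σ 1 hX, map_one, LinearMap.trace_one,
      ρ.finrank_eq]
    norm_num
  have hdet : LinearMap.det (ρ.ρ σ) = 1 := det_eq_one_of_cyclo_eq_one S hpS hNS π ρ hfrob hpR σ hχσ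
  rw [charpoly_eq_of_finrank_two ρ.finrank_eq, htr, hdet]
  simp only [map_ofNat, map_one]
  ring

end Main

/-! ### The statement of S34 -/

section Statement

/-- **S34 from the Tate data with (G).** -/
theorem s34_of_tateData
    (hTD : ∀ (p N : ℕ) [Fact p.Prime] [NeZero N], ∃ D : TateData p N, UnipotentInertia D)
    {𝒪 : Type} [CommRing 𝒪] [IsDomain 𝒪] [IsDiscreteValuationRing 𝒪]
    [IsAdicComplete (IsLocalRing.maximalIdeal 𝒪) 𝒪] [Finite (IsLocalRing.ResidueField 𝒪)]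
    [CharZero 𝒪]
    {p : ℕ} (hp : p.Prime) (hp𝒪 : (p : 𝒪) ∈ IsLocalRing.maximalIdeal 𝒪)
    {N : ℕ} [NeZero N] {S : Finset ℕ} (hpS : p ∈ S) (hNS : ∀ q : ℕ, q.Prime → q ∣ N → q ∈ S)
    {θ : CuspForm.heckeAlgebra N 2 (↑S : Set ℕ) →+* IsLocalRing.ResidueField 𝒪}
    {T : Type} [CommRing T] [IsLocalRing T] [IsNoetherianRing T]
    [IsAdicComplete (IsLocalRing.maximalIdeal T) T] [Algebra 𝒪 T] [IsLocalHom (algebraMap 𝒪 T)]
    [Module.Finite 𝒪 T] [Module.Free 𝒪 T]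
    (H : CuspForm.HeckeGaloisRepDatum N (↑S : Set ℕ) 𝒪 θ T)
    (q : ℕ) (hq : q.Prime) (hqp : q ≠ p) (hqN : q ∣ N) (hq2 : ¬ q ^ 2 ∣ N) :
    H.ρ.IsUnipotentOnInertiaAt q := by
  haveI : Fact p.Prime := ⟨hp⟩
  obtain ⟨D, hG⟩ := hTD p N
  have hpT : (p : T) ∈ IsLocalRing.maximalIdeal T := by
    have h1 : (p : T) = algebraMap 𝒪 T (p : 𝒪) := (map_natCast (algebraMap 𝒪 T) p).symm
    rw [h1, IsLocalRing.mem_maximalIdeal, mem_nonunits_iff]
    intro h2
    exact (IsLocalRing.mem_maximalIdeal _).mp hp𝒪 (isUnit_of_map_unit (algebraMap 𝒪 T) _ h2)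
  exact isUnipotentOnInertiaAt_of_tateData D S hpS hNS H.π H.ρ H.charpoly_frob hG hpT hq hqp
    hqN hq2

end Statement

end Fermat.Agent.N4F.Adic.S34Assembly
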