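/-
N4-FULL / S30 (helper4): `TateData p N` from `TorsionFinite N`, `ESOnTorsionAll N` and the
prime-power Kummer package ALONE: the two `Λ`-side hypotheses of helper19's
`Adic/TateDataInst.tateData` are discharged by `Adic/LambdaSystem.exists_lambda_system` (T6a) and
helper25's `Adic/HeckeFaithful.hecke_faithful'` (T6b).
-/
import Mathlib
import Fermat.Agent.N4F.Adic.TateDataInst
import Fermat.Agent.N4F.Adic.LambdaSystem
import Fermat.Agent.N4F.Adic.HeckeFaithful

set_option autoImplicit false

open CongruenceSubgroup ModularCurve PadicInt

noncomputable section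

namespace Fermat.Agent.N4F.Adic.TateDataFinal

open Fermat.Agent.N4F.Res Fermat.Agent.N4F.Adic Fermat.Agent.N4F.Adic.LambdaSystem

variable (p : ℕ) [hp : Fact p.Prime] (N : ℕ) [NeZero N]

/-- **(T6a)** in helper19's shape. -/
theorem lambdaSystem (hK : KummerPackagePow N p) : TateDataInst.LambdaSystem p N := by
  obtain ⟨f, h1, h2, -⟩ := exists_lambda_system N p hK
  exact ⟨f, h1, h2⟩

/-- **(T6b)** in helper19's shape. -/
theorem heckeFaithful : TateDataInst.HeckeFaithful N :=
  fun S P hP => HeckeFaithful.hecke_faithful' N S P hP

/-- **`TateData p N`** from the J-side inputs and the prime-power Kummer package. -/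
def tateData (hfin : TorsionFinite N) (hES : ESOnTorsionAll N) (hK : KummerPackagePow N p) :
    TateData p N :=
  TateDataInst.tateData p N hfin hES (lambdaSystem p N hK) (heckeFaithful N)

/-- The same from the full Kummer package of block F. -/
def tateDataAll (hES : ESOnTorsionAll N) (hK : KummerPackageAll N) : TateData p N :=
  tateData p N (Fermat.Agent.N4F.Tors.Outputs.torsionFinite N hK.kummerPackage) hES
    (hK.kummerPackagePow p)

end Fermat.Agent.N4F.Adic.TateDataFinal
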