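/-
N4-FULL / S30 (helper4): adapter from helper10's `Tors/KummerBar` packages
(`KummerBar.KummerPackageAll N`, `KummerBar.ComplexKummer N`) to `Adic/LambdaSystem` and hence to
`TateData p N`.
-/
import Mathlib
import Fermat.Agent.N4F.Tors.KummerBar
import Fermat.Agent.N4F.Adic.TateDataFinal

set_option autoImplicit false

open CongruenceSubgroup ModularCurve PadicInt

noncomputable section

namespace Fermat.Agent.N4F.Adic.TateDataKummer

open Fermat.Agent.N4F.Res Fermat.Agent.N4F.Adic Fermat.Agent.N4F.Adic.LambdaSystem
  Fermat.Agent.N4F.Tors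

variable (N : ℕ) [NeZero N]

/-- helper10's full Kummer package is the one of `Adic/LambdaSystem`. -/
theorem kummerPackageAll_of_bar (h : KummerBar.KummerPackageAll N) :
    LambdaSystem.KummerPackageAll N := by
  obtain ⟨κ, h1, h2, h3, h4⟩ := h
  refine ⟨κ, h1, h2, h3, fun n m hnm hm x y hy => ?_⟩
  have hx : (m / n) • (x : JZero N) ∈ Jtors N n := by
    rw [← hy]
    exact y.2
  have hyx : y = ⟨(m / n) • (x : JZero N), hx⟩ := Subtype.ext hy
  rw [hyx]
  exact h4 n m hnm hm x hx

variable (p : ℕ) [hp : Fact p.Prime]

theorem kummerPackagePow_of_bar (h : KummerBar.KummerPackageAll N) : KummerPackagePow N p :=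
  (kummerPackageAll_of_bar N h).kummerPackagePow p

theorem kummerPackagePow_of_complexKummer (h : KummerBar.ComplexKummer N) :
    KummerPackagePow N p :=
  kummerPackagePow_of_bar N p (KummerBar.kummerPackageAll h)

/-- **`TateData p N`** from the Eichler–Shimura relation on torsion and the complex Kummer
package. -/
def tateData_of_complexKummer (hES : ESOnTorsionAll N) (h : KummerBar.ComplexKummer N) :
    TateData p N :=
  TateDataFinal.tateData p N (KummerBar.torsionFinite_of_complexKummer h) hES
    (kummerPackagePow_of_complexKummer N p h)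

end Fermat.Agent.N4F.Adic.TateDataKummer
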