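/-
N4-FULL / S31 step (B): trace rigidity (helper6, for helper20's S31 assembly).

For a rank-two representation `ρ` of `Γ = Gal(ℚ̄/ℚ)` over a local ring `A` whose residual
representation is absolutely irreducible:

* `span_range_eq_top` : the operators `ρ g` span `End_A V` over `A`
  (Burnside over `k̄`, descent to `k` by a dual functional, Nakayama);
* `rho_eq_one_of_trace_mul_eq` : if `tr ρ(τ g) = tr ρ(g)` for all `g` then `ρ τ = 1`
  (nondegeneracy of the trace form on `M₂(A)`);
* `isUnramifiedAt_of_trace_eq` : the resulting unramifiedness criterion.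

No completeness / noetherian hypothesis on `A`.
-/
import Mathlib
import Fermat.Prelude.Def_GaloisRep_Adic
import Fermat.Agent.N4F.G.Burnside

set_option autoImplicit false

open scoped TensorProduct
open Module

namespace Fermat.Agent.N4F.Adic.TraceRigidity

local notation "Γ" => AlgebraicClosure ℚ ≃ₐ[ℚ] AlgebraicClosure ℚ

section Mat

variable {R : Type*} [CommRing R] {n : Type*} [Fintype n] [DecidableEq n]

/-- The trace form on `Mₙ(R)` is nondegenerate, tested on a spanning set. -/
theorem matrix_eq_zero_of_trace_mul_eq_zero (X : Matrix n n R) (s : Set (Matrix n n R))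
    (hs : Submodule.span R s = ⊤) (h : ∀ Y ∈ s, (X * Y).trace = 0) : X = 0 := by
  have hall : ∀ Y : Matrix n n R, (X * Y).trace = 0 := by
    intro Y
    have hY : Y ∈ Submodule.span R s := by rw [hs]; trivial
    induction hY using Submodule.span_induction with
    | mem Y hY => exact h Y hY
    | zero => simp
    | add Y Z _ _ hY hZ => rw [mul_add, Matrix.trace_add, hY, hZ, add_zero]
    | smul c Y _ hY => rw [Matrix.mul_smul, Matrix.trace_smul, hY, smul_zero]
  rw [Matrix.ext_iff_trace_mul_right]
  intro Y
  rw [hall Y, zero_mul, Matrix.trace_zero]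

/-- Descent of "spans everything" along a field extension `k → K` for matrices: if the images of a
set `s ⊆ Mₙ(k)` span `Mₙ(K)` over `K`, then `s` spans `Mₙ(k)` over `k`. -/
theorem span_eq_top_of_span_map_eq_top {k K : Type*} [Field k] [Field K] (φ : k →+* K)
    (s : Set (Matrix n n k))
    (h : Submodule.span K ((fun Y : Matrix n n k => Y.map φ) '' s) = ⊤) :
    Submodule.span k s = ⊤ := by
  by_contra hne
  obtain ⟨f, hf0, hfs⟩ := Submodule.exists_le_ker_of_lt_top _ (lt_top_iff_ne_top.mpr hne)
  -- the functional `f` in coordinates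
  set c : n → n → k := fun i j => f (Matrix.single i j 1) with hc
  have hfY : ∀ Y : Matrix n n k, f Y = ∑ i, ∑ j, Y i j * c i j := by
    intro Y
    conv_lhs => rw [Matrix.matrix_eq_sum_single Y]
    simp only [map_sum]
    refine Finset.sum_congr rfl fun i _ => Finset.sum_congr rfl fun j _ => ?_
    have : Matrix.single i j (Y i j) = Y i j • Matrix.single i j (1 : k) := by
      rw [Matrix.smul_single, smul_eq_mul, mul_one]
    rw [this, map_smul, smul_eq_mul]
  -- the base-changed functional vanishes on the `K`-span, hence everywhere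
  let F : Matrix n n K →ₗ[K] K :=
    { toFun := fun Z => ∑ i, ∑ j, Z i j * φ (c i j)
      map_add' := fun Z W => by
        simp only [Matrix.add_apply, add_mul, Finset.sum_add_distrib]
      map_smul' := fun a Z => by
        simp only [Matrix.smul_apply, smul_eq_mul, RingHom.id_apply, Finset.mul_sum, mul_assoc] }
  have hF : ∀ Z : Matrix n n K, F Z = 0 := by
    intro Z
    have hZ : Z ∈ Submodule.span K ((fun Y : Matrix n n k => Y.map φ) '' s) := by rw [h]; trivial
    induction hZ using Submodule.span_induction with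
    | mem Z hZ =>
      obtain ⟨Y, hY, rfl⟩ := hZ
      have h0 : f Y = 0 := hfs (Submodule.subset_span hY)
      rw [hfY] at h0
      show ∑ i, ∑ j, (Y.map φ) i j * φ (c i j) = 0
      simp only [Matrix.map_apply, ← map_mul, ← map_sum, h0, map_zero]
    | zero => exact map_zero F
    | add Z W _ _ hZ hW => rw [map_add, hZ, hW, add_zero]
    | smul a Z _ hZ => rw [map_smul, hZ, smul_zero]
  apply hf0
  apply LinearMap.ext
  intro Y
  rw [hfY, LinearMap.zero_apply]
  have hc0 : ∀ i j, c i j = 0 := by
    intro i j
    have := hF (Matrix.single i j 1)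
    have h2 : F (Matrix.single i j 1) = φ (c i j) := by
      show ∑ i', ∑ j', (Matrix.single i j (1 : K)) i' j' * φ (c i' j') = φ (c i j)
      simp [Matrix.single_apply, Finset.sum_ite_eq, ite_and]
    rw [h2] at this
    exact (map_eq_zero φ).mp this
  simp [hc0]

end Mat

section Local

variable {A : Type} [CommRing A] [IsLocalRing A] (ρ : GaloisRepAdic A)

/-- A basis of the underlying free module of rank two. -/
noncomputable def basis : Basis (Fin 2) A ρ.V := Module.finBasisOfFinrankEq A ρ.V ρ.finrank_eq

/-- The matrices of `ρ` in the chosen basis. -/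
noncomputable def mat (g : Γ) : Matrix (Fin 2) (Fin 2) A :=
  LinearMap.toMatrix (basis ρ) (basis ρ) (ρ.ρ g)

theorem mat_mul (g h : Γ) : mat ρ (g * h) = mat ρ g * mat ρ h := by
  unfold mat
  rw [map_mul, Module.End.mul_eq_comp, LinearMap.toMatrix_comp (basis ρ) (basis ρ) (basis ρ)]

theorem trace_eq_mat (g : Γ) : LinearMap.trace A ρ.V (ρ.ρ g) = (mat ρ g).trace :=
  LinearMap.trace_eq_matrix_trace A (basis ρ) (ρ.ρ g)

/-- The residual representation over the algebraic closure of the residue field, on the concrete
tensor product. -/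
noncomputable def resRep :
    Γ →* Module.End (AlgebraicClosure (IsLocalRing.ResidueField A))
      (AlgebraicClosure (IsLocalRing.ResidueField A) ⊗[IsLocalRing.ResidueField A]
        (IsLocalRing.ResidueField A ⊗[A] ρ.V)) where
  toFun g := ((ρ.ρ g).baseChange (IsLocalRing.ResidueField A)).baseChange
    (AlgebraicClosure (IsLocalRing.ResidueField A))
  map_one' := by rw [map_one, LinearMap.baseChange_one, LinearMap.baseChange_one]
  map_mul' g h := by rw [map_mul, LinearMap.baseChange_mul, LinearMap.baseChange_mul]

theorem resRep_irreducible (habs : ρ.residual.IsAbsolutelyIrreducible) :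
    ∀ W : Submodule (AlgebraicClosure (IsLocalRing.ResidueField A))
      (AlgebraicClosure (IsLocalRing.ResidueField A) ⊗[IsLocalRing.ResidueField A]
        (IsLocalRing.ResidueField A ⊗[A] ρ.V)),
      (∀ g : Γ, ∀ x ∈ W, resRep ρ g x ∈ W) → W = ⊥ ∨ W = ⊤ :=
  fun W hW => habs W hW

/-- Burnside over the algebraic closure of the residue field, in matrix form. -/
theorem span_mat_algClosure (habs : ρ.residual.IsAbsolutelyIrreducible) :
    Submodule.span (AlgebraicClosure (IsLocalRing.ResidueField A))
      ((fun Y : Matrix (Fin 2) (Fin 2) (IsLocalRing.ResidueField A) =>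
          Y.map (algebraMap (IsLocalRing.ResidueField A)
            (AlgebraicClosure (IsLocalRing.ResidueField A)))) ''
        (Set.range fun g : Γ => (mat ρ g).map (algebraMap A (IsLocalRing.ResidueField A)))) = ⊤ := by
  let bk : Basis (Fin 2) (IsLocalRing.ResidueField A) (IsLocalRing.ResidueField A ⊗[A] ρ.V) :=
    Algebra.TensorProduct.basis (IsLocalRing.ResidueField A) (basis ρ)
  let bK : Basis (Fin 2) (AlgebraicClosure (IsLocalRing.ResidueField A))
      (AlgebraicClosure (IsLocalRing.ResidueField A) ⊗[IsLocalRing.ResidueField A]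
        (IsLocalRing.ResidueField A ⊗[A] ρ.V)) :=
    Algebra.TensorProduct.basis (AlgebraicClosure (IsLocalRing.ResidueField A)) bk
  have hfr : Module.finrank (AlgebraicClosure (IsLocalRing.ResidueField A))
      (AlgebraicClosure (IsLocalRing.ResidueField A) ⊗[IsLocalRing.ResidueField A]
        (IsLocalRing.ResidueField A ⊗[A] ρ.V)) = 2 := by
    rw [Module.finrank_eq_card_basis bK, Fintype.card_fin]
  have : Nontrivial (AlgebraicClosure (IsLocalRing.ResidueField A) ⊗[IsLocalRing.ResidueField A]
        (IsLocalRing.ResidueField A ⊗[A] ρ.V)) :=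
    Module.nontrivial_of_finrank_pos (R := AlgebraicClosure (IsLocalRing.ResidueField A))
      (by rw [hfr]; norm_num)
  have : FiniteDimensional (AlgebraicClosure (IsLocalRing.ResidueField A))
      (AlgebraicClosure (IsLocalRing.ResidueField A) ⊗[IsLocalRing.ResidueField A]
        (IsLocalRing.ResidueField A ⊗[A] ρ.V)) := Module.Finite.of_basis bK
  have hB := Fermat.Agent.N4F.G.Burnside.span_range_eq_top (resRep ρ) (resRep_irreducible ρ habs)
  have hmat : ∀ g : Γ, LinearMap.toMatrix bK bK (resRep ρ g) =
      ((mat ρ g).map (algebraMap A (IsLocalRing.ResidueField A))).map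
        (algebraMap (IsLocalRing.ResidueField A)
          (AlgebraicClosure (IsLocalRing.ResidueField A))) := by
    intro g
    show LinearMap.toMatrix bK bK (((ρ.ρ g).baseChange (IsLocalRing.ResidueField A)).baseChange
      (AlgebraicClosure (IsLocalRing.ResidueField A))) = _
    rw [LinearMap.toMatrix_baseChange, LinearMap.toMatrix_baseChange]
    rfl
  rw [eq_top_iff]
  intro Z _
  have hf : (LinearMap.toMatrix bK bK).symm Z ∈
      Submodule.span (AlgebraicClosure (IsLocalRing.ResidueField A)) (Set.range (resRep ρ)) := by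
    rw [hB]; trivial
  have key : ∀ f ∈ Submodule.span (AlgebraicClosure (IsLocalRing.ResidueField A))
        (Set.range (resRep ρ)),
      LinearMap.toMatrix bK bK f ∈
        Submodule.span (AlgebraicClosure (IsLocalRing.ResidueField A))
          ((fun Y : Matrix (Fin 2) (Fin 2) (IsLocalRing.ResidueField A) =>
              Y.map (algebraMap (IsLocalRing.ResidueField A)
                (AlgebraicClosure (IsLocalRing.ResidueField A)))) ''
            (Set.range fun g : Γ =>
              (mat ρ g).map (algebraMap A (IsLocalRing.ResidueField A)))) := by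
    intro f hf
    induction hf using Submodule.span_induction with
    | mem f hf =>
      obtain ⟨g, rfl⟩ := hf
      exact Submodule.subset_span ⟨_, ⟨g, rfl⟩, (hmat g).symm⟩
    | zero => rw [map_zero]; exact zero_mem _
    | add f f' _ _ h h' => rw [map_add]; exact add_mem h h'
    | smul a f _ h => rw [map_smul]; exact Submodule.smul_mem _ a h
  have := key _ hf
  rwa [LinearEquiv.apply_symm_apply] at this


/-- The reductions of the matrices of `ρ` span `M₂(k)`. -/
theorem span_mat_residue (habs : ρ.residual.IsAbsolutelyIrreducible) :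
    Submodule.span (IsLocalRing.ResidueField A)
      (Set.range fun g : Γ => (mat ρ g).map (algebraMap A (IsLocalRing.ResidueField A))) = ⊤ :=
  span_eq_top_of_span_map_eq_top
    (algebraMap (IsLocalRing.ResidueField A) (AlgebraicClosure (IsLocalRing.ResidueField A))) _
    (span_mat_algClosure ρ habs)

/-- The matrices of `ρ` span `M₂(A)` over `A` (Nakayama). -/
theorem span_mat_eq_top (habs : ρ.residual.IsAbsolutelyIrreducible) :
    Submodule.span A (Set.range (mat ρ)) = ⊤ := by
  set S : Submodule A (Matrix (Fin 2) (Fin 2) A) := Submodule.span A (Set.range (mat ρ)) with hS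
  have hres := span_mat_residue ρ habs
  -- lifting elements of the residual span
  have hlift : ∀ Z ∈ Submodule.span (IsLocalRing.ResidueField A)
      (Set.range fun g : Γ => (mat ρ g).map (algebraMap A (IsLocalRing.ResidueField A))),
      ∃ Y ∈ S, Y.map (algebraMap A (IsLocalRing.ResidueField A)) = Z := by
    intro Z hZ
    induction hZ using Submodule.span_induction with
    | mem Z hZ =>
      obtain ⟨g, rfl⟩ := hZ
      exact ⟨mat ρ g, Submodule.subset_span ⟨g, rfl⟩, rfl⟩
    | zero => exact ⟨0, zero_mem _, by ext i j; simp⟩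
    | add Z W _ _ hZ hW =>
      obtain ⟨Y, hY, rfl⟩ := hZ
      obtain ⟨Y', hY', rfl⟩ := hW
      exact ⟨Y + Y', add_mem hY hY', by ext i j; simp⟩
    | smul c Z _ hZ =>
      obtain ⟨Y, hY, rfl⟩ := hZ
      obtain ⟨a, rfl⟩ := IsLocalRing.residue_surjective c
      refine ⟨a • Y, Submodule.smul_mem _ a hY, ?_⟩
      ext i j
      simp only [Matrix.map_apply, Matrix.smul_apply, smul_eq_mul, map_mul]
      rfl
  have hle : (⊤ : Submodule A (Matrix (Fin 2) (Fin 2) A)) ≤
      S ⊔ (IsLocalRing.maximalIdeal A) • (⊤ : Submodule A (Matrix (Fin 2) (Fin 2) A)) := by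
    intro Y _
    obtain ⟨Y', hY', hYY'⟩ := hlift (Y.map (algebraMap A (IsLocalRing.ResidueField A)))
      (by rw [hres]; trivial)
    have hent : ∀ i j, (Y - Y') i j ∈ IsLocalRing.maximalIdeal A := by
      intro i j
      have := congrFun (congrFun hYY' i) j
      simp only [Matrix.map_apply] at this
      rw [← IsLocalRing.residue_eq_zero_iff, Matrix.sub_apply, map_sub]
      exact sub_eq_zero.mpr this.symm
    have hmem : Y - Y' ∈ (IsLocalRing.maximalIdeal A) •
        (⊤ : Submodule A (Matrix (Fin 2) (Fin 2) A)) := by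
      rw [Matrix.matrix_eq_sum_single (Y - Y')]
      refine Submodule.sum_mem _ fun i _ => Submodule.sum_mem _ fun j _ => ?_
      have : Matrix.single i j ((Y - Y') i j) = (Y - Y') i j • Matrix.single i j (1 : A) := by
        rw [Matrix.smul_single, smul_eq_mul, mul_one]
      rw [this]
      exact Submodule.smul_mem_smul (hent i j) Submodule.mem_top
    have : Y = Y' + (Y - Y') := by abel
    rw [this]
    exact Submodule.add_mem_sup hY' hmem
  have hfg : (⊤ : Submodule A (Matrix (Fin 2) (Fin 2) A)).FG := Module.Finite.fg_top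
  have hjac : IsLocalRing.maximalIdeal A ≤ (⊥ : Ideal A).jacobson :=
    IsLocalRing.maximalIdeal_le_jacobson ⊥
  exact eq_top_iff.mpr (Submodule.le_of_le_smul_of_le_jacobson_bot hfg hjac hle)

/-- The operators `ρ g` span `End_A V` (Burnside + Nakayama). -/
theorem span_range_eq_top (habs : ρ.residual.IsAbsolutelyIrreducible) :
    Submodule.span A (Set.range ρ.ρ) = ⊤ := by
  have h := span_mat_eq_top ρ habs
  rw [eq_top_iff]
  intro f _
  have hf : LinearMap.toMatrix (basis ρ) (basis ρ) f ∈ Submodule.span A (Set.range (mat ρ)) := by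
    rw [h]; trivial
  have key : ∀ Y ∈ Submodule.span A (Set.range (mat ρ)),
      (LinearMap.toMatrix (basis ρ) (basis ρ)).symm Y ∈ Submodule.span A (Set.range ρ.ρ) := by
    intro Y hY
    induction hY using Submodule.span_induction with
    | mem Y hY =>
      obtain ⟨g, rfl⟩ := hY
      refine Submodule.subset_span ⟨g, ?_⟩
      unfold mat
      rw [LinearEquiv.symm_apply_apply]
    | zero => rw [map_zero]; exact zero_mem _
    | add Y Z _ _ h h' => rw [map_add]; exact add_mem h h'
    | smul a Y _ h => rw [map_smul]; exact Submodule.smul_mem _ a h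
  have := key _ hf
  rwa [LinearEquiv.symm_apply_apply] at this

/-- **Trace rigidity.** If the residual representation is absolutely irreducible and
`tr ρ(τ g) = tr ρ(g)` for all `g`, then `ρ(τ) = 1`. -/
theorem rho_eq_one_of_trace_mul_eq (habs : ρ.residual.IsAbsolutelyIrreducible) (τ : Γ)
    (h : ∀ g : Γ, LinearMap.trace A ρ.V (ρ.ρ (τ * g)) = LinearMap.trace A ρ.V (ρ.ρ g)) :
    ρ.ρ τ = 1 := by
  have hX : mat ρ τ - 1 = 0 := by
    apply matrix_eq_zero_of_trace_mul_eq_zero _ (Set.range (mat ρ)) (span_mat_eq_top ρ habs)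
    rintro Y ⟨g, rfl⟩
    rw [sub_mul, one_mul, Matrix.trace_sub, ← mat_mul, ← trace_eq_mat, ← trace_eq_mat, h g,
      sub_self]
  have h1 : mat ρ τ = 1 := sub_eq_zero.mp hX
  have h2 : LinearMap.toMatrix (basis ρ) (basis ρ) (ρ.ρ τ) =
      LinearMap.toMatrix (basis ρ) (basis ρ) (1 : Module.End A ρ.V) := by
    rw [Module.End.one_eq_id, LinearMap.toMatrix_id]
    exact h1
  exact (LinearMap.toMatrix (basis ρ) (basis ρ)).injective h2

/-- The same with the multiplication on the other side. -/
theorem rho_eq_one_of_trace_mul_eq' (habs : ρ.residual.IsAbsolutelyIrreducible) (τ : Γ)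
    (h : ∀ g : Γ, LinearMap.trace A ρ.V (ρ.ρ (g * τ)) = LinearMap.trace A ρ.V (ρ.ρ g)) :
    ρ.ρ τ = 1 := by
  apply rho_eq_one_of_trace_mul_eq ρ habs τ
  intro g
  rw [map_mul, LinearMap.trace_mul_comm, ← map_mul]
  exact h g

/-- The `GaloisRepAdic.trace` spelling. -/
theorem rho_eq_one_of_trace_eq (habs : ρ.residual.IsAbsolutelyIrreducible) (τ : Γ)
    (h : ∀ g : Γ, ρ.trace (τ * g) = ρ.trace g) : ρ.ρ τ = 1 :=
  rho_eq_one_of_trace_mul_eq ρ habs τ h


/-- Unramifiedness criterion: `ρ` is unramified at `q` as soon as the trace of `ρ` is invariant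
under left translation by inertia at `q`. -/
theorem isUnramifiedAt_of_trace_eq (habs : ρ.residual.IsAbsolutelyIrreducible) (q : ℕ)
    (h : ∀ P : ValuationSubring (AlgebraicClosure ℚ), P.LiesOverPrime q →
      ∀ σ ∈ P.inertiaSubgroupIn ℚ, ∀ g : Γ,
        LinearMap.trace A ρ.V (ρ.ρ (σ * g)) = LinearMap.trace A ρ.V (ρ.ρ g)) :
    ρ.IsUnramifiedAt q :=
  fun P hP σ hσ => rho_eq_one_of_trace_mul_eq ρ habs σ (h P hP σ hσ)

end Local

end Fermat.Agent.N4F.Adic.TraceRigidity
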